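import Fermat.Agent.Local.Inertia
import Mathlib.FieldTheory.Galois.Infinite
import Mathlib.FieldTheory.IsAlgClosed.AlgebraicClosure
import Mathlib.RingTheory.Int.Basic

/-!
# The valuation of a place above a rational prime, restricted to the rationals
-/

namespace FA.Local

variable {L Γ : Type*} [Field L] [LinearOrderedCommGroupWithZero Γ] {v : Valuation L Γ}

lemma natCast_eq_one_of_not_dvd {q : ℕ} (hq : q.Prime) (hv : v (q : L) < 1) {n : ℤ}
    (hn : ¬ (q : ℤ) ∣ n) : v (n : L) = 1 := by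
  refine eq_one_of_not_lt (intCast_le_one n) fun h => ?_
  obtain ⟨u, w, huw⟩ : IsCoprime (q : ℤ) n :=
    ((Nat.prime_iff_prime_int.mp hq).irreducible.coprime_iff_not_dvd).mpr hn
  have h1 : v ((u * q + w * n : ℤ) : L) < 1 := by
    push_cast
    exact v.map_add_lt (map_mul_lt_one (intCast_le_one u) hv)
      (map_mul_lt_one (intCast_le_one w) h)
  rw [huw, Int.cast_one, v.map_one] at h1
  exact lt_irrefl _ h1

lemma intCast_lt_one_of_dvd {q : ℕ} (hv : v (q : L) < 1) {n : ℤ} (hn : (q : ℤ) ∣ n) :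
    v (n : L) < 1 := by
  obtain ⟨m, rfl⟩ := hn
  push_cast
  exact map_mul_lt_one' hv (intCast_le_one m)

lemma map_intCast_eq_pow {q : ℕ} (hq : q.Prime) (hv : v (q : L) < 1) {n : ℤ} (hn : n ≠ 0) :
    ∃ k : ℕ, v (n : L) = v (q : L) ^ k ∧ ((q : ℤ) ∣ n → 1 ≤ k) := by
  have hfin : FiniteMultiplicity (q : ℤ) n := Int.finiteMultiplicity_iff.mpr
    ⟨by simpa using hq.ne_one, hn⟩
  obtain ⟨m, hm, hnm⟩ := hfin.exists_eq_pow_mul_and_not_dvd
  refine ⟨multiplicity (q : ℤ) n, ?_, fun hd => ?_⟩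
  · conv_lhs => rw [hm]
    push_cast
    rw [map_mul, map_pow, natCast_eq_one_of_not_dvd hq hv hnm, mul_one]
  · by_contra hk
    rw [not_le, Nat.lt_one_iff] at hk
    rw [hk, pow_zero, one_mul] at hm
    exact hnm (hm ▸ hd)

lemma map_ratCast_eq_zpow [CharZero L] {q : ℕ} (hq : q.Prime) (hv : v (q : L) < 1) {c : ℚ}
    (hc : c ≠ 0) : ∃ k : ℤ, v (c : L) = v (q : L) ^ k := by
  obtain ⟨a, ha, -⟩ := map_intCast_eq_pow (v := v) hq hv (Rat.num_ne_zero.mpr hc)
  obtain ⟨b, hb, -⟩ := map_intCast_eq_pow (v := v) hq hv (n := (c.den : ℤ)) (by exact_mod_cast c.den_nz)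
  refine ⟨a - b, ?_⟩
  rw [Int.cast_natCast] at hb
  rw [Rat.cast_def, map_div₀, ha, hb, zpow_sub₀, zpow_natCast, zpow_natCast]
  exact v.ne_zero_iff.mpr (Nat.cast_ne_zero.mpr hq.ne_zero)

/-- A rational number of value `> 1` has value at least `(v q)⁻¹`. -/
lemma one_le_mul_of_one_lt [CharZero L] {q : ℕ} (hq : q.Prime) (hv : v (q : L) < 1) {c : ℚ}
    (hc : 1 < v (c : L)) : 1 ≤ v (q : L) * v (c : L) := by
  have hq0 : 0 < v (q : L) := v.pos_iff.mpr (Nat.cast_ne_zero.mpr hq.ne_zero)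
  have hc0 : c ≠ 0 := by rintro rfl; simp at hc
  obtain ⟨k, hk⟩ := map_ratCast_eq_zpow hq hv hc0
  rw [hk] at hc ⊢
  have hk0 : k + 1 ≤ 0 := by
    by_contra h
    refine absurd hc (not_lt.mpr ?_)
    obtain ⟨n, rfl⟩ := Int.eq_ofNat_of_zero_le (show 0 ≤ k by omega)
    rw [zpow_natCast]
    exact pow_le_one₀ zero_le hv.le
  rw [mul_comm, ← zpow_add_one₀ hq0.ne']
  obtain ⟨n, hn⟩ := Int.exists_eq_neg_ofNat hk0
  rw [hn, zpow_neg, zpow_natCast]
  exact one_le_inv₀ (pow_pos hq0 n) |>.mpr (pow_le_one₀ zero_le hv.le)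

/-- Modulo `2`, a rational number which is integral is congruent to `0` or `1`. -/
lemma ratCast_lt_one_or_sub_one_lt_one [CharZero L] (hv : v (2 : L) < 1) {c : ℚ}
    (hc : v (c : L) ≤ 1) : v (c : L) < 1 ∨ v ((c : L) - 1) < 1 := by
  have hv' : v ((2 : ℕ) : L) < 1 := by exact_mod_cast hv
  by_cases h : v (c : L) < 1
  · exact Or.inl h
  refine Or.inr ?_
  have h1 : v (c : L) = 1 := eq_one_of_not_lt hc h
  have hden : ¬ ((2 : ℕ) : ℤ) ∣ c.den := by
    intro hd
    have hlt : v (c.den : L) < 1 := by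
      have := intCast_lt_one_of_dvd hv' hd
      rwa [Int.cast_natCast] at this
    have hnum : v (c.num : L) < 1 := by
      have e : (c.num : L) = (c : L) * (c.den : L) := by
        rw [Rat.cast_def, div_mul_cancel₀ _ (Nat.cast_ne_zero.mpr c.den_nz)]
      rw [e, map_mul, h1, one_mul]; exact hlt
    by_cases hnd : ((2 : ℕ) : ℤ) ∣ c.num
    · have := c.reduced
      exact Nat.not_coprime_of_dvd_of_dvd one_lt_two (Int.natCast_dvd.mp hnd)
        (Int.natCast_dvd_natCast.mp hd) this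
    · exact hnum.ne (natCast_eq_one_of_not_dvd Nat.prime_two hv' hnd)
  have hden1 : v (c.den : L) = 1 := by
    have := natCast_eq_one_of_not_dvd Nat.prime_two hv' hden
    rwa [Int.cast_natCast] at this
  have hnum : ¬ ((2 : ℕ) : ℤ) ∣ c.num := fun hd => h (by
    rw [Rat.cast_def, map_div₀, hden1, div_one]; exact intCast_lt_one_of_dvd hv' hd)
  have hd2 : ((2 : ℕ) : ℤ) ∣ c.num - c.den := by push_cast at hnum hden ⊢; omega
  have e : (c : L) - 1 = ((c.num - c.den : ℤ) : L) / (c.den : L) := by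
    push_cast
    rw [Rat.cast_def, sub_div, div_self (Nat.cast_ne_zero.mpr c.den_nz)]
  rw [e, map_div₀, hden1, div_one]
  exact intCast_lt_one_of_dvd hv' hd2

/-- `Galois`-fixed algebraic numbers are rational. -/
lemma exists_ratCast_of_fixed (x : AlgebraicClosure ℚ)
    (h : ∀ σ : AlgebraicClosure ℚ ≃ₐ[ℚ] AlgebraicClosure ℚ, σ x = x) :
    ∃ c : ℚ, (c : AlgebraicClosure ℚ) = x := by
  have : IsGalois ℚ (AlgebraicClosure ℚ) := ⟨⟩
  obtain ⟨c, hc⟩ := (InfiniteGalois.mem_range_algebraMap_iff_fixed x).mpr h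
  exact ⟨c, by rw [← hc, eq_ratCast]⟩

end FA.Local
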