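import Fermat.Agent.Deform.Frobenius
import Fermat.Agent.Local.Primes
import Fermat.Prelude.Def_FLTPrelim_Ramification
import Mathlib.NumberTheory.NumberField.ExistsRamified
import Mathlib.NumberTheory.RamificationInertia.Galois
import Mathlib.FieldTheory.Galois.Infinite

/-!
# A normal open subgroup containing every inertia group is everything (Minkowski)
-/

noncomputable section

open FA.Deform
open scoped Pointwise

namespace FA.Local

local notation "Qb" => AlgebraicClosure ℚ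
local notation "GQ" => AlgebraicClosure ℚ ≃ₐ[ℚ] AlgebraicClosure ℚ

instance isGalois_qbar : IsGalois ℚ (AlgebraicClosure ℚ) := by
  have : Algebra.IsAlgebraic ℚ (AlgebraicClosure ℚ) := AlgebraicClosure.isAlgebraic ℚ
  have : IsAlgClosure ℚ (AlgebraicClosure ℚ) := ⟨inferInstance, inferInstance⟩
  have : Normal ℚ (AlgebraicClosure ℚ) := IsAlgClosure.normal ℚ (AlgebraicClosure ℚ)
  exact ⟨⟩

/-- An automorphism inducing the identity modulo the prime of `A` in the algebraic integers is in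
the inertia subgroup of `A`. -/
lemma mem_inertiaSubgroupIn_of_forall {A : ValuationSubring Qb} {q : ℕ} (hq : q.Prime)
    (hA : A.LiesOverPrime q) {σ : GQ} (hσ : ∀ b : ZBar, σ • b - b ∈ primeAt A) :
    σ ∈ A.inertiaSubgroupIn ℚ := by
  have hunit : ∀ s : ZBar, s ∉ primeAt A →
      (s : Qb) ≠ 0 ∧ (s : Qb)⁻¹ ∈ A := fun s hs => by
    have h : (s : Qb) ∉ A.nonunits := fun h => hs (mem_primeAt.mpr h)
    rw [ValuationSubring.mem_nonunits_iff_or, not_or, not_not] at h
    exact h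
  have hfix : ∀ b : ZBar, σ • b ∈ primeAt A ↔ b ∈ primeAt A := fun b =>
    ⟨fun h => by simpa using (primeAt A).sub_mem h (hσ b),
      fun h => by simpa using (primeAt A).add_mem (hσ b) h⟩
  have hstab : ∀ (τ : GQ), (∀ b : ZBar, τ • b ∈ primeAt A ↔ b ∈ primeAt A) →
      ∀ x ∈ A, τ x ∈ A := by
    intro τ hτ x hx
    obtain ⟨b, s, hs, hsx⟩ := exists_fraction hq hA hx
    obtain ⟨h1, h2⟩ := hunit (τ • s) (fun h => hs ((hτ s).mp h))
    have : τ x = ((τ • s : ZBar) : Qb)⁻¹ * ((τ • b : ZBar) : Qb) := by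
      rw [integralClosure.coe_smul, integralClosure.coe_smul, AlgEquiv.smul_def, AlgEquiv.smul_def,
        ← hsx, map_mul, inv_mul_cancel_left₀ (by exact h1)]
    rw [this]
    exact A.mul_mem _ _ h2 (zbar_mem_valuationSubring A _)
  have hdec : σ ∈ A.decompositionSubgroup ℚ := by
    rw [MulAction.mem_stabilizer_iff]
    ext x
    rw [ValuationSubring.mem_pointwise_smul_iff_inv_smul_mem, AlgEquiv.smul_def]
    constructor
    · intro hx
      have h := hstab σ hfix _ hx
      rwa [AlgEquiv.aut_inv, AlgEquiv.apply_symm_apply] at h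
    · intro hx
      exact hstab σ⁻¹ (fun b => by simpa using (hfix (σ⁻¹ • b)).symm) x hx
  refine ⟨⟨σ, hdec⟩, ?_, rfl⟩
  let g : A.decompositionSubgroup ℚ := ⟨σ, hdec⟩
  refine RingEquiv.ext fun r => ?_
  show g • r = r
  obtain ⟨⟨x, hx⟩, rfl⟩ := IsLocalRing.residue_surjective r
  obtain ⟨b, s, hs, hsx⟩ := exists_fraction hq hA hx
  let ρ : ZBar →+* IsLocalRing.ResidueField A := (IsLocalRing.residue A).comp (zbarIncl A)
  have hρ : ∀ y : ZBar, g • ρ y = ρ y := fun y => by
    have h2 : ρ (σ • y - y) = 0 := (IsLocalRing.residue_eq_zero_iff _).mpr (hσ y)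
    rw [map_sub, sub_eq_zero] at h2
    exact h2
  have hne : ρ s ≠ 0 := fun h => hs ((IsLocalRing.residue_eq_zero_iff _).mp h)
  have hprod : ρ s * IsLocalRing.residue A ⟨x, hx⟩ = ρ b := by
    rw [show ρ s = IsLocalRing.residue A (zbarIncl A s) from rfl, ← map_mul]
    exact congrArg (IsLocalRing.residue A) (Subtype.ext hsx)
  refine mul_left_cancel₀ hne ?_
  calc ρ s * (g • IsLocalRing.residue A ⟨x, hx⟩)
      = g • (ρ s * IsLocalRing.residue A ⟨x, hx⟩) := by rw [smul_mul', hρ]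
    _ = _ := by rw [hprod, hρ]

section

variable (K : IntermediateField ℚ Qb)

/-- The algebraic integers of a subfield of `ℚ̄`, inside all algebraic integers. -/
def intIncl : NumberField.RingOfIntegers K →+* ZBar :=
  ((algebraMap K Qb).comp (algebraMap (NumberField.RingOfIntegers K) K)).codRestrict
    (integralClosure ℤ Qb).toSubring fun x =>
      (map_isIntegral_int (algebraMap K Qb) (NumberField.RingOfIntegers.isIntegral_coe x) :)

lemma coe_intIncl (x : NumberField.RingOfIntegers K) : (intIncl K x : Qb) = ((x : K) : Qb) := rfl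

/-- If, above every prime, some inertia group fixes a finite Galois extension of `ℚ`, this extension is trivial. -/
theorem finrank_eq_one_of_inertia_le [FiniteDimensional ℚ K] [IsGalois ℚ K]
    (h : ∀ q : ℕ, q.Prime → ∃ A : ValuationSubring Qb, A.LiesOverPrime q ∧
      A.inertiaSubgroupIn ℚ ≤ K.fixingSubgroup) :
    Module.finrank ℚ K = 1 := by
  by_contra hne
  have hpos : 0 < Module.finrank ℚ K := Module.finrank_pos
  have : NumberField K := { }
  let 𝒪 := NumberField.RingOfIntegers K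
  obtain ⟨p, hp, hram⟩ := NumberField.exists_not_isUnramifiedAt_int_of_isGalois (K := K) (𝒪 := 𝒪)
    (by omega)
  obtain ⟨A, hA, hAle⟩ := h p hp
  let _ : Algebra 𝒪 ZBar := (intIncl K).toAlgebra
  let P : Ideal 𝒪 := (primeAt A).comap (algebraMap 𝒪 ZBar)
  have hPp : P.IsPrime := Ideal.comap_isPrime _ _
  have hpP : (p : 𝒪) ∈ P := by
    show algebraMap 𝒪 ZBar p ∈ primeAt A
    rw [map_natCast]
    simpa [mem_primeAt, ValuationSubring.LiesOverPrime] using hA
  have hPram := hram P hPp hpP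
  -- a nontrivial element of the inertia group of `P`
  let _ : MulSemiringAction (K ≃ₐ[ℚ] K) 𝒪 := IsIntegralClosure.MulSemiringAction ℤ ℚ K 𝒪
  have : IsFractionRing 𝒪 K :=
    IsIntegralClosure.isFractionRing_of_finite_extension ℤ ℚ K 𝒪
  have : Module.Finite ℤ 𝒪 := IsIntegralClosure.finite ℤ ℚ K 𝒪
  have : IsDedekindDomain 𝒪 := IsIntegralClosure.isDedekindDomain ℤ ℚ K 𝒪
  have := IsGaloisGroup.of_isFractionRing (K ≃ₐ[ℚ] K) ℤ 𝒪 ℚ K
  let pI : Ideal ℤ := Ideal.span {(p : ℤ)}
  have hpI : pI.IsMaximal := PrincipalIdealRing.isMaximal_of_irreducible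
    (Nat.prime_iff_prime_int.mp hp).irreducible
  have hover : P.LiesOver pI := by
    refine ⟨hpI.eq_of_le (Ideal.IsPrime.ne_top') ?_⟩
    rw [Ideal.span_le, Set.singleton_subset_iff, SetLike.mem_coe, Ideal.mem_comap]
    simpa using hpP
  have : Finite pI.ResidueField := by
    have : Finite (ℤ ⧸ pI) := by
      have : NeZero p := ⟨hp.ne_zero⟩
      exact Finite.of_equiv (ZMod p) (Int.quotientSpanNatEquivZMod p).symm.toEquiv
    exact Finite.of_surjective _ pI.bijective_algebraMap_quotient_residueField.2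
  have hcard : Nat.card (P.inertia (K ≃ₐ[ℚ] K)) ≠ 1 := by
    rw [Ideal.card_inertia_eq_ramificationIdxIn pI P,
      Ideal.ramificationIdxIn_eq_ramificationIdx pI P (K ≃ₐ[ℚ] K), Ne,
      Ideal.ramificationIdx_eq_one_iff]
    exact hPram
  obtain ⟨τ, hτ, hτ1⟩ : ∃ τ ∈ P.inertia (K ≃ₐ[ℚ] K), τ ≠ 1 := by
    by_contra hc
    push Not at hc
    exact hcard (by rw [(Subgroup.eq_bot_iff_forall _).mpr hc, Subgroup.card_bot])
  have hτA : ∀ x : 𝒪, (((τ • x : 𝒪) : K) : Qb) = ((τ (x : K) : K) : Qb) := fun x => by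
    have : ((τ • x : 𝒪) : K) = τ (x : K) :=
      (algebraMap.coe_smul' τ x K)
    rw [this]
  -- lift it
  let σ₀ : GQ := τ.liftNormal Qb
  have hσ₀ : ∀ y : K, σ₀ (y : Qb) = ((τ y : K) : Qb) := fun y => τ.liftNormal_commutes Qb y
  have hσ₀' : ∀ x : 𝒪, σ₀ • algebraMap 𝒪 ZBar x = algebraMap 𝒪 ZBar (τ • x) := fun x => by
    refine Subtype.ext ?_
    rw [integralClosure.coe_smul]
    show σ₀ ((x : K) : Qb) = (((τ • x : 𝒪) : K) : Qb)
    rw [hσ₀, hτA]
  -- the Galois group of `ℚ̄ / K` acting on all algebraic integers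
  let H := K.fixingSubgroup
  have hHclosed : IsClosed (H : Set GQ) := K.fixingSubgroup_isClosed
  have : CompactSpace H := isCompact_iff_compactSpace.mp hHclosed.isCompact
  let _ : TopologicalSpace ZBar := ⊥
  have : DiscreteTopology ZBar := ⟨rfl⟩
  have : ContinuousSMul GQ ZBar := by
    rw [continuousSMul_iff_stabilizer_isOpen]
    intro x
    have h := stabilizer_isOpen_of_isIntegral (K := ℚ) (x : Qb)
    convert h using 2
    ext g
    simp only [MulAction.mem_stabilizer_iff, Subtype.ext_iff, integralClosure.coe_smul]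
  have : ContinuousSMul H ZBar :=
    ⟨(continuous_smul (M := GQ) (X := ZBar)).comp (continuous_subtype_val.prodMap continuous_id)⟩
  have hHfix : ∀ (g : H) (x : 𝒪), g • algebraMap 𝒪 ZBar x = algebraMap 𝒪 ZBar x := fun g x => by
    refine Subtype.ext ?_
    show ((g : GQ) • algebraMap 𝒪 ZBar x : ZBar).1 = _
    rw [integralClosure.coe_smul]
    exact g.2 ⟨((x : K) : Qb), (x : K).2⟩
  have : SMulCommClass H 𝒪 ZBar := ⟨fun g x b => by
    rw [Algebra.smul_def, Algebra.smul_def, smul_mul', hHfix]⟩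
  have : Algebra.IsInvariant 𝒪 ZBar H := by
    constructor
    intro b hb
    have hbK : (b : Qb) ∈ K := by
      rw [← InfiniteGalois.fixedField_fixingSubgroup K]
      intro g
      exact congrArg Subtype.val (hb g)
    refine ⟨⟨⟨(b : Qb), hbK⟩, ?_⟩, Subtype.ext rfl⟩
    exact (isIntegral_algebraMap_iff (B := Qb) (algebraMap K Qb).injective).mp b.2
  -- `σ₀` can be corrected to fix the prime
  let Q := primeAt A
  have hunder : ∀ x : 𝒪, algebraMap 𝒪 ZBar x ∈ σ₀⁻¹ • Q ↔ algebraMap 𝒪 ZBar x ∈ Q := fun x => by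
    rw [Ideal.mem_inv_pointwise_smul_iff, hσ₀']
    exact ⟨fun h => (show x ∈ P by simpa using P.sub_mem (h : τ • x ∈ P) (hτ x)),
      fun h => (show τ • x ∈ P by simpa using P.add_mem (hτ x) (h : x ∈ P))⟩
  obtain ⟨g, hg⟩ := Algebra.IsInvariant.exists_smul_of_under_eq_of_profinite (A := 𝒪) (G := H)
    Q (σ₀⁻¹ • Q) (Ideal.ext fun x => (hunder x).symm)
  let σ₁ : GQ := σ₀ * (g : GQ)
  have hσ₁Q : σ₁ • Q = Q := by
    rw [show σ₁ • Q = σ₀ • ((g : GQ) • Q) from mul_smul _ _ _,
      show (g : GQ) • Q = σ₀⁻¹ • Q from hg.symm, smul_inv_smul]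
  have hσ₁𝒪 : ∀ x : 𝒪, σ₁ • algebraMap 𝒪 ZBar x - algebraMap 𝒪 ZBar x ∈ Q := fun x => by
    rw [show σ₁ • algebraMap 𝒪 ZBar x = σ₀ • ((g : GQ) • algebraMap 𝒪 ZBar x) from mul_smul _ _ _,
      show (g : GQ) • algebraMap 𝒪 ZBar x = g • algebraMap 𝒪 ZBar x from rfl, hHfix, hσ₀', ← map_sub]
    exact hτ x
  -- correct again by an element of `Gal(ℚ̄ / K)` to get an element of inertia
  have : Q.LiesOver P := ⟨rfl⟩
  let e : (ZBar ⧸ Q) ≃ₐ[𝒪 ⧸ P] (ZBar ⧸ Q) :=
    AlgEquiv.ofRingEquiv (f := Ideal.quotientEquiv Q Q (MulSemiringAction.toRingEquiv GQ ZBar σ₁)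
      hσ₁Q.symm) (by
      intro a
      obtain ⟨x, rfl⟩ := Ideal.Quotient.mk_surjective a
      show Ideal.Quotient.mk Q (σ₁ • algebraMap 𝒪 ZBar x) = Ideal.Quotient.mk Q (algebraMap 𝒪 ZBar x)
      rw [Ideal.Quotient.eq]
      exact hσ₁𝒪 x)
  obtain ⟨⟨g', hg'Q⟩, hg'⟩ :=
    Ideal.Quotient.stabilizerHom_surjective_of_profinite (G := H) P Q e
  let σ : GQ := (g' : GQ)⁻¹ * σ₁
  have hg'' : ∀ b : ZBar, (g' : GQ) • b - σ₁ • b ∈ Q := fun b => by
    rw [← Ideal.Quotient.eq]
    exact AlgEquiv.congr_fun hg' (Ideal.Quotient.mk Q b)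
  have hσ : ∀ b : ZBar, σ • b - b ∈ Q := fun b => by
    have h := hg'' b
    have hgg : (g' : GQ)⁻¹ • Q = Q := by
      rw [inv_smul_eq_iff]; exact hg'Q.symm
    rw [← Ideal.neg_mem_iff, neg_sub] at h
    have := Ideal.smul_mem_pointwise_smul (g' : GQ)⁻¹ _ _ h
    rwa [hgg, smul_sub, inv_smul_smul, ← mul_smul] at this
  have hσH : σ ∈ H := hAle (mem_inertiaSubgroupIn_of_forall hp hA hσ)
  have hσ₀H : σ₀ ∈ H := by
    have h1 : σ₁ ∈ H := by
      have := H.mul_mem g'.2 hσH
      rwa [mul_inv_cancel_left] at this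
    have := H.mul_mem h1 (H.inv_mem g.2)
    rwa [mul_inv_cancel_right] at this
  refine hτ1 (AlgEquiv.ext fun y => Subtype.ext ?_)
  rw [← hσ₀ y]
  exact hσ₀H y

end

/-- A normal subgroup of the Galois group of `ℚ`, containing the Galois group over a finite
extension and, above every prime, an inertia group, is everything. -/
theorem eq_top_of_inertia_le (H : Subgroup GQ) [H.Normal] (E : IntermediateField ℚ Qb)
    [FiniteDimensional ℚ E] (hE : ∀ σ : GQ, (∀ x ∈ E, σ x = x) → σ ∈ H)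
    (h : ∀ q : ℕ, q.Prime → ∃ A : ValuationSubring Qb, A.LiesOverPrime q ∧
      A.inertiaSubgroupIn ℚ ≤ H) : H = ⊤ := by
  have hle : E.fixingSubgroup ≤ H := fun σ hσ => hE σ fun x hx => hσ ⟨x, hx⟩
  have hopen : IsOpen (H : Set GQ) := Subgroup.isOpen_mono hle E.fixingSubgroup_isOpen
  let Hc : ClosedSubgroup GQ := ⟨H, Subgroup.isClosed_of_isOpen H hopen⟩
  set K := IntermediateField.fixedField H
  have hKH : K.fixingSubgroup = H := InfiniteGalois.fixingSubgroup_fixedField Hc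
  have hKn : K.fixingSubgroup.Normal := hKH.symm ▸ (inferInstance : H.Normal)
  have : IsGalois ℚ K := (InfiniteGalois.normal_iff_isGalois K).mp hKn
  have : FiniteDimensional ℚ K := (InfiniteGalois.isOpen_iff_finite K).mp (by rw [hKH]; exact hopen)
  have h1 := finrank_eq_one_of_inertia_le K fun q hq => hKH.symm ▸ h q hq
  rw [← hKH, IntermediateField.finrank_eq_one_iff.mp h1, IntermediateField.fixingSubgroup_bot]

end FA.Local

end
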