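import Fermat.Agent.Local.Node
import Fermat.Prelude.Def_FLTPrelim_Ramification
import Mathlib.AlgebraicGeometry.EllipticCurve.VariableChange
import Mathlib.FieldTheory.IsAlgClosed.Basic
import Mathlib.RingTheory.Algebraic.Integral

/-!
# Inertia acting on points

`Inert v σ` records that the automorphism `σ` preserves the valuation `v` and fixes residues.
It holds for the elements of the inertia subgroup of a valuation subring of an algebraic
extension. We deduce the effect of inertia on the reduction of points.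
-/

namespace FA.Local

open WeierstrassCurve
open scoped Pointwise

section

variable {F L Γ : Type*} [Field F] [Field L] [Algebra F L] [LinearOrderedCommGroupWithZero Γ]

/-- `σ` preserves `v` and acts trivially on its residue field. -/
structure Inert (v : Valuation L Γ) (σ : L ≃ₐ[F] L) : Prop where
  map_eq : ∀ x, v (σ x) = v x
  sub_lt : ∀ x, v x ≤ 1 → v (σ x - x) < 1

/-- Inertia elements of a valuation subring of an algebraic extension are inert. -/
theorem inert_of_mem_inertiaSubgroupIn [Algebra.IsAlgebraic F L] (A : ValuationSubring L)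
    {σ : L ≃ₐ[F] L} (hσ : σ ∈ A.inertiaSubgroupIn F) : Inert A.valuation σ := by
  obtain ⟨τ, hτ, rfl⟩ := hσ
  have hstab : (τ : L ≃ₐ[F] L) • A = A := τ.2
  have hmem : ∀ x ∈ A, (τ : L ≃ₐ[F] L) x ∈ A := by
    intro x hx
    have := ValuationSubring.smul_mem_pointwise_smul (τ : L ≃ₐ[F] L) x A hx
    rwa [hstab] at this
  have hres : ∀ x, A.valuation x ≤ 1 → A.valuation ((τ : L ≃ₐ[F] L) x - x) < 1 := by
    intro x hx
    rw [A.valuation_le_one_iff] at hx
    have h := congrArg (fun e : RingAut (IsLocalRing.ResidueField A) =>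
      e (IsLocalRing.residue A ⟨x, hx⟩)) hτ
    change τ • IsLocalRing.residue A ⟨x, hx⟩ = IsLocalRing.residue A ⟨x, hx⟩ at h
    rw [← IsLocalRing.ResidueField.residue_smul, ← sub_eq_zero, ← map_sub,
      IsLocalRing.residue_eq_zero_iff, ← A.coe_mem_nonunits_iff, A.mem_nonunits_iff] at h
    exact h
  refine ⟨fun x => ?_, hres⟩
  by_cases hx : x = 0
  · simp [hx]
  set f : L ≃ₐ[F] L := (τ : L ≃ₐ[F] L)
  have hle : ∀ a, A.valuation a ≤ 1 → A.valuation (f a) ≤ 1 := by
    intro a ha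
    rw [A.valuation_le_one_iff] at ha ⊢
    exact hmem a ha
  have hlt : ∀ a, A.valuation a < 1 → A.valuation (f a) < 1 := by
    intro a ha
    exact lt_one_of_sub_lt ha (hres a ha.le)
  -- some power of `f` fixes `x`
  obtain ⟨n, hn0, hn⟩ : ∃ n : ℕ, 0 < n ∧ (f ^ n) x = x := by
    have hfin : (Set.range fun i : ℕ => (f ^ i) x).Finite := by
      refine Set.Finite.subset ((minpoly F x).rootSet_finite L) ?_
      rintro _ ⟨i, rfl⟩
      rw [Polynomial.mem_rootSet]
      refine ⟨minpoly.ne_zero (Algebra.IsAlgebraic.isAlgebraic x).isIntegral, ?_⟩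
      show Polynomial.aeval ((f ^ i : L ≃ₐ[F] L) x) (minpoly F x) = 0
      rw [← AlgEquiv.coe_toAlgHom, Polynomial.aeval_algHom_apply, minpoly.aeval, map_zero]
    obtain ⟨i, j, hij, h⟩ : ∃ i j : ℕ, i < j ∧ (f ^ i) x = (f ^ j) x := by
      by_contra hc
      refine Set.infinite_range_of_injective (fun i j h => ?_) hfin
      rcases lt_trichotomy i j with h' | h' | h'
      · exact absurd ⟨i, j, h', h⟩ hc
      · exact h'
      · exact absurd ⟨j, i, h', h.symm⟩ hc
    refine ⟨j - i, by omega, (f ^ i).injective ?_⟩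
    rw [← AlgEquiv.mul_apply, ← pow_add, show i + (j - i) = j by omega]
    exact h.symm
  have hmono : ∀ a b, A.valuation a < A.valuation b → A.valuation (f a) < A.valuation (f b) := by
    intro a b hab
    have hb : b ≠ 0 := A.valuation.pos_iff.mp (lt_of_le_of_lt zero_le hab)
    have hfb : 0 < A.valuation (f b) := A.valuation.pos_iff.mpr (by simpa using hb)
    have h := hlt (a / b) (map_div_lt_one hab)
    rwa [map_div₀, map_div₀, div_lt_one₀ hfb] at h
  have hpow : ∀ i, (f ^ (i + 1)) x = f ((f ^ i) x) := fun i => by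
    rw [pow_succ', AlgEquiv.mul_apply]
  rcases lt_trichotomy (A.valuation (f x)) (A.valuation x) with h | h | h
  · have : StrictAnti fun i : ℕ => A.valuation ((f ^ i) x) := strictAnti_nat_of_succ_lt fun i => by
      induction i with
      | zero => simpa using h
      | succ i ih => simpa only [hpow] using hmono _ _ ih
    have := this hn0
    simp only [hn, pow_zero, AlgEquiv.one_apply] at this
    exact absurd this (lt_irrefl _)
  · exact h
  · have : StrictMono fun i : ℕ => A.valuation ((f ^ i) x) := strictMono_nat_of_lt_succ fun i => by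
      induction i with
      | zero => simpa using h
      | succ i ih => simpa only [hpow] using hmono _ _ ih
    have := this hn0
    simp only [hn, pow_zero, AlgEquiv.one_apply] at this
    exact absurd this (lt_irrefl _)

set_option linter.unusedSectionVars false

variable {v : Valuation L Γ} {σ : L ≃ₐ[F] L} (W : WeierstrassCurve F) [DecidableEq L]

lemma smul_some {x y : L} (h : (W⁄L).toAffine.Nonsingular x y) :
    ∃ h' : (W⁄L).toAffine.Nonsingular (σ x) (σ y),
      σ • (Affine.Point.some x y h : (W⁄L).toAffine.Point) = .some (σ x) (σ y) h' :=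
  ⟨_, rfl⟩

lemma gal_smul_zero (τ : L ≃ₐ[F] L) : τ • (0 : (W⁄L).toAffine.Point) = 0 :=
  smul_zero τ

lemma gal_smul_add (τ : L ≃ₐ[F] L) (P Q : (W⁄L).toAffine.Point) :
    τ • (P + Q) = τ • P + τ • Q :=
  smul_add τ P Q

lemma gal_smul_sub (τ : L ≃ₐ[F] L) (P Q : (W⁄L).toAffine.Point) :
    τ • (P - Q) = τ • P - τ • Q :=
  smul_sub τ P Q

/-- Inertia moves a point reducing to a nonsingular point inside the kernel of reduction. -/
lemma Inert.e1_smul_sub (hσ : Inert v σ) (hI : IntCoeff v (W⁄L).toAffine)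
    (P : (W⁄L).toAffine.Point)
    (hP : ∀ x y h, P = Affine.Point.some x y h → v x ≤ 1 → NsRed v (W⁄L).toAffine x y) :
    E1 v (W⁄L).toAffine (σ • P - P) := by
  rcases P with _ | ⟨x, y, h⟩
  · rw [← Affine.Point.zero_def, smul_zero, sub_zero]; exact e1_zero
  obtain ⟨h', he⟩ := smul_some (σ := σ) W h
  rcases le_or_gt (v x) 1 with hx | hx
  · rw [← e1_neg, neg_sub, he]
    refine e1_sub_of_congr hI h h' hx (hP x y h rfl hx) ?_ ?_
    · rw [v.map_sub_swap]; exact hσ.sub_lt x hx
    · rw [v.map_sub_swap]; exact hσ.sub_lt y (le_y_of_le_x hI h.1 hx)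
  · refine e1_sub hI ?_ hx
    rw [he, e1_some, hσ.map_eq]
    exact hx

lemma Inert.e1_smul_sub_of_e0 (hσ : Inert v σ) (hN : Node v (W⁄L).toAffine)
    {P : (W⁄L).toAffine.Point} (hP : E0 v (W⁄L).toAffine P) :
    E1 v (W⁄L).toAffine (σ • P - P) := by
  refine hσ.e1_smul_sub W hN.hI P fun x y h he hx => ?_
  subst he
  exact hN.nsRed h.1 (le_antisymm hx hP)

lemma Inert.br_smul (hσ : Inert v σ) (hN : Node v (W⁄L).toAffine) {P : (W⁄L).toAffine.Point}
    {g : Γ} {s : L} (hP : Br v (W⁄L).toAffine P g s) :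
    Br v (W⁄L).toAffine (σ • P) g s := by
  obtain ⟨x, y, h, rfl⟩ := hP.exists_eq
  obtain ⟨h', he⟩ := smul_some (σ := σ) W h
  rw [he, br_some]
  rw [br_some] at hP
  obtain ⟨h1, h2, h3, h4, h5⟩ := hP
  have ht : v (y / x) ≤ 1 := by
    simpa using v.map_add_le h4.le (hN.root_le_one h5)
  refine ⟨by rw [hσ.map_eq, h1], h2, h3, ?_, h5⟩
  have := v.map_add_lt (hσ.sub_lt _ ht) h4
  rwa [map_div₀, sub_add_sub_cancel] at this

lemma Inert.e0_smul_sub (hσ : Inert v σ) (hN : Node v (W⁄L).toAffine) {p : ℕ} (hp : Odd p)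
    {P : (W⁄L).toAffine.Point} (hpP : p • P = 0) :
    E0 v (W⁄L).toAffine (σ • P - P) := by
  rcases hN.e0_or_br hp hpP with hP | ⟨g, s, hP⟩
  · exact e1_e0 (hσ.e1_smul_sub_of_e0 W hN hP)
  · exact hN.sub_e0_of_br (hσ.br_smul W hN hP) hP

/-- If the abscissa value of a branch point is the value of an element fixed by inertia, some
point of the same class is fixed by inertia. -/
lemma exists_fixed_br [IsAlgClosed L] (hN : Node v (W⁄L).toAffine)
    (hΔ : (W⁄L).toAffine.Δ ≠ 0) {P : (W⁄L).toAffine.Point} {g : Γ} {s : L}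
    (hP : Br v (W⁄L).toAffine P g s) {X : F} (hX : v (algebraMap F L X) = g) :
    ∃ R : (W⁄L).toAffine.Point, Br v (W⁄L).toAffine R g s ∧
      ∀ τ : L ≃ₐ[F] L, Inert v τ → τ • R = R := by
  obtain ⟨x, y, h, rfl⟩ := hP.exists_eq
  rw [br_some] at hP
  obtain ⟨-, h2, h3, -, h5⟩ := hP
  set X' := algebraMap F L X
  have hX0 : X' ≠ 0 := v.pos_iff.mp (hX ▸ lt_of_le_of_lt zero_le h2)
  set c := X' + (W⁄L).toAffine.a₄ / X' with hc
  have hcval : v c < 1 := v.map_add_lt (hX ▸ h3) (map_div_lt_one (hX ▸ h2))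
  obtain ⟨t, ht⟩ : ∃ t : L, qb (W⁄L).toAffine t = c := by
    obtain ⟨t, ht⟩ := IsAlgClosed.exists_root (Polynomial.C 1 * Polynomial.X ^ 2
      + Polynomial.C (W⁄L).toAffine.a₁ * Polynomial.X
      + Polynomial.C (-(W⁄L).toAffine.a₂ - c)) (by
        rw [Polynomial.degree_quadratic one_ne_zero]; exact two_ne_zero)
    refine ⟨t, ?_⟩
    simp only [Polynomial.IsRoot.def, Polynomial.eval_add, Polynomial.eval_mul, Polynomial.eval_C,
      Polynomial.eval_pow, Polynomial.eval_X, one_mul] at ht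
    simp only [qb]
    linear_combination ht
  obtain ⟨t₀, ht₀, hts⟩ : ∃ t₀ : L, qb (W⁄L).toAffine t₀ = c ∧ v (t₀ - s) < 1 := by
    rcases Node.root_cases h5 (ht ▸ hcval) with h | h
    · exact ⟨t, ht, h⟩
    · refine ⟨-(W⁄L).toAffine.a₁ - t, by rw [Node.qb_other, ht], ?_⟩
      rw [show -(W⁄L).toAffine.a₁ - t - s = -(t - (-(W⁄L).toAffine.a₁ - s)) by ring, v.map_neg]
      exact h
  have heq : (W⁄L).toAffine.Equation X' (t₀ * X') := by
    rw [Affine.equation_iff, hN.h₃, hN.h₆]
    rw [qb, hc] at ht₀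
    field_simp at ht₀
    linear_combination X' * ht₀
  have hns := ((Affine.equation_iff_nonsingular_of_Δ_ne_zero hΔ).mp heq)
  refine ⟨.some X' (t₀ * X') hns, ?_, fun τ hτ => ?_⟩
  · rw [br_some, mul_div_cancel_right₀ _ hX0]
    exact ⟨hX, h2, h3, hts, h5⟩
  obtain ⟨h', he⟩ := smul_some (σ := τ) W hns
  rw [he]
  have hXfix : τ X' = X' := τ.commutes X
  have h1fix : τ (W⁄L).toAffine.a₁ = (W⁄L).toAffine.a₁ := τ.commutes W.a₁
  have h2fix : τ (W⁄L).toAffine.a₂ = (W⁄L).toAffine.a₂ := τ.commutes W.a₂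
  have h4fix : τ (W⁄L).toAffine.a₄ = (W⁄L).toAffine.a₄ := τ.commutes W.a₄
  have htroot : v (qb (W⁄L).toAffine t₀) < 1 := ht₀ ▸ hcval
  have hq : qb (W⁄L).toAffine (τ t₀) = qb (W⁄L).toAffine t₀ := by
    have hcfix : τ c = c := by rw [hc, map_add, map_div₀, hXfix, h4fix]
    rw [ht₀, ← hcfix, ← ht₀]
    simp only [qb, map_sub, map_add, map_mul, map_pow, h1fix, h2fix]
  have hfix : τ t₀ = t₀ := by
    have hmul : (τ t₀ - t₀) * (τ t₀ + t₀ + (W⁄L).toAffine.a₁) = 0 := by
      simp only [qb] at hq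
      linear_combination hq
    refine sub_eq_zero.mp ((mul_eq_zero.mp hmul).resolve_right fun h0 => ?_)
    have hu := eq_one_of_sub_lt (hN.unit_root htroot)
      (b := τ t₀ + t₀ + (W⁄L).toAffine.a₁)
      (by
        rw [show τ t₀ + t₀ + (W⁄L).toAffine.a₁ - (2 * t₀ + (W⁄L).toAffine.a₁) = τ t₀ - t₀ by ring]
        exact hτ.sub_lt _ (hN.root_le_one htroot))
    rw [h0, map_zero] at hu
    exact zero_ne_one hu
  simp only [map_mul, hXfix, hfix]

/-- With discriminant a unit, every integral point reduces to a nonsingular point. -/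
lemma nsRed_of_unit_Δ {W' : Affine L} (hI : IntCoeff v W') (hΔ : v W'.Δ = 1) {x y : L}
    (h : W'.Equation x y) (hx : v x ≤ 1) : NsRed v W' x y := by
  have hy := le_y_of_le_x hI h hx
  by_contra hc
  obtain ⟨hc1, hc2⟩ := not_or.mp hc
  have h1 := lt_of_le_of_ne (fy_le hI hx hy) hc1
  have h2 := lt_of_le_of_ne (fx_le hI hx hy) hc2
  let C : VariableChange L := ⟨1, x, 0, y⟩
  have e3 : (C • W').a₃ = fy W' x y := by
    simp only [variableChange_a₃, fy, C, inv_one, Units.val_one]; ring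
  have e4 : (C • W').a₄ = fx W' x y := by
    simp only [variableChange_a₄, fx, C, inv_one, Units.val_one]; ring
  have e6 : (C • W').a₆ = 0 := by
    rw [Affine.equation_iff] at h
    simp only [variableChange_a₆, C, inv_one, Units.val_one]; linear_combination -h
  have e1 : v (C • W').a₁ ≤ 1 := by
    simpa [variableChange_a₁, C] using hI.h₁
  have e2 : v (C • W').a₂ ≤ 1 := by
    simp only [variableChange_a₂, C, inv_one, Units.val_one, one_pow, one_mul, zero_mul,
      sub_zero, zero_pow two_ne_zero]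
    exact v.map_add_le hI.h₂ (map_mul_le_one le_three hx)
  have hΔ' : (C • W').Δ = W'.Δ := by simp [variableChange_Δ, C]
  rw [← hΔ'] at hΔ
  clear_value C
  generalize C • W' = V at *
  rw [← e3] at h1
  rw [← e4] at h2
  have hb2 : v V.b₂ ≤ 1 := v.map_add_le (map_pow_le_one e1 2) (map_mul_le_one le_four e2)
  have hb4 : v V.b₄ < 1 := v.map_add_lt (map_mul_lt_one le_two h2) (map_mul_lt_one e1 h1)
  have hb6 : v V.b₆ < 1 := by
    rw [WeierstrassCurve.b₆, e6, mul_zero, add_zero, sq]; exact map_mul_lt_one h1.le h1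
  have hb8 : v V.b₈ < 1 := by
    rw [WeierstrassCurve.b₈, e6, mul_zero, mul_zero, add_zero, zero_sub]
    refine v.map_sub_lt (v.map_add_lt ?_ ?_) ?_
    · rw [v.map_neg]; exact map_mul_lt_one (map_mul_le_one e1 h1.le) h2
    · exact map_mul_lt_one e2 (by rw [sq]; exact map_mul_lt_one h1.le h1)
    · rw [sq]; exact map_mul_lt_one h2.le h2
  refine absurd hΔ (ne_of_lt ?_)
  rw [WeierstrassCurve.Δ]
  refine v.map_add_lt (v.map_sub_lt (v.map_sub_lt ?_ ?_) ?_) (map_mul_lt_one ?_ hb6)
  · exact map_mul_lt_one (by rw [v.map_neg]; exact map_pow_le_one hb2 2) hb8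
  · rw [show 8 * V.b₄ ^ 3 = 8 * V.b₄ ^ 2 * V.b₄ by ring]
    exact map_mul_lt_one (map_mul_le_one (natCast_le_one 8) (map_pow_le_one hb4.le 2)) hb4
  · rw [show 27 * V.b₆ ^ 2 = 27 * V.b₆ * V.b₆ by ring]
    exact map_mul_lt_one (map_mul_le_one (natCast_le_one 27) hb6.le) hb6
  · exact map_mul_le_one (map_mul_le_one (natCast_le_one 9) hb2) hb4.le

lemma Inert.e1_smul_sub_of_good (hσ : Inert v σ) (hI : IntCoeff v (W⁄L).toAffine)
    (hΔ : v (W⁄L).toAffine.Δ = 1) (P : (W⁄L).toAffine.Point) :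
    E1 v (W⁄L).toAffine (σ • P - P) :=
  hσ.e1_smul_sub W hI P fun _ _ h _ hx => nsRed_of_unit_Δ hI hΔ h.1 hx

end

end FA.Local
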