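import Fermat.Agent.Local.Basic
import Fermat.Agent.EC.MulFormula
import Mathlib.AlgebraicGeometry.EllipticCurve.DivisionPolynomial.Degree
import Mathlib.RingTheory.Valuation.Integers

/-!
# Torsion in the kernel of reduction

The kernel of reduction has no torsion of order prime to the residue characteristic, and at the
residue characteristic `p` it cannot contain all of the `p`-torsion as soon as the abscissae of
`(p - 1) / 2` of these points have a product which is not too large.
-/

namespace FA.Local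

open WeierstrassCurve Polynomial

variable {L Γ : Type*} [Field L] [LinearOrderedCommGroupWithZero Γ] {v : Valuation L Γ}

lemma coeff_preΨ'_le_one {W : Affine L} (hI : IntCoeff v W) (n k : ℕ) :
    v ((W.preΨ' n).coeff k) ≤ 1 := by
  let W₀ : WeierstrassCurve v.integer :=
    ⟨⟨W.a₁, hI.h₁⟩, ⟨W.a₂, hI.h₂⟩, ⟨W.a₃, hI.h₃⟩, ⟨W.a₄, hI.h₄⟩, ⟨W.a₆, hI.h₆⟩⟩
  have hW : W = W₀.map v.integer.subtype := rfl
  rw [hW, map_preΨ', coeff_map]
  exact ((W₀.preΨ' n).coeff k).2

lemma root_le_one {P : L[X]} (hc : ∀ k, v (P.coeff k) ≤ 1) (hl : v P.leadingCoeff = 1) {x : L}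
    (hx : P.eval x = 0) : v x ≤ 1 := by
  by_contra hcx
  rw [not_le] at hcx
  have hx0 : x ≠ 0 := v.pos_iff.mp (zero_lt_one.trans hcx)
  have h : v (P.eval x) = v x ^ P.natDegree := by
    rw [eval_eq_sum_range, Finset.sum_range_succ, v.map_add_eq_of_lt_right]
    · rw [map_mul, map_pow, ← leadingCoeff, hl, one_mul]
    · rw [map_mul (f := v) (P.coeff P.natDegree), map_pow, ← leadingCoeff, hl, one_mul]
      refine v.map_sum_lt (pow_ne_zero _ (v.ne_zero_iff.mpr hx0)) fun i hi => ?_
      rw [map_mul, map_pow]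
      exact (mul_le_of_le_one_left' (hc i)).trans_lt
        (pow_lt_pow_right₀ hcx (Finset.mem_range.mp hi))
  rw [hx, map_zero] at h
  exact pow_ne_zero _ (v.ne_zero_iff.mpr hx0) h.symm

variable [DecidableEq L] {W : Affine L}

lemma eval_preΨ'_eq_zero_iff [WeierstrassCurve.IsElliptic W] {p : ℕ} (hp : Odd p) {x y : L}
    (h : W.Nonsingular x y) :
    p • (Affine.Point.some x y h : W.Point) = 0 ↔ (W.preΨ' p).eval x = 0 := by
  rw [FA.EC.nsmul_eq_zero_iff h p, ΨSq_ofNat, if_neg (Nat.not_even_iff_odd.mpr hp), mul_one,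
    eval_pow, pow_eq_zero_iff two_ne_zero]

/-- The kernel of reduction has no torsion of order prime to the residue characteristic. -/
theorem eq_zero_of_e1_of_nsmul [WeierstrassCurve.IsElliptic W] (hI : IntCoeff v W) {p : ℕ}
    (hp : Odd p) (hpv : v (p : L) = 1) {P : W.Point} (hP : E1 v W P) (hpP : p • P = 0) :
    P = 0 := by
  rcases P with _ | ⟨x, y, h⟩
  · rfl
  exfalso
  rw [eval_preΨ'_eq_zero_iff hp h] at hpP
  rw [e1_some] at hP
  have hp0 : (p : L) ≠ 0 := fun h0 => by rw [h0, map_zero] at hpv; exact zero_ne_one hpv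
  refine absurd (root_le_one (coeff_preΨ'_le_one hI p) ?_ hpP) (not_le.mpr hP)
  rw [W.leadingCoeff_preΨ' hp0, if_neg (Nat.not_even_iff_odd.mpr hp)]
  exact hpv

/-- If a set of at most `(p - 1) / 2` abscissae of `p`-torsion points of the kernel of reduction
has product of value at least `(v p)⁻¹`, then some `p`-torsion point is not in the kernel of
reduction. -/
theorem exists_torsion_not_e1 [IsAlgClosed L] [WeierstrassCurve.IsElliptic W]
    (hI : IntCoeff v W) {p : ℕ} (hp : p.Prime) (hp2 : 2 < p) (hp0 : (p : L) ≠ 0) (s : Finset L)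
    (hs : ∀ x ∈ s, (W.preΨ' p).eval x = 0) (hcard : s.card ≤ (p - 1) / 2)
    (hprod : 1 ≤ v (p : L) * v (∏ x ∈ s, x)) :
    ∃ P : W.Point, p • P = 0 ∧ ¬ E1 v W P := by
  classical
  have hodd : Odd p := hp.odd_of_ne_two (by omega)
  by_contra hc
  push Not at hc
  set f := W.preΨ' p with hf
  have hf0 : f ≠ 0 := W.preΨ'_ne_zero hp0
  have hroots : ∀ x ∈ f.roots, 1 < v x := by
    intro x hx
    rw [mem_roots hf0, IsRoot.def] at hx
    obtain ⟨y, hy⟩ := IsAlgClosed.exists_root (C 1 * X ^ 2 + C (W.a₁ * x + W.a₃) * X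
        + C (-(x ^ 3 + W.a₂ * x ^ 2 + W.a₄ * x + W.a₆))) (by
      rw [degree_quadratic one_ne_zero]; exact two_ne_zero)
    simp only [IsRoot.def, eval_add, eval_mul, eval_C, eval_pow, eval_X, one_mul] at hy
    have he : W.Equation x y := by
      rw [Affine.equation_iff]; linear_combination hy
    have hns := Affine.equation_iff_nonsingular.mp he
    exact hc (.some x y hns) ((eval_preΨ'_eq_zero_iff hodd hns).mpr hx)
  have hsub : s.val ≤ f.roots :=
    Multiset.le_iff_subset s.nodup |>.mpr fun x hx => (mem_roots hf0).mpr (hs x hx)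
  obtain ⟨rest, hrest⟩ := Multiset.le_iff_exists_add.mp hsub
  have hsplit := IsAlgClosed.splits f
  have hcardr : Multiset.card f.roots = (p ^ 2 - 1) / 2 := by
    rw [← hsplit.natDegree_eq_card_roots, hf, W.natDegree_preΨ' hp0,
      if_neg (Nat.not_even_iff_odd.mpr hodd)]
  have hne : rest ≠ 0 := by
    intro h0
    have : (p ^ 2 - 1) / 2 ≤ (p - 1) / 2 := by
      rw [← hcardr, hrest, h0, add_zero]; exact hcard
    have h2 : 3 * p ≤ p ^ 2 := by rw [sq]; exact Nat.mul_le_mul_right p hp2
    omega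
  have hmem : ∀ x ∈ rest, 1 < v x := fun x hx =>
    hroots x (hrest ▸ Multiset.mem_add.mpr (Or.inr hx))
  have hbig : 1 < v rest.prod := by
    obtain ⟨a, ha⟩ := Multiset.exists_mem_of_ne_zero hne
    obtain ⟨u, rfl⟩ := Multiset.exists_cons_of_mem ha
    rw [Multiset.prod_cons, map_mul]
    refine one_lt_mul_of_lt_of_le' (hmem a ha) ?_
    rw [map_multiset_prod]
    exact Multiset.one_le_prod fun b hb => by
      obtain ⟨c, hcu, rfl⟩ := Multiset.mem_map.mp hb
      exact (hmem c (Multiset.mem_cons_of_mem hcu)).le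
  have h0 : v (f.coeff 0) = v (p : L) * v f.roots.prod := by
    rw [hsplit.coeff_zero_eq_leadingCoeff_mul_prod_roots, map_mul, map_mul, map_pow, v.map_neg,
      v.map_one, one_pow, one_mul, hf, W.leadingCoeff_preΨ' hp0,
      if_neg (Nat.not_even_iff_odd.mpr hodd)]
  refine absurd (h0 ▸ coeff_preΨ'_le_one hI p 0) (not_le.mpr ?_)
  rw [hrest, Multiset.prod_add, map_mul, ← mul_assoc, Finset.prod_val]
  exact lt_of_lt_of_le hbig (le_mul_of_one_le_left' hprod)

end FA.Local
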