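import Fermat.Agent.Local.Frey
import Fermat.Agent.Local.Minkowski
import Fermat.Agent.EC.TorsionGalois
import Fermat.Prelude.Def_FLTPrelim_CofixedLine

/-!
# A reducible Frey representation has a cofixed line
-/

namespace FA.Local

open WeierstrassCurve
open scoped WeierstrassCurve.Affine

local notation "Qb" => AlgebraicClosure ℚ
local notation "GQ" => AlgebraicClosure ℚ ≃ₐ[ℚ] AlgebraicClosure ℚ

/-- The `p`-torsion of the Frey curve. -/
noncomputable abbrev FreyTors (P : FreyPackage) :=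
  Submodule.torsionBy ℤ ((P.freyCurve)⁄Qb).toAffine.Point (P.p : ℤ)

variable {P : FreyPackage}

instance freyCurve_isElliptic (P : FreyPackage) : P.freyCurve.IsElliptic :=
  ⟨isUnit_iff_ne_zero.mpr fun h => freyBar_Δ_ne_zero P (by
    show (P.freyCurve.map (algebraMap ℚ Qb)).Δ = 0
    rw [map_Δ, h, map_zero])⟩

noncomputable instance freyTorsModule (P : FreyPackage) : Module (ZMod P.p) (FreyTors P) :=
  Affine.Point.instModuleZModTorsionBy P.p

lemma tors_nsmul (x : FreyTors P) : P.p • (x.1 : FreyPt P) = 0 := by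
  have h := x.2
  rwa [Submodule.mem_torsionBy_iff, Nat.cast_smul_eq_nsmul] at h

lemma gal_zmod_smul (σ : GQ) (c : ZMod P.p) (x : FreyTors P) : σ • (c • x) = c • σ • x := by
  have : NeZero P.p := ⟨P.hp0⟩
  rw [← ZMod.natCast_zmod_val c, Nat.cast_smul_eq_nsmul, Nat.cast_smul_eq_nsmul, smul_comm]

lemma finrank_freyTors (P : FreyPackage) :
    Module.finrank (ZMod P.p) (FreyTors P) = 2 := by
  have := Fact.mk P.pp
  exact FA.EC.finrank_torsion P.freyCurve P.p

/-- The subgroup of elements fixing `N` pointwise. -/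
def fixN (N : Submodule (ZMod P.p) (FreyTors P)) : Subgroup GQ where
  carrier := {σ | ∀ x ∈ N, σ • x = x}
  one_mem' := fun x _ => one_smul _ x
  mul_mem' := fun {a b} ha hb x hx => by rw [mul_smul, hb x hx, ha x hx]
  inv_mem' := fun {a} ha x hx => by
    conv_lhs => rw [← ha x hx]
    exact inv_smul_smul a x

/-- The stabiliser of a stable `N` acting trivially on the quotient by `N`. -/
def fixQ (N : Submodule (ZMod P.p) (FreyTors P))
    (hN : ∀ σ : GQ, ∀ x ∈ N, σ • x ∈ N) : Subgroup GQ where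
  carrier := {σ | ∀ x, σ • x - x ∈ N}
  one_mem' := fun x => by rw [one_smul, sub_self]; exact N.zero_mem
  mul_mem' := fun {a b} ha hb x => by
    rw [mul_smul, ← sub_add_sub_cancel _ (b • x)]
    exact N.add_mem (ha (b • x)) (hb x)
  inv_mem' := fun {a} ha x => by
    have h := N.neg_mem (hN a⁻¹ _ (ha x))
    rwa [smul_sub, inv_smul_smul, neg_sub] at h

variable {N : Submodule (ZMod P.p) (FreyTors P)}

lemma fixN_normal (hN : ∀ σ : GQ, ∀ x ∈ N, σ • x ∈ N) : (fixN N).Normal := by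
  constructor
  intro a ha g x hx
  rw [mul_smul, mul_smul, ha _ (hN g⁻¹ x hx), smul_inv_smul]

lemma fixQ_normal (hN : ∀ σ : GQ, ∀ x ∈ N, σ • x ∈ N) : (fixQ N hN).Normal := by
  constructor
  intro a ha g x
  have h := hN g _ (ha (g⁻¹ • x))
  rwa [smul_sub, smul_inv_smul, smul_smul, smul_smul] at h

lemma exists_finite_level (P : FreyPackage) :
    ∃ E : IntermediateField ℚ Qb, FiniteDimensional ℚ E ∧
      ∀ σ : GQ, (∀ x ∈ E, σ x = x) → ∀ x : FreyTors P, σ • x = x := by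
  obtain ⟨E, hE, h⟩ := FA.EC.galoisFactorsThroughFiniteLevel P.freyCurve P.hp0
  exact ⟨E, hE, fun σ hσ x => LinearMap.congr_fun (h σ hσ) x⟩

lemma exists_generator (hb : N ≠ ⊥) (ht : N ≠ ⊤) :
    ∃ g ∈ N, g ≠ 0 ∧ ∀ x ∈ N, ∃ k : ℕ, k < P.p ∧ x = k • g := by
  have := Fact.mk P.pp
  have hfin : FiniteDimensional (ZMod P.p) (FreyTors P) :=
    Module.finite_of_finrank_eq_succ (finrank_freyTors P)
  have hlt : Module.finrank (ZMod P.p) N < 2 := finrank_freyTors P ▸ Submodule.finrank_lt ht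
  have hpos : Module.finrank (ZMod P.p) N ≠ 0 := mt Submodule.finrank_eq_zero.mp hb
  obtain ⟨g, hg0, hg⟩ := finrank_eq_one_iff'.mp (show Module.finrank (ZMod P.p) N = 1 by omega)
  refine ⟨g, g.2, fun h => hg0 (Subtype.ext h), fun x hx => ?_⟩
  obtain ⟨c, hc⟩ := hg ⟨x, hx⟩
  refine ⟨c.val, ZMod.val_lt c, ?_⟩
  rw [← show c • (g : FreyTors P) = x from congrArg Subtype.val hc,
    ← Nat.cast_smul_eq_nsmul (ZMod P.p), ZMod.natCast_zmod_val]

/-- A line not inside a proper submodule meets it trivially. -/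
lemma eq_zero_of_mem_of_not_le {S : Submodule (ZMod P.p) (FreyTors P)} (hS : S ≠ ⊤)
    (hN : N ≠ ⊤) (hle : ¬ S ≤ N) {x : FreyTors P} (hxN : x ∈ N) (hxS : x ∈ S) : x = 0 := by
  have := Fact.mk P.pp
  have hfin : FiniteDimensional (ZMod P.p) (FreyTors P) :=
    Module.finite_of_finrank_eq_succ (finrank_freyTors P)
  by_contra hx
  have hS2 : Module.finrank (ZMod P.p) S < 2 := finrank_freyTors P ▸ Submodule.finrank_lt hS
  have h1 := Submodule.one_le_finrank_iff.mpr (Submodule.ne_bot_iff _ |>.mpr ⟨x, hxS, hx⟩)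
  obtain ⟨⟨g, hgS⟩, hg0, hg⟩ :=
    finrank_eq_one_iff'.mp (show Module.finrank (ZMod P.p) S = 1 by omega)
  obtain ⟨c, hc⟩ := hg ⟨x, hxS⟩
  have hc' : c • g = x := congrArg Subtype.val hc
  have hc0 : c ≠ 0 := fun h => hx (by rw [← hc', h, zero_smul])
  refine hle fun y hy => ?_
  obtain ⟨d, hd⟩ := hg ⟨y, hy⟩
  have hd' : d • g = y := congrArg Subtype.val hd
  rw [← hd', show g = c⁻¹ • x by rw [← hc', inv_smul_smul₀ hc0]]
  exact N.smul_mem _ (N.smul_mem _ hxN)

/-- Unipotent inertia acts trivially on both graded pieces. -/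
lemma mem_fixN_and_fixQ (hN : ∀ σ : GQ, ∀ x ∈ N, σ • x ∈ N) (hb : N ≠ ⊥) (ht : N ≠ ⊤) {σ : GQ}
    (hu : ∀ x : FreyTors P, σ • (σ • x - x) = σ • x - x) : σ ∈ fixN N ∧ σ ∈ fixQ N hN := by
  have := Fact.mk P.pp
  have hfin : FiniteDimensional (ZMod P.p) (FreyTors P) :=
    Module.finite_of_finrank_eq_succ (finrank_freyTors P)
  refine ⟨fun x hx => ?_, fun x => ?_⟩
  · obtain ⟨g, hgN, hg0, hg⟩ := exists_generator hb ht
    obtain ⟨k, -, hk⟩ := hg (σ • g) (hN σ g hgN)
    have hd : σ • g - g = ((k : ZMod P.p) - 1) • g := by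
      rw [hk, sub_smul, one_smul, Nat.cast_smul_eq_nsmul]
    have h := hu g
    rw [hd, gal_zmod_smul, ← sub_eq_zero, ← smul_sub, hd, smul_smul, smul_eq_zero] at h
    have h0 : (k : ZMod P.p) - 1 = 0 := mul_self_eq_zero.mp (h.resolve_right hg0)
    rw [h0, zero_smul, sub_eq_zero] at hd
    obtain ⟨j, -, rfl⟩ := hg x hx
    rw [smul_comm, hd]
  · by_cases hx : x ∈ N
    · exact N.sub_mem (hN σ x hx) hx
    -- `x` generates the quotient
    by_contra hc
    have hsup : N ⊔ Submodule.span (ZMod P.p) {x} = ⊤ := by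
      refine Submodule.eq_top_of_finrank_eq ?_
      have hlt : Module.finrank (ZMod P.p) N <
          Module.finrank (ZMod P.p) (N ⊔ Submodule.span (ZMod P.p) {x} : Submodule _ _) :=
        Submodule.finrank_lt_finrank_of_lt (lt_of_le_not_ge le_sup_left fun h =>
          hx (h (Submodule.mem_sup_right (Submodule.mem_span_singleton_self x))))
      have hle := Submodule.finrank_le (N ⊔ Submodule.span (ZMod P.p) {x})
      have hpos : Module.finrank (ZMod P.p) N ≠ 0 := mt Submodule.finrank_eq_zero.mp hb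
      rw [finrank_freyTors P] at hle ⊢
      omega
    obtain ⟨n, hn, z, hz, hnz⟩ := Submodule.mem_sup.mp
      (hsup ▸ Submodule.mem_top : σ • x - x ∈ N ⊔ Submodule.span (ZMod P.p) {x})
    obtain ⟨d, rfl⟩ := Submodule.mem_span_singleton.mp hz
    have hd0 : d ≠ 0 := by
      rintro rfl
      exact hc (by rw [← hnz, zero_smul, add_zero]; exact hn)
    refine hd0 (mul_self_eq_zero.mp ?_)
    by_contra hdd
    have h : (d * d) • x = -((σ • n - n) + d • n) := by
      have h := hu x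
      rw [← hnz, smul_add, gal_zmod_smul, show σ • x = x + (σ • x - x) by abel, ← hnz] at h
      rw [smul_add, smul_add, smul_smul] at h
      rw [← sub_eq_zero] at h ⊢
      rw [← h]
      abel
    refine hx ?_
    rw [← inv_smul_smul₀ hdd x, h]
    exact N.smul_mem _ (N.neg_mem (N.add_mem (N.sub_mem (hN σ n hn) hn) (N.smul_mem d hn)))

/-- A proper Galois-stable subgroup of order `p` cannot be such that all the `p`-torsion is in the
kernel of reduction at `p`. -/
lemma not_forall_e1 (hN : ∀ σ : GQ, ∀ x ∈ N, σ • x ∈ N) (hb : N ≠ ⊥) (ht : N ≠ ⊤)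
    {A : ValuationSubring Qb} (hA : A.LiesOverPrime P.p) :
    ∃ x : FreyTors P, ¬ E1 A.valuation (freyBar P).toAffine x.1 := by
  classical
  by_contra hc
  push Not at hc
  obtain ⟨g, hgN, hg0, hg⟩ := exists_generator hb ht
  have := Fact.mk P.pp
  have hv := map_natCast_lt_one hA
  have hp5 := P.hp5
  have hkg : ∀ k : ℕ, 0 < k → k < P.p → k • g ≠ 0 := fun k hk1 hk2 h => by
    rw [← Nat.cast_smul_eq_nsmul (ZMod P.p), smul_eq_zero, ZMod.natCast_eq_zero_iff] at h
    exact Nat.not_dvd_of_pos_of_lt hk1 hk2 (h.resolve_right hg0)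
  set X : FreyTors P → Qb := fun x => (FA.EC.xyPair (x.1 : FreyPt P)).1 with hXdef
  set s : Finset Qb := (Finset.Icc 1 ((P.p - 1) / 2)).image fun k => X (k • g) with hs
  have hXneg : ∀ x, X (-x) = X x := by
    intro x
    obtain ⟨x, hx⟩ := x
    rcases x with _ | ⟨a, b, h⟩ <;> rfl
  have hmem : ∀ x ∈ N, x ≠ 0 → X x ∈ s := by
    intro x hx hx0
    obtain ⟨k, hk, rfl⟩ := hg x hx
    rw [hs, Finset.mem_image]
    have hk0 : k ≠ 0 := by rintro rfl; exact hx0 (zero_nsmul g)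
    by_cases hk2 : k ≤ (P.p - 1) / 2
    · exact ⟨k, Finset.mem_Icc.mpr ⟨by omega, hk2⟩, rfl⟩
    · refine ⟨P.p - k, Finset.mem_Icc.mpr ⟨by omega, ?_⟩, ?_⟩
      · obtain ⟨m, hm⟩ := P.hp_odd; omega
      · rw [show (P.p - k) • g = -(k • g) by
          rw [eq_neg_iff_add_eq_zero, ← add_nsmul, Nat.sub_add_cancel hk.le,
            ← Nat.cast_smul_eq_nsmul (ZMod P.p), ZMod.natCast_self, zero_smul], hXneg]
  have hsome : ∀ x : FreyTors P, x ≠ 0 → ∃ b h,
      (x.1 : FreyPt P) = Affine.Point.some (X x) b h := by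
    intro x hx0
    obtain ⟨x, hx⟩ := x
    rcases x with _ | ⟨a, b, h⟩
    · exact absurd rfl hx0
    · exact ⟨b, h, rfl⟩
  have hsfacts : ∀ a ∈ s, ((freyBar P).preΨ' P.p).eval a = 0 ∧ 1 < A.valuation a := by
    intro a ha
    rw [hs, Finset.mem_image] at ha
    obtain ⟨k, hk, rfl⟩ := ha
    rw [Finset.mem_Icc] at hk
    obtain ⟨b, h, he⟩ := hsome _ (hkg k (by omega) (by omega))
    have h1 := tors_nsmul (k • g)
    rw [he] at h1
    have h2 := hc (k • g)
    rw [he] at h2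
    exact ⟨(eval_preΨ'_eq_zero_iff (W := (freyBar P).toAffine) P.hp_odd h).mp h1, h2⟩
  have hsigma : ∀ σ : GQ, s.image σ = s := by
    intro σ
    refine Finset.eq_of_subset_of_card_le ?_ (by rw [Finset.card_image_of_injective _ σ.injective])
    intro a ha
    rw [Finset.mem_image] at ha
    obtain ⟨_, hb', rfl⟩ := ha
    rw [hs, Finset.mem_image] at hb'
    obtain ⟨k, hk, rfl⟩ := hb'
    rw [Finset.mem_Icc] at hk
    have hne := hkg k (by omega) (by omega)
    obtain ⟨b, h, he⟩ := hsome _ hne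
    have hX : X (σ • (k • g)) = σ (X (k • g)) := by
      show (FA.EC.xyPair (σ • ((k • g : FreyTors P).1 : FreyPt P))).1 = _
      rw [he]; rfl
    rw [← hX]
    exact hmem _ (hN σ _ (N.nsmul_mem hgN k)) fun h0 => hne (by
      have := congrArg (σ⁻¹ • ·) h0
      simpa using this)
  obtain ⟨c, hc'⟩ := exists_ratCast_of_fixed (∏ a ∈ s, a) fun σ => by
    refine (map_prod σ (fun a : Qb => a) s).trans ?_
    exact (Finset.prod_image (f := fun a : Qb => a) σ.injective.injOn).symm.trans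
      (congrArg (fun t => ∏ a ∈ t, a) (hsigma σ))
  have hne : s.Nonempty := ⟨_, hmem g hgN hg0⟩
  have hbig : 1 < A.valuation (∏ a ∈ s, a) := by
    obtain ⟨a, ha⟩ := hne
    rw [← Finset.mul_prod_erase s _ ha, map_mul, map_prod]
    exact one_lt_mul_of_lt_of_le' (hsfacts a ha).2
      (Finset.one_le_prod fun b hb' => (hsfacts b (Finset.mem_of_mem_erase hb')).2.le)
  obtain ⟨Q, hQ, hQ1⟩ := exists_torsion_not_e1 (freyBar_intCoeff P A) P.pp (by omega)
    (Nat.cast_ne_zero.mpr P.hp0) s (fun a ha => (hsfacts a ha).1)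
    (Finset.card_image_le.trans (by simp))
    (hc' ▸ one_le_mul_of_one_lt P.pp hv (c := c) (hc'.symm ▸ hbig))
  exact hQ1 (hc ⟨Q, (Submodule.mem_torsionBy_iff _ _).mpr ((natCast_zsmul Q P.p).trans hQ)⟩)

/-- At `p`, inertia fixes the line or acts trivially on the quotient. -/
lemma inertia_le_or (hN : ∀ σ : GQ, ∀ x ∈ N, σ • x ∈ N) (hb : N ≠ ⊥) (ht : N ≠ ⊤)
    {A : ValuationSubring Qb} (hA : A.LiesOverPrime P.p) :
    A.inertiaSubgroupIn ℚ ≤ fixN N ∨ A.inertiaSubgroupIn ℚ ≤ fixQ N hN := by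
  have key : ∀ S : Submodule (ZMod P.p) (FreyTors P), S ≠ ⊤ →
      (∀ σ ∈ A.inertiaSubgroupIn ℚ, ∀ x, σ • x - x ∈ S) →
      A.inertiaSubgroupIn ℚ ≤ fixN N ∨ A.inertiaSubgroupIn ℚ ≤ fixQ N hN := by
    intro S hS h
    by_cases hle : S ≤ N
    · exact Or.inr fun σ hσ x => hle (h σ hσ x)
    · exact Or.inl fun σ hσ x hx => sub_eq_zero.mp
        (eq_zero_of_mem_of_not_le hS ht hle (N.sub_mem (hN σ x hx) hx) (h σ hσ x))
  obtain ⟨L₀, h1, h2⟩ := exists_component (P := P) P.pp hA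
  let incl : FreyTors P →+ FreyPt P :=
    (Submodule.torsionBy ℤ _ (P.p : ℤ)).toAddSubgroup.subtype
  let S₀ : Submodule (ZMod P.p) (FreyTors P) := AddSubgroup.toZModSubmodule P.p (L₀.comap incl)
  by_cases hS₀ : S₀ = ⊤
  · let S₁ : Submodule (ZMod P.p) (FreyTors P) := AddSubgroup.toZModSubmodule P.p
      ((e1Subgroup (freyBar_intCoeff P A)).comap incl)
    refine key S₁ (fun htop => ?_) fun σ hσ x => ?_
    · obtain ⟨x, hx⟩ := not_forall_e1 hN hb ht hA
      exact hx (show x ∈ S₁ from htop ▸ Submodule.mem_top)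
    · exact h2 σ (inert_of_mem_inertiaSubgroupIn A hσ) _
        (show x ∈ S₀ from hS₀.symm ▸ Submodule.mem_top)
  · exact key S₀ hS₀ fun σ hσ x =>
      h1 σ (inert_of_mem_inertiaSubgroupIn A hσ) _ (tors_nsmul x)

/-- A stable line of the Frey representation has trivial quotient character. -/
theorem smul_sub_mem (hN : ∀ σ : GQ, ∀ x ∈ N, σ • x ∈ N) (hb : N ≠ ⊥) (ht : N ≠ ⊤) (σ : GQ)
    (x : FreyTors P) : σ • x - x ∈ N := by
  obtain ⟨E, hEfin, hE⟩ := exists_finite_level P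
  obtain ⟨A₂, hA₂⟩ := FA.Deform.exists_liesOverPrime Nat.prime_two
  obtain ⟨Ap, hAp⟩ := FA.Deform.exists_liesOverPrime P.pp
  have away : ∀ q : ℕ, q.Prime → q ≠ P.p → ∀ A : ValuationSubring Qb, A.LiesOverPrime q →
      A.inertiaSubgroupIn ℚ ≤ fixN N ⊓ fixQ N hN := fun q hq hqp A hA τ hτ =>
    mem_fixN_and_fixQ hN hb ht fun y => Subtype.ext (smul_smul_sub_eq hq hA hqp
      (inert_of_mem_inertiaSubgroupIn A hτ) (tors_nsmul y))
  have glue : ∀ H : Subgroup GQ, Ap.inertiaSubgroupIn ℚ ≤ H → fixN N ⊓ fixQ N hN ≤ H →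
      ∀ q : ℕ, q.Prime → ∃ A : ValuationSubring Qb,
        A.LiesOverPrime q ∧ A.inertiaSubgroupIn ℚ ≤ H := by
    intro H h1 h2 q hq
    by_cases hqp : q = P.p
    · subst hqp; exact ⟨Ap, hAp, h1⟩
    · obtain ⟨A, hA⟩ := FA.Deform.exists_liesOverPrime hq
      exact ⟨A, hA, (away q hq hqp A hA).trans h2⟩
  rcases inertia_le_or hN hb ht hAp with h | h
  · exfalso
    have := fixN_normal hN
    have htop := eq_top_of_inertia_le (fixN N) E (fun τ hτ y _ => hE τ hτ y)
      (glue _ h inf_le_left)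
    obtain ⟨g, hgN, hg0, -⟩ := exists_generator hb ht
    refine hg0 (Subtype.ext (eq_zero_of_fixed (X := g.1) (tors_nsmul g) (fun τ => ?_) hA₂))
    exact congrArg Subtype.val ((show τ ∈ fixN N from htop ▸ Subgroup.mem_top τ) g hgN)
  · have := fixQ_normal hN
    have htop := eq_top_of_inertia_le (fixQ N hN) E
      (fun τ hτ y => by rw [hE τ hτ y, sub_self]; exact N.zero_mem)
      (glue _ h inf_le_right)
    exact (show σ ∈ fixQ N hN from htop ▸ Subgroup.mem_top σ) x

/-- A reducible Frey representation has a Galois-stable cofixed line. -/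
theorem hasCofixedLine (P : FreyPackage)
    (hred : ¬ Affine.Point.GaloisRepIsIrreducible (K := Qb) ℚ P.freyCurve P.p) :
    Affine.Point.HasGaloisStableCofixedLine (K := Qb) ℚ P.freyCurve P.p := by
  have := Fact.mk P.pp
  have hnt : Nontrivial (FreyTors P) :=
    Module.nontrivial_of_finrank_pos (R := ZMod P.p) (by rw [finrank_freyTors]; norm_num)
  rw [Affine.Point.GaloisRepIsIrreducible, not_and] at hred
  have h := hred hnt
  push Not at h
  obtain ⟨N, hN, hb, ht⟩ := h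
  exact ⟨N, hN, hb, ht, fun σ x => smul_sub_mem hN hb ht σ x⟩

end FA.Local
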