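import Fermat.Agent.Local.Multiplicative
import Fermat.Agent.Local.Torsion
import Fermat.Agent.EC.TorsionCard
import Mathlib.Algebra.Polynomial.Splits

/-!
# `p`-torsion at multiplicative reduction, residue characteristic `p`

Some nonzero `p`-torsion point lies in the kernel of reduction and some does not: the value of
the `p`-th division polynomial at the node is small while its value at the other two-torsion
abscissa is a unit.
-/

namespace FA.Local

open WeierstrassCurve Polynomial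

set_option linter.unusedSectionVars false

/-- At a two-torsion abscissa the odd division polynomials are powers of `Ψ₃` up to sign. -/
lemma eval_preΨ'_of_two_torsion {R : Type*} [CommRing R] (W : WeierstrassCurve R) {x : R}
    (hx : W.Ψ₂Sq.eval x = 0) : ∀ n : ℕ, Odd n →
      ∃ e k : ℕ, (W.preΨ' n).eval x = (-1) ^ e * W.Ψ₃.eval x ^ k ∧ (3 ≤ n → 1 ≤ k) := by
  intro n
  induction n using Nat.strong_induction_on with
  | _ n ih =>
  intro hn
  obtain ⟨m, rfl⟩ := hn
  rcases m with _ | _ | m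
  · exact ⟨0, 0, by simp, by omega⟩
  · exact ⟨0, 1, by simp, fun _ => le_rfl⟩
  rw [show 2 * (m + 1 + 1) + 1 = 2 * (m + 2) + 1 by ring, preΨ'_odd]
  rcases Nat.even_or_odd m with hm | hm
  · obtain ⟨e₁, k₁, h₁, -⟩ := ih (m + 1) (by omega) hm.add_one
    obtain ⟨e₂, k₂, h₂, hk₂⟩ := ih (m + 3) (by omega) (by
      rw [show m + 3 = (m + 2) + 1 by ring]; exact (hm.add even_two).add_one)
    refine ⟨e₁ + 3 * e₂ + 1, k₁ + 3 * k₂, ?_, fun _ => ?_⟩
    · simp only [eval_sub, eval_mul, eval_pow, if_pos hm, hx, eval_one, h₁, h₂]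
      ring
    · have := hk₂ (by omega); omega
  · obtain ⟨e₁, k₁, h₁, hk₁⟩ := ih (m + 4) (by omega) (by
      rw [show m + 4 = m + (2 + 2) by ring]; exact hm.add_even (even_two.add even_two))
    obtain ⟨e₂, k₂, h₂, -⟩ := ih (m + 2) (by omega) (hm.add_even even_two)
    refine ⟨e₁ + 3 * e₂, k₁ + 3 * k₂, ?_, fun _ => ?_⟩
    · simp only [eval_sub, eval_mul, eval_pow, if_neg (Nat.not_even_iff_odd.mpr hm), hx, eval_one,
        h₁, h₂]
      ring
    · have := hk₁ (by omega); omega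

variable {L Γ : Type*} [Field L] [LinearOrderedCommGroupWithZero Γ] {v : Valuation L Γ}

/-- A polynomial over an algebraically closed valued field with leading coefficient of value
`< 1`, small at some integral point and a unit at another has an integral and a nonintegral
root. -/
lemma exists_roots_of_values [IsAlgClosed L] {f : L[X]} (hl : v f.leadingCoeff < 1) {a b : L}
    (ha : v a ≤ 1) (hb : v b ≤ 1) (hfa : v (f.eval a) < 1) (hfb : v (f.eval b) = 1) :
    (∃ x, f.eval x = 0 ∧ v x ≤ 1) ∧ ∃ x, f.eval x = 0 ∧ 1 < v x := by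
  have hf0 : f ≠ 0 := fun h => by simp [h] at hfb
  have hsplit := IsAlgClosed.splits f
  have key : ∀ c, v (f.eval c) = v f.leadingCoeff * (f.roots.map fun z => v (c - z)).prod := by
    intro c
    conv_lhs => rw [hsplit.eq_prod_roots]
    rw [eval_mul, eval_C, map_mul, eval_multiset_prod, map_multiset_prod]
    simp only [Multiset.map_map, Function.comp_def, eval_sub, eval_X, eval_C]
  have hroot : ∀ z ∈ f.roots, f.eval z = 0 := fun z hz => (mem_roots hf0).mp hz
  refine ⟨?_, ?_⟩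
  · by_contra hc
    push Not at hc
    have h : ∀ c, v c ≤ 1 → (f.roots.map fun z => v (c - z)) = f.roots.map fun z => v z :=
      fun c hc' => Multiset.map_congr rfl fun z hz =>
        v.map_sub_eq_of_lt_right (hc'.trans_lt (hc z (hroot z hz)))
    rw [key, h a ha] at hfa
    rw [key, h b hb] at hfb
    exact hfa.ne hfb
  · by_contra hc
    push Not at hc
    rw [key] at hfb
    refine absurd hfb (ne_of_lt ?_)
    refine lt_of_le_of_lt (mul_le_of_le_one_right' ?_) hl
    refine Multiset.prod_le_pow_card _ 1 (fun w hw => ?_) |>.trans_eq (one_pow _)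
    obtain ⟨z, hz, rfl⟩ := Multiset.mem_map.mp hw
    exact v.map_sub_le hb (hc z (hroot z hz))

variable [DecidableEq L] {V : WeierstrassCurve L} [V.IsElliptic]

/-- In the nodal normal form. -/
lemma exists_torsion_of_node [IsAlgClosed L] {W : WeierstrassCurve L} [W.IsElliptic]
    (hN : Node v W.toAffine) {p : ℕ} (hp : p.Prime) (hp2 : p ≠ 2) (hp0 : (p : L) ≠ 0)
    (hpv : v (p : L) < 1) :
    (∃ P : W.toAffine.Point, p • P = 0 ∧ P ≠ 0 ∧ E1 v W.toAffine P) ∧
      ∃ P : W.toAffine.Point, p • P = 0 ∧ ¬ E1 v W.toAffine P := by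
  have hodd : Odd p := hp.odd_of_ne_two hp2
  have h3 : 3 ≤ p := by have := hp.two_le; omega
  have h2v : v (2 : L) = 1 := by
    refine eq_one_of_not_lt le_two fun h2 => ?_
    obtain ⟨k, hk⟩ := hodd
    have : v ((p : L) - (k : L) * 2) < 1 :=
      v.map_sub_lt hpv (map_mul_lt_one (natCast_le_one k) h2)
    rw [show (p : L) - (k : L) * 2 = 1 by rw [hk]; push_cast; ring, map_one] at this
    exact lt_irrefl _ this
  have h4v : v (4 : L) = 1 := by
    rw [show (4 : L) = 2 * 2 by norm_num, map_mul, h2v, one_mul]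
  have h40 : (4 : L) ≠ 0 := fun h => by rw [h, map_zero] at h4v; exact zero_ne_one h4v
  set f := W.preΨ' p with hf
  have hl : v f.leadingCoeff < 1 := by
    rw [hf, W.leadingCoeff_preΨ' hp0, if_neg (Nat.not_even_iff_odd.mpr hodd)]
    exact hpv
  have hb₂ : W.b₂ = W.a₁ ^ 2 + 4 * W.a₂ := rfl
  have hb₄ : W.b₄ = 2 * W.a₄ := by
    rw [WeierstrassCurve.b₄, show W.a₃ = 0 from hN.h₃]; ring
  have hb₆ : W.b₆ = 0 := by
    rw [WeierstrassCurve.b₆, show W.a₃ = 0 from hN.h₃, show W.a₆ = 0 from hN.h₆]; ring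
  have hb₈ : W.b₈ = -W.a₄ ^ 2 := by
    rw [WeierstrassCurve.b₈, show W.a₃ = 0 from hN.h₃, show W.a₆ = 0 from hN.h₆]; ring
  have h0 : v (f.eval 0) < 1 := by
    obtain ⟨e, k, he, hk⟩ := eval_preΨ'_of_two_torsion W (x := 0) (by simp [Ψ₂Sq, hb₆]) p hodd
    have hval : v (W.Ψ₃.eval 0) < 1 := by
      have : W.Ψ₃.eval 0 = -W.a₄ ^ 2 := by simp [Ψ₃, hb₈]
      rw [this, v.map_neg, map_pow]
      exact pow_lt_one₀ zero_le (show v W.a₄ < 1 from hN.hb) two_ne_zero
    rw [hf, he, map_mul, map_pow, map_pow, v.map_neg, map_one, one_pow, one_mul]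
    exact pow_lt_one₀ zero_le hval (by have := hk h3; omega)
  obtain ⟨x, hx1, hxr⟩ : ∃ x, v x = 1 ∧ 4 * x ^ 2 + W.b₂ * x + 4 * W.a₄ = 0 := by
    obtain ⟨a, ha⟩ := IsAlgClosed.exists_root (C (4 : L) * X ^ 2 + C W.b₂ * X + C (4 * W.a₄))
      (by rw [degree_quadratic h40]; exact two_ne_zero)
    simp only [IsRoot.def, eval_add, eval_mul, eval_C, eval_pow, eval_X] at ha
    set b := -W.b₂ / 4 - a with hb
    have hsum : 4 * a + 4 * b = -W.b₂ := by rw [hb]; field_simp; ring
    have hb' : 4 * b ^ 2 + W.b₂ * b + 4 * W.a₄ = 0 := by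
      linear_combination ha + (b - a) * hsum
    have hle : ∀ c : L, 4 * c ^ 2 + W.b₂ * c + 4 * W.a₄ = 0 → v c ≤ 1 := by
      intro c hc
      by_contra hcx
      rw [not_le] at hcx
      have hrest : v (W.b₂ * c + 4 * W.a₄) ≤ v c := v.map_add_le
        (by rw [map_mul, hb₂, show v (W.a₁ ^ 2 + 4 * W.a₂) = 1 from hN.hdisc, one_mul])
        ((map_mul_le_one le_four hN.hI.h₄).trans hcx.le)
      rw [show W.b₂ * c + 4 * W.a₄ = -(4 * c ^ 2) by linear_combination hc, v.map_neg, map_mul, h4v,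
        one_mul, map_pow, sq] at hrest
      exact absurd hrest (not_le.mpr (lt_mul_of_one_lt_left (zero_lt_one.trans hcx) hcx))
    rcases lt_or_eq_of_le (hle a ha) with h | h
    · refine ⟨b, eq_one_of_not_lt (hle b hb') fun hbl => ?_, hb'⟩
      have := v.map_add_lt (map_mul_lt_one (le_of_eq h4v) h) (map_mul_lt_one (le_of_eq h4v) hbl)
      rw [hsum, v.map_neg, hb₂, show v (W.a₁ ^ 2 + 4 * W.a₂) = 1 from hN.hdisc] at this
      exact lt_irrefl _ this
    · exact ⟨a, h, ha⟩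
  have hu : v (f.eval x) = 1 := by
    obtain ⟨e, k, he, -⟩ := eval_preΨ'_of_two_torsion W (x := x) (by
      simp only [Ψ₂Sq, eval_add, eval_mul, eval_C, eval_pow, eval_X, hb₄, hb₆]
      linear_combination x * hxr) p hodd
    have h43 : v (4 * x + W.b₂) < 1 := by
      have : v ((4 * x + W.b₂) * x) < 1 := by
        rw [show (4 * x + W.b₂) * x = -(4 * W.a₄) by linear_combination hxr, v.map_neg]
        exact map_mul_lt_one le_four hN.hb
      rwa [map_mul, hx1, mul_one] at this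
    have hΨ : v (W.Ψ₃.eval x) = 1 := by
      refine eq_one_of_sub_lt (a := -(x ^ 4)) (by rw [v.map_neg, map_pow, hx1, one_pow]) ?_
      simp only [Ψ₃, eval_add, eval_mul, eval_C, eval_pow, eval_X, eval_ofNat, hb₄, hb₆, hb₈]
      rw [show 3 * x ^ 4 + W.b₂ * x ^ 3 + 3 * (2 * W.a₄) * x ^ 2 + 3 * 0 * x + -W.a₄ ^ 2 - -(x ^ 4)
        = x ^ 3 * (4 * x + W.b₂) + (6 * x ^ 2 - W.a₄) * W.a₄ by ring]
      exact v.map_add_lt (map_mul_lt_one (map_pow_le_one hx1.le 3) h43)
        (map_mul_lt_one (v.map_sub_le (map_mul_le_one (natCast_le_one 6) (map_pow_le_one hx1.le 2))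
          hN.hI.h₄) hN.hb)
    rw [hf, he, map_mul, map_pow, map_pow, v.map_neg, map_one, one_pow, one_mul, hΨ, one_pow]
  obtain ⟨⟨z₁, hz₁, hz₁v⟩, z₂, hz₂, hz₂v⟩ :=
    exists_roots_of_values hl (by simp) hx1.le h0 hu
  have mk : ∀ z, f.eval z = 0 → ∃ y h, p • (Affine.Point.some z y h : W.toAffine.Point) = 0 := by
    intro z hz
    obtain ⟨y, hy⟩ := FA.EC.exists_nonsingular W z
    exact ⟨y, hy, (eval_preΨ'_eq_zero_iff hodd hy).mpr hz⟩
  obtain ⟨y₁, h₁, e₁⟩ := mk z₁ hz₁
  obtain ⟨y₂, h₂, e₂⟩ := mk z₂ hz₂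
  exact ⟨⟨_, e₂, Affine.Point.some_ne_zero h₂, hz₂v⟩, _, e₁, not_lt.mpr hz₁v⟩

/-- For multiplicative reduction in residue characteristic `p`. -/
theorem exists_torsion_e1_and_not [IsAlgClosed L] {r : L} (hr1 : v r ≤ 1)
    (hN : Node v (toOrigin V r).toAffine) {p : ℕ} (hp : p.Prime) (hp2 : p ≠ 2)
    (hp0 : (p : L) ≠ 0) (hpv : v (p : L) < 1) :
    (∃ P : V.toAffine.Point, p • P = 0 ∧ P ≠ 0 ∧ E1 v V.toAffine P) ∧
      ∃ P : V.toAffine.Point, p • P = 0 ∧ ¬ E1 v V.toAffine P := by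
  obtain ⟨⟨P, hP, hP0, hP1⟩, Q, hQ, hQ1⟩ := exists_torsion_of_node hN hp hp2 hp0 hpv
  refine ⟨⟨originEquiv V r P, by rw [← map_nsmul, hP, map_zero],
    fun h => hP0 ((originEquiv V r).injective (h.trans (map_zero _).symm)),
    (e1_origin hr1 P).mpr hP1⟩, originEquiv V r Q, by rw [← map_nsmul, hQ, map_zero],
    fun h => hQ1 ((e1_origin hr1 Q).mp h)⟩

end FA.Local
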