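import Fermat.Prelude.Def_FLTPrelim_GaloisRep
import Mathlib.AlgebraicGeometry.EllipticCurve.VariableChange
import Mathlib.Tactic.LinearCombination

/-!
# Translations of Weierstrass equations as isomorphisms of point groups
-/

namespace FA.Local

open WeierstrassCurve

set_option linter.unusedSectionVars false

variable {F L : Type*} [Field F] [Field L] [Algebra F L] [DecidableEq L]

/-- The translated equation: coordinates `(x, y)` of it correspond to `(x + r, y + t)`. -/
def translate (W : WeierstrassCurve F) (r t : F) : WeierstrassCurve F :=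
  (⟨1, r, 0, t⟩ : VariableChange F) • W

variable (W : WeierstrassCurve F) (r t : F)

lemma translate_a₁ : (translate W r t).a₁ = W.a₁ := by
  simp [translate, variableChange_a₁]

lemma translate_a₂ : (translate W r t).a₂ = W.a₂ + 3 * r := by
  simp [translate, variableChange_a₂]

lemma translate_a₃ : (translate W r t).a₃ = W.a₃ + r * W.a₁ + 2 * t := by
  simp [translate, variableChange_a₃]

lemma translate_a₄ :
    (translate W r t).a₄ = W.a₄ + 2 * r * W.a₂ - t * W.a₁ + 3 * r ^ 2 := by
  simp [translate, variableChange_a₄]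

lemma translate_a₆ : (translate W r t).a₆ =
    W.a₆ + r * W.a₄ + r ^ 2 * W.a₂ + r ^ 3 - t * W.a₃ - t ^ 2 - r * t * W.a₁ := by
  simp [translate, variableChange_a₆]

lemma translate_Δ : (translate W r t).Δ = W.Δ := by
  simp [translate, variableChange_Δ]

section Coord


lemma base_a₁ : ((translate W r t)⁄L).toAffine.a₁ = (W⁄L).toAffine.a₁ := congrArg (algebraMap F L) (translate_a₁ W r t)

lemma base_a₂ : ((translate W r t)⁄L).toAffine.a₂ = (W⁄L).toAffine.a₂ + 3 * (algebraMap F L r) := by
  show algebraMap F L (translate W r t).a₂ = algebraMap F L W.a₂ + 3 * (algebraMap F L r)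
  rw [translate_a₂]; simp [map_ofNat]

lemma base_a₃ : ((translate W r t)⁄L).toAffine.a₃ = (W⁄L).toAffine.a₃ + (algebraMap F L r) * (W⁄L).toAffine.a₁ + 2 * (algebraMap F L t) := by
  show algebraMap F L (translate W r t).a₃ =
    algebraMap F L W.a₃ + (algebraMap F L r) * algebraMap F L W.a₁ + 2 * (algebraMap F L t)
  rw [translate_a₃]; simp [map_ofNat]

lemma base_a₄ : ((translate W r t)⁄L).toAffine.a₄ = (W⁄L).toAffine.a₄ + 2 * (algebraMap F L r) * (W⁄L).toAffine.a₂ - (algebraMap F L t) * (W⁄L).toAffine.a₁ + 3 * (algebraMap F L r) ^ 2 := by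
  show algebraMap F L (translate W r t).a₄ = algebraMap F L W.a₄ + 2 * (algebraMap F L r) * algebraMap F L W.a₂
    - (algebraMap F L t) * algebraMap F L W.a₁ + 3 * (algebraMap F L r) ^ 2
  rw [translate_a₄]; simp [map_ofNat]

lemma base_a₆ : ((translate W r t)⁄L).toAffine.a₆ = (W⁄L).toAffine.a₆ + (algebraMap F L r) * (W⁄L).toAffine.a₄ + (algebraMap F L r) ^ 2 * (W⁄L).toAffine.a₂ + (algebraMap F L r) ^ 3 - (algebraMap F L t) * (W⁄L).toAffine.a₃ - (algebraMap F L t) ^ 2
    - (algebraMap F L r) * (algebraMap F L t) * (W⁄L).toAffine.a₁ := by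
  show algebraMap F L (translate W r t).a₆ = algebraMap F L W.a₆ + (algebraMap F L r) * algebraMap F L W.a₄
    + (algebraMap F L r) ^ 2 * algebraMap F L W.a₂ + (algebraMap F L r) ^ 3 - (algebraMap F L t) * algebraMap F L W.a₃ - (algebraMap F L t) ^ 2
    - (algebraMap F L r) * (algebraMap F L t) * algebraMap F L W.a₁
  rw [translate_a₆]; simp

lemma nonsingular_translate (x y : L) :
    ((translate W r t)⁄L).toAffine.Nonsingular x y ↔ (W⁄L).toAffine.Nonsingular (x + (algebraMap F L r)) (y + (algebraMap F L t)) := by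
  rw [Affine.nonsingular_iff', Affine.nonsingular_iff', Affine.equation_iff', Affine.equation_iff',
    base_a₁, base_a₂, base_a₃, base_a₄, base_a₆]
  refine and_congr ⟨fun h => ?_, fun h => ?_⟩ (or_congr (not_congr ⟨fun h => ?_, fun h => ?_⟩)
    (not_congr ⟨fun h => ?_, fun h => ?_⟩)) <;> linear_combination h

/-- The translation as a map of points. -/
def translateFun : ((translate W r t)⁄L).toAffine.Point → (W⁄L).toAffine.Point
  | .zero => 0
  | .some x y h => .some (x + (algebraMap F L r)) (y + (algebraMap F L t)) ((nonsingular_translate W r t x y).mp h)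

lemma translateFun_add (P Q : ((translate W r t)⁄L).toAffine.Point) :
    translateFun W r t (P + Q) = translateFun W r t P + translateFun W r t Q := by
  rcases P with _ | ⟨x₁, y₁, h₁⟩
  · rw [← Affine.Point.zero_def, zero_add]
    exact (zero_add (translateFun W r t Q)).symm
  rcases Q with _ | ⟨x₂, y₂, h₂⟩
  · rw [← Affine.Point.zero_def, add_zero]
    exact (add_zero (translateFun W r t (.some x₁ y₁ h₁))).symm
  have hneg : ∀ x y : L, (W⁄L).toAffine.negY (x + (algebraMap F L r)) (y + (algebraMap F L t)) = ((translate W r t)⁄L).toAffine.negY x y + (algebraMap F L t) := fun x y => by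
    simp only [Affine.negY, base_a₁, base_a₃]; ring
  by_cases hxy : x₁ = x₂ ∧ y₁ = ((translate W r t)⁄L).toAffine.negY x₂ y₂
  · rw [Affine.Point.add_of_Y_eq hxy.1 hxy.2]
    exact (Affine.Point.add_of_Y_eq (by rw [hxy.1]) (by rw [hneg, hxy.2])).symm
  have hxy' : ¬ (x₁ + (algebraMap F L r) = x₂ + (algebraMap F L r) ∧ y₁ + (algebraMap F L t) = (W⁄L).toAffine.negY (x₂ + (algebraMap F L r)) (y₂ + (algebraMap F L t))) := by
    rw [hneg, add_left_inj, add_left_inj]; exact hxy
  have hs : (W⁄L).toAffine.slope (x₁ + (algebraMap F L r)) (x₂ + (algebraMap F L r)) (y₁ + (algebraMap F L t)) (y₂ + (algebraMap F L t)) = ((translate W r t)⁄L).toAffine.slope x₁ x₂ y₁ y₂ := by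
    by_cases hx : x₁ = x₂
    · have hy : y₁ ≠ ((translate W r t)⁄L).toAffine.negY x₂ y₂ := fun h => hxy ⟨hx, h⟩
      have hy' : y₁ + (algebraMap F L t) ≠ (W⁄L).toAffine.negY (x₂ + (algebraMap F L r)) (y₂ + (algebraMap F L t)) := fun h => hxy' ⟨by rw [hx], h⟩
      rw [Affine.slope_of_Y_ne (by rw [hx]) hy', Affine.slope_of_Y_ne hx hy, hneg,
        base_a₁, base_a₂, base_a₄]
      congr 1 <;> ring
    · rw [Affine.slope_of_X_ne (fun h => hx (add_right_cancel h)), Affine.slope_of_X_ne hx]
      congr 1 <;> ring
  rw [Affine.Point.add_some hxy]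
  simp only [translateFun]
  rw [Affine.Point.add_some hxy']
  simp only [hs, Affine.Point.some.injEq, Affine.addY, Affine.negAddY, Affine.addX, Affine.negY,
    base_a₁, base_a₂, base_a₃]
  constructor <;> ring

/-- The translation as an isomorphism of point groups. -/
def translateEquiv : ((translate W r t)⁄L).toAffine.Point ≃+ (W⁄L).toAffine.Point where
  toFun := translateFun W r t
  invFun
    | .zero => 0
    | .some x y h => .some (x - (algebraMap F L r)) (y - (algebraMap F L t))
        ((nonsingular_translate W r t _ _).mpr (by rwa [sub_add_cancel, sub_add_cancel]))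
  left_inv := by
    rintro (_ | ⟨x, y, h⟩)
    · rfl
    · simp [translateFun]
  right_inv := by
    rintro (_ | ⟨x, y, h⟩)
    · rfl
    · simp [translateFun]
  map_add' := translateFun_add W r t

lemma translateEquiv_some {x y : L} (h : ((translate W r t)⁄L).toAffine.Nonsingular x y) :
    translateEquiv W r t (.some x y h : ((translate W r t)⁄L).toAffine.Point) =
      .some (x + (algebraMap F L r)) (y + (algebraMap F L t)) ((nonsingular_translate W r t x y).mp h) :=
  rfl

lemma translateEquiv_smul (σ : L ≃ₐ[F] L) (P : ((translate W r t)⁄L).toAffine.Point) :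
    translateEquiv W r t (σ • P) = σ • translateEquiv W r t P := by
  rcases P with _ | ⟨x, y, h⟩
  · rfl
  · show Affine.Point.some (σ x + (algebraMap F L r)) (σ y + (algebraMap F L t)) _ = Affine.Point.some (σ (x + (algebraMap F L r))) (σ (y + (algebraMap F L t))) _
    simp only [map_add, AlgEquiv.commutes]

end Coord

end FA.Local
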