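import Fermat.Agent.Local.Primes
import Fermat.Agent.Local.Translate
import Fermat.Prelude.Def_FLTPrelim_FreyPackage

/-!
# The Frey curve at each place: good or nodal normal form
-/

namespace FA.Local

open WeierstrassCurve

local notation "Qb" => AlgebraicClosure ℚ

variable (P : FreyPackage)

lemma frey_a_mod_four : (4 : ℤ) ∣ P.a + 1 := by
  rw [← Nat.cast_ofNat, ← ZMod.intCast_zmod_eq_zero_iff_dvd]
  push_cast
  rw [P.ha4]; decide

lemma frey_two_dvd_b : (2 : ℤ) ∣ P.b := (ZMod.intCast_zmod_eq_zero_iff_dvd P.b 2).1 P.hb2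

lemma frey_thirtytwo_dvd : (32 : ℤ) ∣ P.b ^ P.p :=
  (show (32 : ℤ) = 2 ^ 5 by norm_num) ▸
    (pow_dvd_pow (2 : ℤ) P.hp5).trans (pow_dvd_pow_of_dvd (frey_two_dvd_b P) P.p)

lemma frey_a₂_dvd : (4 : ℤ) ∣ P.b ^ P.p - 1 - P.a ^ P.p := by
  have h1 : P.a + 1 ∣ P.a ^ P.p + 1 := by
    have h := sub_dvd_pow_sub_pow P.a (-1) P.p
    rwa [P.hp_odd.neg_one_pow, sub_neg_eq_add, sub_neg_eq_add] at h
  have h2 := (frey_a_mod_four P).trans h1
  have h3 : (4 : ℤ) ∣ P.b ^ P.p := dvd_trans (by norm_num) (frey_thirtytwo_dvd P)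
  rw [show P.b ^ P.p - 1 - P.a ^ P.p = P.b ^ P.p - (P.a ^ P.p + 1) by ring]
  exact dvd_sub h3 h2

lemma frey_a₄_dvd : (32 : ℤ) ∣ P.a ^ P.p * P.b ^ P.p :=
  (frey_thirtytwo_dvd P).mul_left _

lemma frey_not_dvd_both {q : ℕ} (hq : q.Prime) {x y : ℤ} (hxy : gcd x y = 1)
    (h : (q : ℤ) ∣ x) : ¬ (q : ℤ) ∣ y := fun h' => by
  have := dvd_gcd h h'
  rw [hxy] at this
  exact hq.not_dvd_one (by exact_mod_cast this)

variable (q : ℕ) (A : ValuationSubring Qb)

/-- The Frey curve over `ℚ̄`. -/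
noncomputable abbrev freyBar : WeierstrassCurve Qb := (P.freyCurve)⁄Qb

lemma freyBar_a₁ : (freyBar P).a₁ = 1 := by
  show algebraMap ℚ Qb P.freyCurve.a₁ = 1
  simp [FreyPackage.freyCurve]

lemma freyBar_a₃ : (freyBar P).a₃ = 0 := by
  show algebraMap ℚ Qb P.freyCurve.a₃ = 0
  simp [FreyPackage.freyCurve]

lemma freyBar_a₆ : (freyBar P).a₆ = 0 := by
  show algebraMap ℚ Qb P.freyCurve.a₆ = 0
  simp [FreyPackage.freyCurve]

lemma four_mul_freyBar_a₂ :
    4 * (freyBar P).a₂ = (P.b : Qb) ^ P.p - 1 - (P.a : Qb) ^ P.p := by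
  show 4 * algebraMap ℚ Qb P.freyCurve.a₂ = _
  simp only [FreyPackage.freyCurve, map_div₀, map_sub, map_pow, map_one, map_intCast, map_ofNat]
  rw [mul_div_cancel₀ _ (by norm_num)]

lemma sixteen_mul_freyBar_a₄ :
    16 * (freyBar P).a₄ = -((P.a : Qb) ^ P.p * (P.b : Qb) ^ P.p) := by
  show 16 * algebraMap ℚ Qb P.freyCurve.a₄ = _
  simp only [FreyPackage.freyCurve, map_div₀, map_mul, map_neg, map_pow, map_intCast, map_ofNat]
  rw [mul_div_cancel₀ _ (by norm_num), neg_mul]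

lemma freyBar_c_pow : (P.a : Qb) ^ P.p + (P.b : Qb) ^ P.p = (P.c : Qb) ^ P.p := by
  exact_mod_cast congrArg (fun z : ℤ => (z : Qb)) P.hFLT

lemma freyBar_a₂_int : ∃ n : ℤ, (freyBar P).a₂ = n := by
  obtain ⟨n, hn⟩ := frey_a₂_dvd P
  refine ⟨n, mul_left_cancel₀ (show (4 : Qb) ≠ 0 by norm_num) ?_⟩
  rw [four_mul_freyBar_a₂]
  exact_mod_cast congrArg (fun z : ℤ => (z : Qb)) hn

lemma freyBar_a₄_int : ∃ n : ℤ, (freyBar P).a₄ = ((2 * n : ℤ) : Qb) := by
  obtain ⟨n, hn⟩ := frey_a₄_dvd P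
  refine ⟨-n, mul_left_cancel₀ (show (16 : Qb) ≠ 0 by norm_num) ?_⟩
  rw [sixteen_mul_freyBar_a₄]
  have := congrArg (fun z : ℤ => (z : Qb)) hn
  push_cast at this ⊢
  linear_combination -this

lemma freyBar_intCoeff : IntCoeff A.valuation (freyBar P).toAffine := by
  obtain ⟨n₂, h₂⟩ := freyBar_a₂_int P
  obtain ⟨n₄, h₄⟩ := freyBar_a₄_int P
  constructor
  · rw [freyBar_a₁, A.valuation.map_one]
  · rw [h₂]; exact intCast_le_one _
  · rw [freyBar_a₃, map_zero]; exact zero_le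
  · rw [h₄]; exact intCast_le_one _
  · rw [freyBar_a₆, map_zero]; exact zero_le

lemma freyBar_Δ :
    256 * (freyBar P).Δ = ((P.a : Qb) ^ P.p * (P.b : Qb) ^ P.p * (P.c : Qb) ^ P.p) ^ 2 := by
  have h2 := four_mul_freyBar_a₂ P
  have h4 := sixteen_mul_freyBar_a₄ P
  have hc := freyBar_c_pow P
  set a := (P.a : Qb) ^ P.p
  set b := (P.b : Qb) ^ P.p
  have hΔ : (freyBar P).Δ =
      (freyBar P).a₄ ^ 2 * ((1 + 4 * (freyBar P).a₂) ^ 2 - 64 * (freyBar P).a₄) := by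
    simp only [WeierstrassCurve.Δ, WeierstrassCurve.b₂, WeierstrassCurve.b₄, WeierstrassCurve.b₆,
      WeierstrassCurve.b₈, freyBar_a₁, freyBar_a₃, freyBar_a₆]
    ring
  rw [hΔ, ← hc, h2, show 256 * ((freyBar P).a₄ ^ 2 * ((1 + (b - 1 - a)) ^ 2 - 64 * (freyBar P).a₄))
      = (16 * (freyBar P).a₄) ^ 2 * ((b - a) ^ 2 - 4 * (16 * (freyBar P).a₄)) by ring, h4]
  ring

lemma freyBar_Δ_ne_zero : (freyBar P).Δ ≠ 0 := by
  intro h
  have := freyBar_Δ P
  rw [h, mul_zero, eq_comm, sq, mul_self_eq_zero, mul_eq_zero, mul_eq_zero] at this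
  rcases this with (h | h) | h <;> refine pow_ne_zero _ (Int.cast_ne_zero.mpr ?_) h
  exacts [P.ha0, P.hb0, P.hc0]

instance freyBar_isElliptic : (freyBar P).IsElliptic :=
  ⟨isUnit_iff_ne_zero.mpr (freyBar_Δ_ne_zero P)⟩

instance translate_isElliptic (r t : ℚ) :
    ((translate P.freyCurve r t)⁄Qb).IsElliptic :=
  ⟨isUnit_iff_ne_zero.mpr (by
    rw [baseChange, map_Δ, translate_Δ, ← map_Δ]
    exact freyBar_Δ_ne_zero P)⟩

variable {P q A}

lemma map_natCast_lt_one (hA : A.LiesOverPrime q) : A.valuation (q : Qb) < 1 :=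
  A.mem_nonunits_iff.mp hA

lemma freyBar_good (hq : q.Prime) (hA : A.LiesOverPrime q) (hq2 : q ≠ 2)
    (hn : ¬ (q : ℤ) ∣ P.a * P.b * P.c) : A.valuation (freyBar P).Δ = 1 := by
  have hv := map_natCast_lt_one hA
  have h := congrArg A.valuation (freyBar_Δ P)
  have h256 : A.valuation ((256 : ℤ) : Qb) = 1 := by
    refine natCast_eq_one_of_not_dvd hq hv fun hd => hq2 ?_
    have : q ∣ 2 ^ 8 := by exact_mod_cast hd
    exact (Nat.prime_dvd_prime_iff_eq hq Nat.prime_two).mp (hq.dvd_of_dvd_pow this)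
  rw [← mul_pow, ← mul_pow, ← Int.cast_mul, ← Int.cast_mul, map_mul, map_pow, map_pow,
    natCast_eq_one_of_not_dvd hq hv hn, one_pow, one_pow] at h
  rw [Int.cast_ofNat] at h256
  rwa [h256, one_mul] at h

lemma node_at_zero (hb : A.valuation (freyBar P).a₄ < 1)
    (hd : A.valuation ((P.b : Qb) ^ P.p - (P.a : Qb) ^ P.p) = 1) :
    Node A.valuation ((translate P.freyCurve 0 0)⁄Qb).toAffine ∧
      ((translate P.freyCurve 0 0)⁄Qb).a₄ = (freyBar P).a₄ := by
  have h0 : translate P.freyCurve 0 0 = P.freyCurve := by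
    simp [translate, ← WeierstrassCurve.VariableChange.one_def]
  rw [h0]
  refine ⟨⟨freyBar_intCoeff P A, freyBar_a₃ P, freyBar_a₆ P, hb, ?_, ?_⟩, rfl⟩
  · intro h
    have h' := sixteen_mul_freyBar_a₄ P
    rw [show (freyBar P).a₄ = 0 from h, mul_zero, eq_comm, neg_eq_zero, mul_eq_zero] at h'
    rcases h' with h | h <;> refine pow_ne_zero _ (Int.cast_ne_zero.mpr ?_) h
    exacts [P.ha0, P.hb0]
  · rw [freyBar_a₁, four_mul_freyBar_a₂,
      show (1 : Qb) ^ 2 + ((P.b : Qb) ^ P.p - 1 - (P.a : Qb) ^ P.p)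
        = (P.b : Qb) ^ P.p - (P.a : Qb) ^ P.p by ring]
    exact hd

/-- At an odd prime dividing `abc`, a translate of the Frey curve is in nodal normal form. -/
lemma freyBar_node_odd (hq : q.Prime) (hA : A.LiesOverPrime q) (hq2 : q ≠ 2)
    (hdvd : (q : ℤ) ∣ P.a * P.b * P.c) :
    ∃ r t : ℚ, A.valuation (r : Qb) ≤ 1 ∧
      Node A.valuation ((translate P.freyCurve r t)⁄Qb).toAffine ∧
      ∃ k : ℕ, A.valuation ((translate P.freyCurve r t)⁄Qb).a₄ =
        A.valuation (q : Qb) ^ (P.p * k) := by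
  have hv := map_natCast_lt_one hA
  have hp := P.hp0
  have hqi : Prime (q : ℤ) := Nat.prime_iff_prime_int.mp hq
  have h2 : A.valuation (2 : Qb) = 1 := by
    have := natCast_eq_one_of_not_dvd hq hv (n := 2) fun hd =>
      hq2 ((Nat.prime_dvd_prime_iff_eq hq Nat.prime_two).mp (by exact_mod_cast hd))
    simpa using this
  have h16 : A.valuation (16 : Qb) = 1 := by
    rw [show (16 : Qb) = 2 ^ 4 by norm_num, map_pow, h2, one_pow]
  have key : ∀ x y : ℤ, x ≠ 0 → ¬ (q : ℤ) ∣ y → (q : ℤ) ∣ x → ∃ k : ℕ,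
      A.valuation ((x : Qb) ^ P.p * (y : Qb) ^ P.p) = A.valuation (q : Qb) ^ (P.p * k) ∧
      A.valuation ((x : Qb) ^ P.p * (y : Qb) ^ P.p) < 1 ∧
      A.valuation ((y : Qb) ^ P.p) = 1 ∧ A.valuation ((x : Qb) ^ P.p) < 1 := by
    intro x y hx0 hy' hx
    have hy : A.valuation (y : Qb) = 1 := natCast_eq_one_of_not_dvd hq hv hy'
    have hxlt := intCast_lt_one_of_dvd hv hx (v := A.valuation)
    obtain ⟨k, hk, -⟩ := map_intCast_eq_pow (v := A.valuation) hq hv hx0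
    rw [map_mul, map_pow, map_pow, hy, one_pow, mul_one]
    exact ⟨k, by rw [hk, ← pow_mul, mul_comm], pow_lt_one₀ zero_le hxlt hp, rfl,
      pow_lt_one₀ zero_le hxlt hp⟩
  have hval : ∀ z w : Qb, 16 * z = -w → A.valuation z = A.valuation w := by
    intro z w hzw
    have := congrArg A.valuation hzw
    rwa [map_mul, h16, one_mul, Valuation.map_neg] at this
  by_cases hc : (q : ℤ) ∣ P.c
  · -- the node is the point with abscissa `a ^ p / 4`
    have hna : ¬ (q : ℤ) ∣ P.a := fun h => frey_not_dvd_both hq P.hgcdac h hc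
    obtain ⟨k, hk, hlt, hua, hclt⟩ := key P.c P.a P.hc0 hna hc
    refine ⟨(P.a : ℚ) ^ P.p / 4, -((P.a : ℚ) ^ P.p / 8), ?_, ?_⟩
    · push_cast
      rw [map_div₀, show (4 : Qb) = 2 * 2 by norm_num, map_mul, h2, one_mul, div_one, map_pow]
      exact pow_le_one₀ zero_le (intCast_le_one _)
    set r : ℚ := (P.a : ℚ) ^ P.p / 4
    set t : ℚ := -((P.a : ℚ) ^ P.p / 8)
    have hr : algebraMap ℚ Qb r = (P.a : Qb) ^ P.p / 4 := by simp [r]
    have ht : algebraMap ℚ Qb t = -((P.a : Qb) ^ P.p / 8) := by simp [t]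
    have e1 : ((translate P.freyCurve r t)⁄Qb).a₁ = 1 :=
      (base_a₁ P.freyCurve r t).trans (freyBar_a₁ P)
    have e2 : ((translate P.freyCurve r t)⁄Qb).a₂
        = (freyBar P).a₂ + 3 * ((P.a : Qb) ^ P.p / 4) :=
      (base_a₂ P.freyCurve r t).trans (by rw [hr])
    have e3 : ((translate P.freyCurve r t)⁄Qb).a₃ = 0 := by
      refine (base_a₃ P.freyCurve r t).trans ?_
      rw [hr, ht]
      show (freyBar P).a₃ + _ * (freyBar P).a₁ + _ = 0
      rw [freyBar_a₁, freyBar_a₃]; ring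
    have e6 : ((translate P.freyCurve r t)⁄Qb).a₆ = 0 := by
      refine (base_a₆ P.freyCurve r t).trans ?_
      rw [hr, ht]
      show (freyBar P).a₆ + _ * (freyBar P).a₄ + _ * (freyBar P).a₂ + _ - _ * (freyBar P).a₃ - _
        - _ * (freyBar P).a₁ = 0
      rw [freyBar_a₁, freyBar_a₃, freyBar_a₆]
      linear_combination ((P.a : Qb) ^ P.p / 64) * sixteen_mul_freyBar_a₄ P +
        (((P.a : Qb) ^ P.p) ^ 2 / 64) * four_mul_freyBar_a₂ P
    have e4 : 16 * ((translate P.freyCurve r t)⁄Qb).a₄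
        = -(-((P.c : Qb) ^ P.p * (P.a : Qb) ^ P.p)) := by
      rw [show ((translate P.freyCurve r t)⁄Qb).a₄ = _ from base_a₄ P.freyCurve r t, hr, ht]
      show 16 * ((freyBar P).a₄ + _ * (freyBar P).a₂ - _ * (freyBar P).a₁ + _) = _
      rw [freyBar_a₁]
      linear_combination sixteen_mul_freyBar_a₄ P
        + (2 * (P.a : Qb) ^ P.p) * four_mul_freyBar_a₂ P + (P.a : Qb) ^ P.p * freyBar_c_pow P
    have v4 := hval _ _ e4
    rw [Valuation.map_neg] at v4
    have hI := freyBar_intCoeff P A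
    refine ⟨⟨⟨?_, ?_, ?_, ?_, ?_⟩, e3, e6, ?_, ?_, ?_⟩, k, ?_⟩
    · rw [e1, A.valuation.map_one]
    · rw [e2]
      refine A.valuation.map_add_le hI.h₂ (map_mul_le_one le_three ?_)
      rw [map_div₀, show (4 : Qb) = 2 * 2 by norm_num, map_mul, h2, one_mul, div_one, map_pow]
      exact pow_le_one₀ zero_le (intCast_le_one _)
    · rw [e3, map_zero]; exact zero_le
    · rw [v4]; exact hlt.le
    · rw [e6, map_zero]; exact zero_le
    · rw [v4]; exact hlt
    · intro h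
      rw [h, mul_zero, neg_neg, eq_comm, mul_eq_zero] at e4
      rcases e4 with h | h <;> refine pow_ne_zero _ (Int.cast_ne_zero.mpr ?_) h
      exacts [P.hc0, P.ha0]
    · refine eq_one_of_sub_lt hua ?_
      rw [e1, e2, show (1 : Qb) ^ 2 + 4 * ((freyBar P).a₂ + 3 * ((P.a : Qb) ^ P.p / 4))
          - (P.a : Qb) ^ P.p = (P.c : Qb) ^ P.p by
        linear_combination four_mul_freyBar_a₂ P + freyBar_c_pow P]
      exact hclt
    · rw [v4]; exact hk
  · -- the node is at the origin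
    have hab : (q : ℤ) ∣ P.a ∨ (q : ℤ) ∣ P.b :=
      hqi.dvd_or_dvd ((hqi.dvd_or_dvd hdvd).resolve_right hc)
    refine ⟨0, 0, by simp, ?_⟩
    have h4 := hval _ _ (sixteen_mul_freyBar_a₄ P)
    rcases hab with h | h
    · have hnb := frey_not_dvd_both hq P.hgcdab h
      obtain ⟨k, hk, hlt, hub, halt⟩ := key P.a P.b P.ha0 hnb h
      obtain ⟨hN, he⟩ := node_at_zero (P := P) (A := A) (h4.trans_lt hlt)
        (by rw [A.valuation.map_sub_eq_of_lt_left (hub.symm ▸ halt), hub])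
      exact ⟨hN, k, by rw [he, h4, hk]⟩
    · have hna : ¬ (q : ℤ) ∣ P.a := fun h' => frey_not_dvd_both hq P.hgcdab h' h
      obtain ⟨k, hk, hlt, hua, hblt⟩ := key P.b P.a P.hb0 hna h
      rw [mul_comm] at hk hlt
      obtain ⟨hN, he⟩ := node_at_zero (P := P) (A := A) (h4.trans_lt hlt)
        (by rw [A.valuation.map_sub_eq_of_lt_right (hua.symm ▸ hblt), hua])
      exact ⟨hN, k, by rw [he, h4, hk]⟩

/-- At `2` the Frey curve is in nodal normal form and `v a₄` is not a `p`-th power. -/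
lemma freyBar_node_two (hA : A.LiesOverPrime 2) :
    Node A.valuation ((translate P.freyCurve 0 0)⁄Qb).toAffine ∧
      ∃ m : ℕ, ¬ P.p ∣ m ∧ A.valuation ((translate P.freyCurve 0 0)⁄Qb).a₄ =
        A.valuation ((2 : ℕ) : Qb) ^ m := by
  have hv := map_natCast_lt_one hA
  have hp5 := P.hp5
  have hb : ((2 : ℕ) : ℤ) ∣ P.b := by exact_mod_cast frey_two_dvd_b P
  have hna : ¬ ((2 : ℕ) : ℤ) ∣ P.a := fun h => frey_not_dvd_both Nat.prime_two P.hgcdab h hb
  have hva : A.valuation ((P.a : Qb) ^ P.p) = 1 := by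
    rw [map_pow, natCast_eq_one_of_not_dvd Nat.prime_two hv hna, one_pow]
  have hvb : A.valuation ((P.b : Qb) ^ P.p) < 1 := by
    rw [map_pow]; exact pow_lt_one₀ zero_le (intCast_lt_one_of_dvd hv hb) P.hp0
  have h4lt : A.valuation (freyBar P).a₄ < 1 := by
    obtain ⟨n, hn⟩ := freyBar_a₄_int P
    rw [hn]; exact intCast_lt_one_of_dvd hv ⟨n, by push_cast; ring⟩
  obtain ⟨hN, he⟩ := node_at_zero (P := P) (A := A) h4lt
    (by rw [A.valuation.map_sub_eq_of_lt_right (hva.symm ▸ hvb), hva])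
  refine ⟨hN, ?_⟩
  rw [he]
  obtain ⟨k, hk, hk1⟩ := map_intCast_eq_pow (v := A.valuation) Nat.prime_two hv P.hb0
  have hpk : P.p * 1 ≤ P.p * k := Nat.mul_le_mul_left _ (hk1 hb)
  refine ⟨P.p * k - 4, fun hd => ?_, ?_⟩
  · have hd4 : P.p ∣ 4 := by
      have h := Nat.dvd_sub (dvd_mul_right P.p k) hd
      rwa [show P.p * k - (P.p * k - 4) = 4 by omega] at h
    exact absurd (Nat.le_of_dvd (by norm_num) hd4) (by omega)
  · have h := congrArg A.valuation (sixteen_mul_freyBar_a₄ P)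
    rw [map_mul, Valuation.map_neg, map_mul _ ((P.a : Qb) ^ P.p), hva, one_mul,
      map_pow _ (P.b : Qb), hk, show (16 : Qb) = ((2 : ℕ) : Qb) ^ 4 by norm_num, map_pow,
      ← pow_mul] at h
    have hne : A.valuation ((2 : ℕ) : Qb) ^ 4 ≠ 0 :=
      pow_ne_zero _ (A.valuation.ne_zero_iff.mpr (by norm_num))
    refine mul_left_cancel₀ hne ?_
    rw [h, ← pow_add, show 4 + (P.p * k - 4) = k * P.p by rw [mul_comm k]; omega]

end FA.Local
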