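import Fermat.Agent.Local.FreyArith
import Fermat.Agent.Local.Torsion

/-!
# Inertia on the `p`-torsion of the Frey curve, and the absence of rational `p`-torsion
-/

namespace FA.Local

open WeierstrassCurve

local notation "Qb" => AlgebraicClosure ℚ
local notation "G" => AlgebraicClosure ℚ ≃ₐ[ℚ] AlgebraicClosure ℚ

variable {P : FreyPackage} {q : ℕ} {A : ValuationSubring (AlgebraicClosure ℚ)}

/-- The points of the Frey curve over `ℚ̄`. -/
abbrev FreyPt (P : FreyPackage) := (freyBar P).toAffine.Point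

section Translated

variable {r t : ℚ}

lemma e1_translate (hr : A.valuation (r : Qb) ≤ 1)
    (X : ((translate P.freyCurve r t)⁄Qb).toAffine.Point) :
    E1 A.valuation (freyBar P).toAffine (translateEquiv P.freyCurve r t X) ↔
      E1 A.valuation ((translate P.freyCurve r t)⁄Qb).toAffine X := by
  rcases X with _ | ⟨x, y, h⟩
  · exact iff_of_true trivial trivial
  rw [translateEquiv_some]
  show 1 < A.valuation (x + algebraMap ℚ Qb r) ↔ 1 < A.valuation x
  rw [eq_ratCast]
  constructor <;> intro hx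
  · by_contra hc
    exact absurd hx (not_lt.mpr (A.valuation.map_add_le (not_lt.mp hc) hr))
  · rwa [A.valuation.map_add_eq_of_lt_left (hr.trans_lt hx)]

lemma translateEquiv_nsmul_eq_zero {X : ((translate P.freyCurve r t)⁄Qb).toAffine.Point} {n : ℕ}
    (h : n • translateEquiv P.freyCurve r t X = 0) : n • X = 0 := by
  rw [← map_nsmul] at h
  exact (translateEquiv P.freyCurve r t).injective (h.trans (map_zero _).symm)

/-- The component of the identity, transported to the Frey curve. -/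
noncomputable def componentSubgroup
    (hN : Node A.valuation ((translate P.freyCurve r t)⁄Qb).toAffine) : AddSubgroup (FreyPt P) :=
  AddSubgroup.map (translateEquiv P.freyCurve r t).toAddMonoidHom
    { carrier := {X | E0 A.valuation ((translate P.freyCurve r t)⁄Qb).toAffine X}
      zero_mem' := (e0_zero : E0 A.valuation ((translate P.freyCurve r t)⁄Qb).toAffine 0)
      add_mem' := fun hX hY => hN.e0_add hX hY
      neg_mem' := fun hX => e0_neg.mpr hX }

end Translated

lemma component_of_node {r t : ℚ}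
    (hr : A.valuation (r : Qb) ≤ 1)
    (hN : Node A.valuation ((translate P.freyCurve r t)⁄Qb).toAffine) :
    (∀ σ : G, Inert A.valuation σ → ∀ X : FreyPt P, P.p • X = 0 →
        σ • X - X ∈ componentSubgroup hN) ∧
      ∀ σ : G, Inert A.valuation σ → ∀ X : FreyPt P, X ∈ componentSubgroup hN →
        E1 A.valuation (freyBar P).toAffine (σ • X - X) := by
  refine ⟨fun σ hσ X hX => ?_, fun σ hσ X hX => ?_⟩
  · obtain ⟨X', rfl⟩ := (translateEquiv P.freyCurve r t).surjective X
    rw [← translateEquiv_smul, ← map_sub]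
    exact ⟨_, hσ.e0_smul_sub _ hN P.hp_odd (translateEquiv_nsmul_eq_zero hX), rfl⟩
  · obtain ⟨X', hX', rfl⟩ := hX
    show E1 _ _ (σ • translateEquiv P.freyCurve r t X' - translateEquiv P.freyCurve r t X')
    rw [← translateEquiv_smul, ← map_sub, e1_translate hr]
    exact hσ.e1_smul_sub_of_e0 _ hN hX'

/-- At every prime there is a subgroup containing the inertia displacements of all `p`-torsion
points and on which inertia acts trivially modulo the kernel of reduction. -/
theorem exists_component (hq : q.Prime) (hA : A.LiesOverPrime q) :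
    ∃ L₀ : AddSubgroup (FreyPt P),
      (∀ σ : G, Inert A.valuation σ → ∀ X : FreyPt P, P.p • X = 0 → σ • X - X ∈ L₀) ∧
      ∀ σ : G, Inert A.valuation σ → ∀ X : FreyPt P, X ∈ L₀ →
        E1 A.valuation (freyBar P).toAffine (σ • X - X) := by
  by_cases hq2 : q = 2
  · subst hq2
    obtain ⟨hN, -⟩ := freyBar_node_two (P := P) hA
    exact ⟨_, component_of_node (by simp) hN⟩
  by_cases hdvd : (q : ℤ) ∣ P.a * P.b * P.c
  · obtain ⟨r, t, hr, hN, -⟩ := freyBar_node_odd hq hA hq2 hdvd
    exact ⟨_, component_of_node hr hN⟩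
  · exact ⟨⊤, fun _ _ _ _ => trivial, fun σ hσ X _ =>
      hσ.e1_smul_sub_of_good _ (freyBar_intCoeff P A) (freyBar_good hq hA hq2 hdvd) X⟩

lemma natCast_p_eq_one (hq : q.Prime) (hA : A.LiesOverPrime q) (hqp : q ≠ P.p) :
    A.valuation (P.p : Qb) = 1 := by
  have := natCast_eq_one_of_not_dvd hq (map_natCast_lt_one hA) (n := (P.p : ℤ)) fun hd =>
    hqp ((Nat.prime_dvd_prime_iff_eq hq P.pp).mp (Int.natCast_dvd_natCast.mp hd))
  rwa [Int.cast_natCast] at this

lemma nsmul_smul_sub (σ : G) {X : FreyPt P} (hX : P.p • X = 0) :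
    P.p • (σ • X - X) = 0 := by
  rw [nsmul_sub, smul_comm, hX]
  exact sub_eq_zero.mpr (gal_smul_zero _ σ)

/-- Away from `p` inertia acts unipotently on the `p`-torsion. -/
theorem smul_smul_sub_eq (hq : q.Prime) (hA : A.LiesOverPrime q) (hqp : q ≠ P.p) {σ : G}
    (hσ : Inert A.valuation σ) {X : FreyPt P} (hX : P.p • X = 0) :
    σ • (σ • X - X) = σ • X - X := by
  obtain ⟨L₀, h1, h2⟩ := exists_component (P := P) hq hA
  refine sub_eq_zero.mp (eq_zero_of_e1_of_nsmul (freyBar_intCoeff P A) P.hp_odd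
    (natCast_p_eq_one hq hA hqp) (h2 σ hσ _ (h1 σ hσ X hX)) ?_)
  exact nsmul_smul_sub σ (nsmul_smul_sub σ hX)

/-- At a prime `q ≠ 2, p` inertia acts trivially on the `p`-torsion. -/
theorem smul_eq_of_odd (hq : q.Prime) (hA : A.LiesOverPrime q) (hq2 : q ≠ 2) (hqp : q ≠ P.p)
    {σ : G} (hσ : Inert A.valuation σ) {X : FreyPt P} (hX : P.p • X = 0) : σ • X = X := by
  have hI := freyBar_intCoeff P A
  have hp1 := natCast_p_eq_one hq hA hqp
  refine sub_eq_zero.mp ?_
  by_cases hdvd : (q : ℤ) ∣ P.a * P.b * P.c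
  swap
  · exact eq_zero_of_e1_of_nsmul hI P.hp_odd hp1
      (hσ.e1_smul_sub_of_good _ hI (freyBar_good hq hA hq2 hdvd) X) (nsmul_smul_sub σ hX)
  obtain ⟨r, t, hr, hN, k, hk⟩ := freyBar_node_odd hq hA hq2 hdvd
  obtain ⟨X', rfl⟩ := (translateEquiv P.freyCurve r t).surjective X
  have hX' := translateEquiv_nsmul_eq_zero hX
  rw [← translateEquiv_smul, ← map_sub]
  suffices h : σ • X' - X' = 0 by rw [h, map_zero]
  refine eq_zero_of_e1_of_nsmul hN.hI P.hp_odd hp1 ?_
    (by rw [nsmul_sub, smul_comm, hX', smul_zero, sub_zero])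
  rcases hN.e0_or_br P.hp_odd hX' with hE | ⟨g, s, hbr⟩
  · exact hσ.e1_smul_sub_of_e0 _ hN hE
  obtain ⟨j, hj⟩ := hN.pow_eq_of_torsion P.pp hbr hX'
  have hg : g = A.valuation (q : Qb) ^ (k * j) := by
    refine (pow_left_inj₀ zero_le zero_le P.hp0).mp ?_
    rw [hj]
    show A.valuation ((translate P.freyCurve r t)⁄Qb).a₄ ^ j = _
    rw [hk, ← pow_mul, ← pow_mul]
    ring_nf
  obtain ⟨R, hR, hfix⟩ := exists_fixed_br _ hN
    (WeierstrassCurve.IsElliptic.isUnit (W := (translate P.freyCurve r t)⁄Qb)).ne_zero hbr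
    (X := (q : ℚ) ^ (k * j)) (by simp [hg])
  rw [show σ • X' - X' = σ • (X' - R) - (X' - R) by rw [smul_sub, hfix σ hσ]; abel]
  exact hσ.e1_smul_sub_of_e0 _ hN (hN.sub_e0_of_br hbr hR)

/-- The Frey curve has no rational point of order `p`. -/
theorem eq_zero_of_fixed {X : FreyPt P} (hX : P.p • X = 0)
    (hfix : ∀ σ : G, σ • X = X) {A : ValuationSubring Qb} (hA : A.LiesOverPrime 2) : X = 0 := by
  obtain ⟨hN, m, hpm, hm⟩ := freyBar_node_two (P := P) hA
  set W2 := ((translate P.freyCurve 0 0)⁄Qb).toAffine with hW2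
  obtain ⟨X', rfl⟩ := (translateEquiv P.freyCurve 0 0).surjective X
  have hX' := translateEquiv_nsmul_eq_zero hX
  have hfix' : ∀ σ : G, σ • X' = X' := fun σ =>
    (translateEquiv P.freyCurve 0 0).injective ((translateEquiv_smul ..).trans (hfix σ))
  suffices h : X' = 0 by rw [h, map_zero]
  have hv := map_natCast_lt_one hA
  have hv2 : A.valuation (2 : Qb) < 1 := by simpa using hv
  have hp1 : A.valuation (P.p : Qb) = 1 :=
    natCast_p_eq_one Nat.prime_two hA (by have := P.hp5; omega)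
  have hE1 : ∀ Y : W2.Point, E1 A.valuation W2 Y → P.p • Y = 0 → Y = 0 := fun Y h1 h2 =>
    eq_zero_of_e1_of_nsmul hN.hI P.hp_odd hp1 h1 h2
  have hrat : ∀ (x y : Qb) (h : W2.Nonsingular x y),
      (∀ σ : G, σ • (Affine.Point.some x y h : W2.Point) = .some x y h) →
      (∃ c : ℚ, (c : Qb) = x) ∧ ∃ d : ℚ, (d : Qb) = y := fun x y h hf =>
    ⟨exists_ratCast_of_fixed x fun σ => (Affine.Point.some.inj (hf σ)).1,
      exists_ratCast_of_fixed y fun σ => (Affine.Point.some.inj (hf σ)).2⟩
  rcases hN.e0_or_br P.hp_odd hX' with hE | ⟨g, s, hbr⟩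
  · -- the reduction would be a point of order `3`
    rcases hQ : X' with _ | ⟨x, y, h⟩
    · rfl
    subst hQ
    exfalso
    have hne : (Affine.Point.some x y h : W2.Point) ≠ 0 := Affine.Point.some_ne_zero h
    have unit : ∀ (x y : Qb) (h : W2.Nonsingular x y),
        P.p • (Affine.Point.some x y h : W2.Point) = 0 → E0 A.valuation W2 (.some x y h) →
        A.valuation x = 1 := by
      intro x y h h1 h2
      by_contra hc
      exact Affine.Point.some_ne_zero h
        (hE1 _ (lt_of_le_of_ne ((e0_some h).mp h2) (Ne.symm hc)) h1)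
    have hxu := unit x y h hX' hE
    set X2 := (Affine.Point.some x y h : W2.Point) + .some x y h with hX2
    have hX2p : P.p • X2 = 0 := by rw [hX2, nsmul_add, hX', add_zero]
    have hX2fix : ∀ σ : G, σ • X2 = X2 := fun σ => by
      rw [hX2]
      exact (gal_smul_add _ σ _ _).trans (congrArg₂ (· + ·) (hfix' σ) (hfix' σ))
    have hX2E : E0 A.valuation W2 X2 := hN.e0_add hE hE
    rcases hX2c : X2 with _ | ⟨x₂, y₂, h₂⟩
    · -- a point of order two
      refine hne ?_
      have h2 : (2 : ℕ) • (Affine.Point.some x y h : W2.Point) = 0 := by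
        rw [two_nsmul]; exact hX2c
      obtain ⟨k, hk⟩ := P.hp_odd
      have h' := hX'
      rw [hk, add_nsmul, mul_comm, mul_nsmul', h2, nsmul_zero, zero_add, one_nsmul] at h'
      exact h'
    rw [hX2c] at hX2p hX2fix hX2E
    have hxu₂ := unit x₂ y₂ h₂ hX2p hX2E
    obtain ⟨⟨c, hc⟩, d, hd⟩ := hrat x y h hfix'
    obtain ⟨⟨c₂, hc₂⟩, d₂, hd₂⟩ := hrat x₂ y₂ h₂ hX2fix
    have res : ∀ (z : Qb) (e : ℚ), (e : Qb) = z → A.valuation z ≤ 1 →
        A.valuation z < 1 ∨ A.valuation (z - 1) < 1 := by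
      rintro _ e rfl he; exact ratCast_lt_one_or_sub_one_lt_one hv2 he
    have hx1 := (res x c hc hxu.le).resolve_left hxu.not_lt
    have hx1' := (res x₂ c₂ hc₂ hxu₂.le).resolve_left hxu₂.not_lt
    have hxx : A.valuation (x - x₂) < 1 := by
      rw [show x - x₂ = (x - 1) - (x₂ - 1) by ring]; exact A.valuation.map_sub_lt hx1 hx1'
    have hy := res y d hd (le_y_of_le_x hN.hI h.1 hxu.le)
    have hy₂ := res y₂ d₂ hd₂ (le_y_of_le_x hN.hI h₂.1 hxu₂.le)
    have ha1 : W2.a₁ = 1 := (base_a₁ P.freyCurve 0 0).trans (freyBar_a₁ P)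
    have key : A.valuation (y - y₂) < 1 ∨ A.valuation (y - W2.negY x₂ y₂) < 1 := by
      have hneg : y - W2.negY x₂ y₂ = y + y₂ + x₂ := by
        simp only [Affine.negY, ha1, hN.h₃]; ring
      rw [hneg]
      rcases hy with hy | hy <;> rcases hy₂ with hy₂ | hy₂
      · exact Or.inl (A.valuation.map_sub_lt hy hy₂)
      · right
        rw [show y + y₂ + x₂ = y + (y₂ - 1) + (x₂ - 1) + 2 by ring]
        exact A.valuation.map_add_lt (A.valuation.map_add_lt (A.valuation.map_add_lt hy hy₂) hx1') hv2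
      · right
        rw [show y + y₂ + x₂ = (y - 1) + y₂ + (x₂ - 1) + 2 by ring]
        exact A.valuation.map_add_lt (A.valuation.map_add_lt (A.valuation.map_add_lt hy hy₂) hx1') hv2
      · left
        rw [show y - y₂ = (y - 1) - (y₂ - 1) by ring]; exact A.valuation.map_sub_lt hy hy₂
    rcases key with hk | hk
    · have h1 := e1_sub_of_congr hN.hI h h₂ hxu.le (hN.nsRed h.1 hxu) hxx hk
      have h0 := hE1 _ h1 (by rw [nsmul_sub, hX', hX2p, sub_zero])
      rw [← hX2c, hX2, sub_add_cancel_left, neg_eq_zero] at h0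
      exact hne h0
    · have h1 := e1_sub_of_congr hN.hI h ((Affine.nonsingular_neg ..).mpr h₂) hxu.le
        (hN.nsRed h.1 hxu) hxx hk
      rw [← Affine.Point.neg_some h₂, sub_neg_eq_add] at h1
      have h0 := hE1 _ h1 (by rw [nsmul_add, hX', hX2p, add_zero])
      rw [← hX2c, hX2] at h0
      have h3 : (3 : ℕ) • (Affine.Point.some x y h : W2.Point) = 0 := by
        rw [← h0]; abel
      refine hne ?_
      have hdiv : addOrderOf (Affine.Point.some x y h : W2.Point) ∣ 1 := by
        have hcop : Nat.Coprime P.p 3 := (Nat.coprime_primes P.pp Nat.prime_three).mpr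
          (by have := P.hp5; omega)
        rw [← hcop.gcd_eq_one]
        exact Nat.dvd_gcd (addOrderOf_dvd_of_nsmul_eq_zero hX')
          (addOrderOf_dvd_of_nsmul_eq_zero h3)
      exact AddMonoid.addOrderOf_eq_one_iff.mp (Nat.dvd_one.mp hdiv)
  · exfalso
    obtain ⟨j, hj⟩ := hN.pow_eq_of_torsion P.pp hbr hX'
    obtain ⟨x, y, h, rfl⟩ := hbr.exists_eq
    obtain ⟨⟨c, hc⟩, -⟩ := hrat x y h hfix'
    rw [br_some] at hbr
    obtain ⟨hxg, hlow, hup, -, -⟩ := hbr
    have hx0 : x ≠ 0 := A.valuation.pos_iff.mp (hxg ▸ lt_of_le_of_lt zero_le hlow)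
    obtain ⟨k, hk⟩ := map_ratCast_eq_zpow (v := A.valuation) Nat.prime_two hv (c := c)
      (fun h0 => hx0 (by rw [← hc, h0, Rat.cast_zero]))
    rw [hc, hxg] at hk
    have ha4 : A.valuation W2.a₄ = A.valuation ((2 : ℕ) : Qb) ^ m := hm
    set u := A.valuation ((2 : ℕ) : Qb) with hu
    have hu0 : 0 < u := A.valuation.pos_iff.mpr (by norm_num)
    have hinj : Function.Injective fun n : ℤ => u ^ n := (zpow_right_strictAnti₀ hu0 hv).injective
    rw [ha4, hk, ← zpow_natCast (u ^ k), ← zpow_mul, ← pow_mul, ← zpow_natCast] at hj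
    have hkj : k * P.p = ((m * j : ℕ) : ℤ) := hinj hj
    have hpj : P.p ∣ j := by
      have hd : P.p ∣ m * j :=
        Int.natCast_dvd_natCast.mp ⟨k, by rw [← hkj, mul_comm]⟩
      exact (P.pp.dvd_mul.mp hd).resolve_left hpm
    obtain ⟨i, rfl⟩ := hpj
    have hki : k = ((m * i : ℕ) : ℤ) := by
      refine mul_right_cancel₀ (show (P.p : ℤ) ≠ 0 by exact_mod_cast P.hp0) ?_
      exact hkj.trans (by push_cast; ring)
    rw [hki, zpow_natCast] at hk
    rw [hk, ha4] at hlow
    rw [hk] at hup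
    rcases Nat.eq_zero_or_pos i with rfl | hi
    · rw [mul_zero, pow_zero] at hup; exact lt_irrefl _ hup
    · exact absurd hlow (not_lt.mpr (pow_le_pow_right_of_le_one' hv.le
        (Nat.le_mul_of_pos_right m hi)))

end FA.Local
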