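import Fermat.Agent.Local.NodeExists
import Fermat.Agent.Local.Inertia
import Fermat.Agent.Frob.VarChange

/-!
# Inertia and multiplicative reduction

For a Weierstrass equation over `F` with multiplicative reduction at a valuation `v` of an
algebraic closure, inertia moves every point inside the component of the identity, so it acts
unipotently modulo the kernel of reduction. If the valuation of the discriminant is a `p`-th
power of the value of a fixed element then every `p`-torsion point is congruent modulo the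
component of the identity to a point fixed by inertia.
-/

namespace FA.Local

open WeierstrassCurve

set_option linter.unusedSectionVars false

variable {L Γ : Type*} [Field L] [LinearOrderedCommGroupWithZero Γ] {v : Valuation L Γ}

/-- Reducing to a nonsingular point. -/
def NsE0 (v : Valuation L Γ) (W : Affine L) (P : W.Point) : Prop :=
  ∀ x y h, P = Affine.Point.some x y h → v x ≤ 1 → NsRed v W x y

lemma nsE0_of_e1 {W : Affine L} {P : W.Point} (hP : E1 v W P) : NsE0 v W P := by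
  intro x y h hPe hx
  subst hPe
  exact absurd hP (not_lt.mpr hx)

section Translate

variable [DecidableEq L] {V : WeierstrassCurve L} [V.IsElliptic] {r : L}

instance toOrigin_isElliptic : (toOrigin V r).IsElliptic := by
  unfold toOrigin; infer_instance

/-- The translation to the nodal normal form, on points. -/
noncomputable def originEquiv (V : WeierstrassCurve L) [V.IsElliptic] (r : L) :
    (toOrigin V r).toAffine.Point ≃+ V.toAffine.Point :=
  FA.Frob.vcEquiv (⟨1, r, 0, halfY V r⟩ : VariableChange L) rfl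

lemma originEquiv_some {x y : L} (h : (toOrigin V r).toAffine.Nonsingular x y) :
    ∃ h', originEquiv V r (.some x y h) = .some (x + r) (y + halfY V r) h' := by
  have e1 : FA.Frob.vcX (⟨1, r, 0, halfY V r⟩ : VariableChange L) x = x + r := by
    simp [FA.Frob.vcX]
  have e2 : FA.Frob.vcY (⟨1, r, 0, halfY V r⟩ : VariableChange L) x y = y + halfY V r := by
    simp [FA.Frob.vcY]
  refine ⟨e1 ▸ e2 ▸ Affine.equation_iff_nonsingular.mp
    ((FA.Frob.equation_vc (⟨1, r, 0, halfY V r⟩ : VariableChange L) rfl x y).mpr h.1), ?_⟩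
  refine (FA.Frob.vcEquiv_some (⟨1, r, 0, halfY V r⟩ : VariableChange L) rfl h).trans ?_
  simp only [Affine.Point.some.injEq, e1, e2, and_self]

lemma fy_origin (h2 : (2 : L) ≠ 0) (x y : L) :
    fy V.toAffine (x + r) (y + halfY V r) = fy (toOrigin V r).toAffine x y := by
  show 2 * (y + halfY V r) + V.a₁ * (x + r) + V.a₃ =
    2 * y + (toOrigin V r).a₁ * x + (toOrigin V r).a₃
  rw [toOrigin_a₁, toOrigin_a₃ h2, halfY]
  field_simp
  ring

lemma fx_origin (x y : L) :
    fx V.toAffine (x + r) (y + halfY V r) = fx (toOrigin V r).toAffine x y := by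
  show 3 * (x + r) ^ 2 + 2 * V.a₂ * (x + r) + V.a₄ - V.a₁ * (y + halfY V r) =
    3 * x ^ 2 + 2 * (toOrigin V r).a₂ * x + (toOrigin V r).a₄ - (toOrigin V r).a₁ * y
  rw [toOrigin_a₁, toOrigin_a₂, toOrigin_a₄]
  ring

lemma e1_origin (hr : v r ≤ 1) (P : (toOrigin V r).toAffine.Point) :
    E1 v V.toAffine (originEquiv V r P) ↔ E1 v (toOrigin V r).toAffine P := by
  rcases P with _ | ⟨x, y, h⟩
  · rw [← Affine.Point.zero_def, map_zero]; exact iff_of_true trivial trivial
  obtain ⟨h', e⟩ := originEquiv_some h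
  rw [e, e1_some, e1_some]
  constructor <;> intro hx
  · by_contra hc
    exact absurd hx (not_lt.mpr (v.map_add_le (not_lt.mp hc) hr))
  · rwa [v.map_add_eq_of_lt_left (hr.trans_lt hx)]

/-- In the nodal normal form the points of `NsE0` are those of `E0`. -/
lemma nsE0_origin_iff (h2 : (2 : L) ≠ 0) (hr : v r ≤ 1)
    (hN : Node v (toOrigin V r).toAffine) (P : (toOrigin V r).toAffine.Point) :
    NsE0 v V.toAffine (originEquiv V r P) ↔ E0 v (toOrigin V r).toAffine P := by
  rcases P with _ | ⟨x, y, h⟩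
  · rw [← Affine.Point.zero_def, map_zero]
    exact iff_of_true (fun x y h e => absurd e.symm (Affine.Point.some_ne_zero h)) trivial
  obtain ⟨h', e⟩ := originEquiv_some h
  rw [e, e0_some]
  constructor
  · intro hns
    by_contra hx
    rw [not_le] at hx
    have hxr : v (x + r) ≤ 1 := v.map_add_le hx.le hr
    have hy : v y ≤ 1 := le_y_of_le_x hN.hI h.1 hx.le
    have hy' : v y < 1 := by
      refine lt_of_le_of_ne hy fun hy1 => ?_
      have he := (Affine.equation_iff x y).mp h.1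
      rw [hN.h₃, hN.h₆] at he
      have hu : v (y + (toOrigin V r).toAffine.a₁ * x) = 1 := by
        refine eq_one_of_sub_lt hy1 ?_
        rw [add_sub_cancel_left]; exact map_mul_lt_one hN.hI.h₁ hx
      have hR : v (x ^ 3 + (toOrigin V r).toAffine.a₂ * x ^ 2 + (toOrigin V r).toAffine.a₄ * x) < 1 := by
        rw [show x ^ 3 + (toOrigin V r).toAffine.a₂ * x ^ 2 + (toOrigin V r).toAffine.a₄ * x =
          (x ^ 2 + (toOrigin V r).toAffine.a₂ * x + (toOrigin V r).toAffine.a₄) * x by ring]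
        exact map_mul_lt_one (v.map_add_le (v.map_add_le (map_pow_le_one hx.le 2)
          (map_mul_le_one hN.hI.h₂ hx.le)) hN.hI.h₄) hx
      rw [show x ^ 3 + (toOrigin V r).toAffine.a₂ * x ^ 2 + (toOrigin V r).toAffine.a₄ * x =
          y * (y + (toOrigin V r).toAffine.a₁ * x) by linear_combination -he,
        map_mul, hy1, hu, one_mul] at hR
      exact lt_irrefl _ hR
    rcases hns _ _ h' rfl hxr with hh | hh
    · rw [fy_origin h2] at hh
      refine hh.not_lt ?_
      rw [fy, hN.h₃, add_zero]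
      exact v.map_add_lt (map_mul_lt_one le_two hy') (map_mul_lt_one hN.hI.h₁ hx)
    · rw [fx_origin] at hh
      refine hh.not_lt ?_
      exact v.map_sub_lt (v.map_add_lt (v.map_add_lt (map_mul_lt_one le_three
        (by rw [sq]; exact map_mul_lt_one hx.le hx))
        (map_mul_lt_one (map_mul_le_one le_two hN.hI.h₂) hx)) hN.hb)
        (map_mul_lt_one hN.hI.h₁ hy')
  · intro hx x₀ y₀ h₀ he hx₀
    simp only [Affine.Point.some.injEq] at he
    obtain ⟨rfl, rfl⟩ := he
    rcases lt_or_eq_of_le hx with hlt | heq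
    · rw [v.map_add_eq_of_lt_left (hr.trans_lt hlt)] at hx₀
      exact absurd hx₀ (not_le.mpr hlt)
    · rcases hN.nsRed h.1 heq.symm with hh | hh
      · exact Or.inl (by rw [fy_origin h2]; exact hh)
      · exact Or.inr (by rw [fx_origin]; exact hh)

end Translate

section Galois

variable {F : Type*} [Field F] [Algebra F L] [DecidableEq L] (W : WeierstrassCurve F)
  [(W⁄L).IsElliptic] {σ : L ≃ₐ[F] L} {r : L}

lemma map_halfY (σ : L ≃ₐ[F] L) (r : L) : σ (halfY (W⁄L) r) = halfY (W⁄L) (σ r) := by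
  simp only [halfY, map_div₀, map_neg, map_add, map_mul, map_ofNat]
  rw [show σ (W⁄L).a₁ = (W⁄L).a₁ from σ.commutes W.a₁,
    show σ (W⁄L).a₃ = (W⁄L).a₃ from σ.commutes W.a₃]

lemma psi2_map (σ : L ≃ₐ[F] L) (r : L) : σ (psi2 (W⁄L) r) = psi2 (W⁄L) (σ r) := by
  have h : ∀ a : F, σ (algebraMap F L a) = algebraMap F L a := σ.commutes
  simp only [psi2, map_add, map_mul, map_pow, map_ofNat]
  congr 1
  · congr 1
    · congr 2
      exact (congrArg σ (W.map_b₂ _)).trans ((h _).trans (W.map_b₂ _).symm)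
    · congr 2
      exact (congrArg σ (W.map_b₄ _)).trans ((h _).trans (W.map_b₄ _).symm)
  · exact (congrArg σ (W.map_b₆ _)).trans ((h _).trans (W.map_b₆ _).symm)

/-- A small root of the translated two-division polynomial is at most `v a₄`. -/
lemma small_root_le (hN : Node v (toOrigin (W⁄L) r).toAffine) {δ : L}
    (hδ : δ * (4 * δ ^ 2 + discB (W⁄L) r * δ + 4 * (toOrigin (W⁄L) r).a₄) = 0) (hδ1 : v δ < 1) :
    v δ ≤ v (4 : L) * v (toOrigin (W⁄L) r).a₄ := by
  rcases mul_eq_zero.mp hδ with h | h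
  · rw [h, map_zero]; exact zero_le
  have hB : v (discB (W⁄L) r) = 1 := by
    rw [← toOrigin_disc]; exact hN.hdisc
  have e : v δ = v (4 : L) * v (δ ^ 2 + (toOrigin (W⁄L) r).a₄) := by
    rw [← map_mul, ← v.map_neg (4 * _),
      show -(4 * (δ ^ 2 + (toOrigin (W⁄L) r).a₄)) = discB (W⁄L) r * δ by linear_combination -h,
      map_mul, hB, one_mul]
  rcases le_total (v (δ ^ 2)) (v (toOrigin (W⁄L) r).a₄) with hle | hle
  · rw [e]; exact mul_le_mul' le_rfl (v.map_add_le hle le_rfl)
  · have h' : v δ ≤ v δ ^ 2 := by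
      conv_lhs => rw [e]
      rw [← map_pow]
      exact (mul_le_of_le_one_left' le_four).trans (v.map_add_le le_rfl hle)
    by_cases h0 : δ = 0
    · rw [h0, map_zero]; exact zero_le
    · exact absurd h' (not_le.mpr (by
        rw [sq]; exact mul_lt_of_lt_one_left (v.pos_iff.mpr h0) hδ1))

lemma psi2_add (h2 : (2 : L) ≠ 0) (V : WeierstrassCurve L) (r x : L) :
    psi2 V (r + x) =
      psi2 V r + x * (4 * x ^ 2 + discB V r * x + 4 * (toOrigin V r).a₄) := by
  simp only [psi2, discB, toOrigin_a₄, halfY, WeierstrassCurve.b₂, WeierstrassCurve.b₄,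
    WeierstrassCurve.b₆]
  field_simp
  ring

variable (hr : psi2 (W⁄L) r = 0) (hr1 : v r ≤ 1) (hN : Node v (toOrigin (W⁄L) r).toAffine)
  (h2 : (2 : L) ≠ 0) (hI : IntCoeff v (W⁄L).toAffine) (hσ : Inert v σ)

include hr hr1 hN h2 hσ in
lemma delta_le : v (σ r - r) ≤ v (4 : L) * v (toOrigin (W⁄L) r).a₄ := by
  refine small_root_le W hN ?_ (hσ.sub_lt r hr1)
  have h := psi2_add h2 (W⁄L) r (σ r - r)
  rwa [add_sub_cancel, ← psi2_map, hr, map_zero, zero_add, eq_comm] at h

include hr hN h2 in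
/-- The translated conjugate of the origin is a point of the normal form. -/
lemma shift_equation (σ : L ≃ₐ[F] L) :
    (toOrigin (W⁄L) r).toAffine.Equation (σ r - r) (σ (halfY (W⁄L) r) - halfY (W⁄L) r) := by
  have hP : (W⁄L).toAffine.Equation (σ r) (σ (halfY (W⁄L) r)) := by
    rw [map_halfY]
    exact halfY_equation h2 (by rw [← psi2_map, hr, map_zero])
  refine (FA.Frob.equation_vc (⟨1, r, 0, halfY (W⁄L) r⟩ : VariableChange L) rfl _ _).mp ?_
  simp only [FA.Frob.vcX, FA.Frob.vcY, Units.val_one, one_pow, one_mul, zero_mul, add_zero,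
    sub_add_cancel]
  exact hP

include hr hr1 hN h2 hI hσ in
lemma epsilon_le : v (σ (halfY (W⁄L) r) - halfY (W⁄L) r) ≤ v (toOrigin (W⁄L) r).a₄ := by
  have hδ := (delta_le W hr hr1 hN h2 hσ).trans (mul_le_of_le_one_left' le_four)
  have he := (Affine.equation_iff ..).mp (shift_equation W hr hN h2 σ)
  rw [hN.h₃, hN.h₆] at he
  set δ := σ r - r
  set ε := σ (halfY (W⁄L) r) - halfY (W⁄L) r
  set A := (toOrigin (W⁄L) r).a₄
  by_contra hc
  rw [not_le] at hc
  have hA1 : v A ≤ 1 := hN.hI.h₄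
  have hlin : v ((toOrigin (W⁄L) r).toAffine.a₁ * δ) < v ε :=
    lt_of_le_of_lt ((by rw [map_mul]; exact mul_le_of_le_one_left' hN.hI.h₁ : _ ≤ v δ).trans hδ) hc
  have hR : v (δ ^ 3 + (toOrigin (W⁄L) r).toAffine.a₂ * δ ^ 2 + A * δ) ≤ v A ^ 2 := by
    refine v.map_add_le (v.map_add_le ?_ ?_) ?_
    · rw [map_pow, pow_succ]
      exact (mul_le_of_le_one_right' (hδ.trans hA1)).trans (pow_le_pow_left' hδ 2)
    · rw [map_mul, map_pow]
      exact (mul_le_of_le_one_left' hN.hI.h₂).trans (pow_le_pow_left' hδ 2)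
    · rw [map_mul, sq]; exact mul_le_mul' le_rfl hδ
  rw [show δ ^ 3 + (toOrigin (W⁄L) r).toAffine.a₂ * δ ^ 2 + A * δ =
      ε * (ε + (toOrigin (W⁄L) r).toAffine.a₁ * δ) by linear_combination -he, map_mul,
    v.map_add_eq_of_lt_left hlin, ← sq] at hR
  exact absurd hR (not_le.mpr (pow_lt_pow_left₀ hc zero_le two_ne_zero))

include hr hr1 hN h2 hI hσ in
/-- Inertia moves every point inside the component of the identity. -/
theorem nsE0_smul_sub (P : (W⁄L).toAffine.Point) :
    NsE0 v (W⁄L).toAffine (σ • P - P) := by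
  obtain ⟨P', rfl⟩ := (originEquiv (W⁄L) r).surjective P
  rcases P' with _ | ⟨x, y, h⟩
  · rw [← Affine.Point.zero_def, map_zero, gal_smul_zero, sub_zero]
    exact nsE0_of_e1 e1_zero
  obtain ⟨h', e⟩ := originEquiv_some h
  by_cases h1 : 1 ≤ v x
  · exact nsE0_of_e1 (hσ.e1_smul_sub W hI _ ((nsE0_origin_iff h2 hr1 hN _).mpr h1))
  rw [not_le] at h1
  obtain ⟨hS, hSe⟩ := smul_some (σ := σ) W h'
  set δ := σ r - r with hδdef
  set ε := σ (halfY (W⁄L) r) - halfY (W⁄L) r with hεdef
  have hδ := (delta_le W hr hr1 hN h2 hσ).trans (mul_le_of_le_one_left' le_four)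
  have hε := epsilon_le W hr hr1 hN h2 hI hσ
  obtain ⟨Q, hQ⟩ := (originEquiv (W⁄L) r).surjective (.some _ _ hS)
  rcases Q with _ | ⟨x', y', hQn⟩
  · rw [← Affine.Point.zero_def, map_zero] at hQ
    exact absurd hQ.symm (Affine.Point.some_ne_zero hS)
  obtain ⟨hQ', eQ⟩ := originEquiv_some hQn
  rw [eQ, Affine.Point.some.injEq] at hQ
  have ex : x' = σ x + δ := by rw [hδdef]; linear_combination hQ.1.trans (map_add σ x r)
  have ey : y' = σ y + ε := by
    rw [hεdef]; linear_combination hQ.2.trans (map_add σ y (halfY (W⁄L) r))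
  have hσQ : σ • originEquiv (W⁄L) r (.some x y h) = originEquiv (W⁄L) r (.some x' y' hQn) := by
    rw [e, hSe, eQ, Affine.Point.some.injEq]
    exact ⟨hQ.1.symm, hQ.2.symm⟩
  rw [hσQ, ← map_sub, nsE0_origin_iff h2 hr1 hN]
  by_cases h3 : v x ≤ v (toOrigin (W⁄L) r).a₄
  · have hx' : v x' ≤ v (toOrigin (W⁄L) r).a₄ := by
      rw [ex]; exact v.map_add_le (by rwa [hσ.map_eq]) hδ
    have := hN.e0_sub (hN.e0_add_T_of_le hQn hx') (hN.e0_add_T_of_le h h3)
    rwa [add_sub_add_right_eq_sub] at this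
  rw [not_le] at h3
  have hbr := hN.br_self h h3 h1
  refine hN.sub_e0_of_br (g := v x) (s := y / x) ?_ hbr
  have hσx : v (σ x) = v x := hσ.map_eq x
  have hvx' : v x' = v x := by
    rw [ex, v.map_add_eq_of_lt_left (by rw [hσx]; exact hδ.trans_lt h3), hσx]
  have hx0 : x ≠ 0 := v.pos_iff.mp (lt_of_le_of_lt zero_le h3)
  have hs : v (y / x) ≤ 1 := by
    have := hbr.2.2.2.2
    exact hN.root_le_one this
  rw [br_some]
  refine ⟨hvx', h3, h1, ?_, hbr.2.2.2.2⟩
  have hx'0 : x' ≠ 0 := v.pos_iff.mp (hvx' ▸ lt_of_le_of_lt zero_le h3)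
  have hσx0 : σ x ≠ 0 := by simpa using hx0
  have hdiff : y' / x' - σ (y / x) = (ε - δ * σ (y / x)) / x' := by
    rw [map_div₀, ey, ex]
    rw [ex] at hx'0
    field_simp
    ring
  have h4 : v (y' / x' - σ (y / x)) < 1 := by
    rw [hdiff]
    refine map_div_lt_one ?_
    rw [hvx']
    refine lt_of_le_of_lt (v.map_sub_le hε ?_) h3
    rw [map_mul, hσ.map_eq]
    exact (mul_le_of_le_one_right' hs).trans hδ
  have := v.map_add_lt h4 (hσ.sub_lt _ hs)
  rwa [sub_add_sub_cancel] at this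

include hr hr1 hN h2 hI in
/-- Inertia acts unipotently modulo the kernel of reduction. -/
theorem e1_smul_sub_smul_sub {τ : L ≃ₐ[F] L} (hσ : Inert v σ) (hτ : Inert v τ)
    (P : (W⁄L).toAffine.Point) :
    E1 v (W⁄L).toAffine (τ • (σ • P - P) - (σ • P - P)) :=
  hτ.e1_smul_sub W hI _ (nsE0_smul_sub W hr hr1 hN h2 hI hσ P)

include hr hr1 hN h2 hI in
/-- If a fixed element has the value of the branch, some point of the branch is fixed. -/
theorem exists_fixed_nsE0 [IsAlgClosed L] {P : (toOrigin (W⁄L) r).toAffine.Point} {g : Γ} {s : L}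
    (hP : Br v (toOrigin (W⁄L) r).toAffine P g s) {X : L}
    (hXfix : ∀ τ : L ≃ₐ[F] L, Inert v τ → τ X = X) (hX : v X = g) :
    ∃ R : (W⁄L).toAffine.Point, NsE0 v (W⁄L).toAffine (originEquiv (W⁄L) r P - R) ∧
      ∀ τ : L ≃ₐ[F] L, Inert v τ → τ • R = R := by
  set A := (toOrigin (W⁄L) r).a₄ with hAdef
  set B := discB (W⁄L) r with hBdef
  have hB : v B = 1 := by rw [hBdef, ← toOrigin_disc]; exact hN.hdisc
  have h4 : (4 : L) ≠ 0 := by
    rw [show (4 : L) = 2 * 2 by norm_num]; exact mul_ne_zero h2 h2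
  have hA0 : A ≠ 0 := hN.hb₀
  have hg : v A < g ∧ g < 1 ∧ v (qb (toOrigin (W⁄L) r).toAffine s) < 1 := by
    obtain ⟨x, y, h, rfl⟩ := hP.exists_eq
    exact ⟨hP.2.1, hP.2.2.1, hP.2.2.2.2⟩
  -- the small nonzero root of the translated two-division polynomial
  obtain ⟨z, hz, hz1⟩ : ∃ z : L, 4 * z ^ 2 + B * z + 4 * A = 0 ∧ v z ≤ v (4 : L) * v A := by
    obtain ⟨a, ha⟩ := IsAlgClosed.exists_root (Polynomial.C (4 : L) * Polynomial.X ^ 2
      + Polynomial.C B * Polynomial.X + Polynomial.C (4 * A))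
      (by rw [Polynomial.degree_quadratic h4]; exact two_ne_zero)
    simp only [Polynomial.IsRoot.def, Polynomial.eval_add, Polynomial.eval_mul, Polynomial.eval_C,
      Polynomial.eval_pow, Polynomial.eval_X] at ha
    set b := -B / 4 - a with hb
    have hsum : 4 * a + 4 * b = -B := by rw [hb]; field_simp; ring
    have hprod : 4 * a * b = 4 * A := by
      rw [show 4 * a * b = a * (4 * b) by ring, show 4 * b = -B - 4 * a by linear_combination hsum]
      linear_combination -ha
    have hbroot : 4 * b ^ 2 + B * b + 4 * A = 0 := by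
      linear_combination b * hsum - hprod
    by_cases hbig : 1 ≤ v (4 * a)
    · refine ⟨b, hbroot, ?_⟩
      rw [← map_mul, ← hprod, map_mul (f := v) (4 * a)]
      exact le_mul_of_one_le_left' hbig
    · refine ⟨a, ha, ?_⟩
      have hb4 : 1 ≤ v (4 * b) := by
        by_contra hc
        have := v.map_add_lt (not_le.mp hbig) (not_le.mp hc)
        rw [hsum, v.map_neg, hB] at this
        exact lt_irrefl _ this
      rw [← map_mul, ← hprod, show 4 * a * b = a * (4 * b) by ring, map_mul]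
      exact le_mul_of_one_le_right' hb4
  have hzA : v z ≤ v A := hz1.trans (mul_le_of_le_one_left' le_four)
  have hz0 : z ≠ 0 := fun h0 => hA0 (by
    rw [h0] at hz
    exact (mul_eq_zero.mp (by linear_combination hz : (4 : L) * A = 0)).resolve_left h4)
  have huniq : ∀ d : L, d * (4 * d ^ 2 + B * d + 4 * A) = 0 → v d < 1 → d = 0 ∨ d = z := by
    intro d hd hd1
    refine (mul_eq_zero.mp hd).imp_right fun h => ?_
    have e : (d - z) * (4 * (d + z) + B) = 0 := by linear_combination h - hz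
    refine sub_eq_zero.mp ((mul_eq_zero.mp e).resolve_right fun h0 => ?_)
    have := eq_one_of_sub_lt hB (b := 4 * (d + z) + B) (by
      rw [add_sub_cancel_right]
      exact map_mul_lt_one le_four (v.map_add_lt hd1 (hzA.trans_lt (hN.hb))))
    rw [h0, map_zero] at this
    exact zero_ne_one this
  have hsumfix : ∀ τ : L ≃ₐ[F] L, Inert v τ → τ (r + (r + z)) = r + (r + z) := by
    intro τ hτ
    have hrz : psi2 (W⁄L) (r + z) = 0 := by
      rw [psi2_add h2, hr, zero_add, ← hBdef, ← hAdef, hz, mul_zero]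
    have hz1' : v z < 1 := hzA.trans_lt hN.hb
    have roots : ∀ w : L, psi2 (W⁄L) w = 0 → v (w - r) < 1 → v w ≤ 1 →
        τ w - r = 0 ∨ τ w - r = z := by
      intro w hw hwr hw1
      refine huniq _ ?_ ?_
      · have := psi2_add h2 (W⁄L) r (τ w - r)
        rwa [add_sub_cancel, ← psi2_map, hw, map_zero, hr, zero_add, eq_comm] at this
      · rw [show τ w - r = (τ w - w) + (w - r) by ring]
        exact v.map_add_lt (hτ.sub_lt w hw1) hwr
    have hd1 := roots r hr (by simp) hr1
    have hd2 := roots (r + z) hrz (by simpa using hz1') (v.map_add_le hr1 hz1'.le)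
    have hne : τ (r + z) ≠ τ r := fun h => hz0 (by simpa using τ.injective h)
    rw [map_add]
    rcases hd1 with a | a <;> rcases hd2 with b | b
    · exact absurd (by linear_combination b - a) hne
    · linear_combination a + b
    · linear_combination a + b
    · exact absurd (by linear_combination b - a) hne
  -- the abscissa in the normal form
  set x := z / 2 + X with hx
  have hz2 : v (z / 2) < g := by
    rw [map_div₀, div_lt_iff₀ (v.pos_iff.mpr h2)]
    refine hz1.trans_lt ?_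
    rw [show (4 : L) = 2 * 2 by norm_num, map_mul, mul_comm g, mul_assoc]
    exact mul_lt_mul_of_pos_left (lt_of_le_of_lt (mul_le_of_le_one_left' le_two) hg.1)
      (v.pos_iff.mpr h2)
  have hvx : v x = g := by
    rw [hx, v.map_add_eq_of_lt_right (by rwa [hX]), hX]
  have hx0 : x ≠ 0 := v.pos_iff.mp (hvx ▸ lt_of_le_of_lt zero_le hg.1)
  have hc : v (x + A / x) < 1 :=
    v.map_add_lt (hvx ▸ hg.2.1) (map_div_lt_one (hvx ▸ hg.1))
  obtain ⟨t, ht⟩ : ∃ t : L, qb (toOrigin (W⁄L) r).toAffine t = x + A / x := by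
    obtain ⟨t, ht⟩ := IsAlgClosed.exists_root (Polynomial.C 1 * Polynomial.X ^ 2
      + Polynomial.C (toOrigin (W⁄L) r).a₁ * Polynomial.X
      + Polynomial.C (-(toOrigin (W⁄L) r).a₂ - (x + A / x))) (by
        rw [Polynomial.degree_quadratic one_ne_zero]; exact two_ne_zero)
    refine ⟨t, ?_⟩
    simp only [Polynomial.IsRoot.def, Polynomial.eval_add, Polynomial.eval_mul, Polynomial.eval_C,
      Polynomial.eval_pow, Polynomial.eval_X, one_mul] at ht
    simp only [qb]
    linear_combination ht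
  obtain ⟨t₀, ht₀, hts⟩ : ∃ t₀ : L,
      qb (toOrigin (W⁄L) r).toAffine t₀ = x + A / x ∧ v (t₀ - s) < 1 := by
    rcases Node.root_cases hg.2.2 (ht ▸ hc) with h | h
    · exact ⟨t, ht, h⟩
    · refine ⟨-(toOrigin (W⁄L) r).toAffine.a₁ - t, by rw [Node.qb_other, ht], ?_⟩
      rw [show -(toOrigin (W⁄L) r).toAffine.a₁ - t - s =
        -(t - (-(toOrigin (W⁄L) r).toAffine.a₁ - s)) by ring, v.map_neg]
      exact h
  have heq : (toOrigin (W⁄L) r).toAffine.Equation x (t₀ * x) := by
    rw [Affine.equation_iff, hN.h₃, hN.h₆]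
    have h' := ht₀
    rw [qb, hAdef] at h'
    field_simp at h'
    linear_combination x * h'
  have hns := Affine.equation_iff_nonsingular.mp heq
  have hbrR : Br v (toOrigin (W⁄L) r).toAffine (.some x (t₀ * x) hns) g s := by
    rw [br_some, mul_div_cancel_right₀ _ hx0]
    exact ⟨hvx, hg.1, hg.2.1, hts, hg.2.2⟩
  refine ⟨originEquiv (W⁄L) r (.some x (t₀ * x) hns), ?_, fun τ hτ => ?_⟩
  · rw [← map_sub, nsE0_origin_iff h2 hr1 hN]
    exact hN.sub_e0_of_br hP hbrR
  obtain ⟨hR, eR⟩ := originEquiv_some hns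
  obtain ⟨h', he⟩ := smul_some (σ := τ) W hR
  rw [eR, he, Affine.Point.some.injEq]
  have hxfix : τ (x + r) = x + r := by
    have h2x : 2 * (x + r) = (r + (r + z)) + 2 * X := by rw [hx]; field_simp; ring
    apply mul_left_cancel₀ h2
    rw [show (2 : L) * τ (x + r) = τ (2 * (x + r)) by rw [map_mul, map_ofNat], h2x, map_add,
      hsumfix τ hτ, map_mul, map_ofNat, hXfix τ hτ]
  refine ⟨hxfix, ?_⟩
  have ht1 : v t₀ ≤ 1 := hN.root_le_one (ht₀ ▸ hc)
  have hδ : τ r - r = x - τ x := by linear_combination (map_add τ x r).symm.trans hxfix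
  have hδ' := (delta_le W hr hr1 hN h2 hτ).trans (mul_le_of_le_one_left' le_four)
  have hε := epsilon_le W hr hr1 hN h2 hI hτ
  set Y := t₀ * x + halfY (W⁄L) r with hY
  have hsmall : v (τ Y - Y) < g := by
    rw [show τ Y - Y = (τ t₀ - t₀) * τ x + t₀ * (τ x - x) +
      (τ (halfY (W⁄L) r) - halfY (W⁄L) r) by rw [hY, map_add, map_mul]; ring]
    refine v.map_add_lt (v.map_add_lt ?_ ?_) (hε.trans_lt hg.1)
    · rw [map_mul, hτ.map_eq, hvx]
      exact mul_lt_of_lt_one_left (hvx ▸ v.pos_iff.mpr hx0) (hτ.sub_lt _ ht1)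
    · rw [map_mul, v.map_sub_swap, ← hδ]
      exact lt_of_le_of_lt ((mul_le_of_le_one_left' ht1).trans hδ') hg.1
  have hbig : v (2 * (t₀ * x) + (toOrigin (W⁄L) r).a₁ * x) = g := by
    rw [show 2 * (t₀ * x) + (toOrigin (W⁄L) r).a₁ * x =
      (2 * t₀ + (toOrigin (W⁄L) r).toAffine.a₁) * x by ring, map_mul,
      hN.unit_root (ht₀ ▸ hc), one_mul, hvx]
  have hfy : 2 * Y + (W⁄L).a₁ * (x + r) + (W⁄L).a₃ =
      2 * (t₀ * x) + (toOrigin (W⁄L) r).a₁ * x := by
    rw [hY, toOrigin_a₁, halfY]; field_simp; ring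
  have e1 := (Affine.equation_iff ..).mp hR.1
  have e2 := (Affine.equation_iff ..).mp h'.1
  rw [hxfix] at e2
  have hmul : (τ Y - Y) * ((τ Y - Y) + (2 * (t₀ * x) + (toOrigin (W⁄L) r).a₁ * x)) = 0 := by
    rw [← hfy]; linear_combination e2 - e1
  refine sub_eq_zero.mp ((mul_eq_zero.mp hmul).resolve_right fun h0 => ?_)
  have hsum := v.map_add_eq_of_lt_right (hsmall.trans_eq hbig.symm)
  rw [h0, map_zero, hbig] at hsum
  exact (lt_of_le_of_lt zero_le hg.1).ne hsum

include hr hr1 hN h2 hI in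
/-- If the value of the discriminant is the `p`-th power of the value of an element fixed by
inertia, every `p`-torsion point differs from a fixed point by a point of `NsE0`. -/
theorem exists_fixed_of_torsion [IsAlgClosed L] {p : ℕ} (hp : p.Prime) (hodd : Odd p)
    {D : L} (hDfix : ∀ τ : L ≃ₐ[F] L, Inert v τ → τ D = D)
    (hD : v D ^ p = v (W⁄L).Δ) {P : (W⁄L).toAffine.Point} (hP : p • P = 0) :
    ∃ R : (W⁄L).toAffine.Point, NsE0 v (W⁄L).toAffine (P - R) ∧
      ∀ τ : L ≃ₐ[F] L, Inert v τ → τ • R = R := by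
  obtain ⟨P', rfl⟩ := (originEquiv (W⁄L) r).surjective P
  have hP' : p • P' = 0 := (originEquiv (W⁄L) r).injective (by rw [map_nsmul, hP, map_zero])
  rcases hN.e0_or_br hodd hP' with hE | ⟨g, s, hbr⟩
  · exact ⟨0, by rw [sub_zero]; exact (nsE0_origin_iff h2 hr1 hN _).mpr hE,
      fun τ _ => gal_smul_zero W τ⟩
  obtain ⟨i, hi⟩ := hN.pow_eq_of_torsion_even hp hbr hP'
  refine exists_fixed_nsE0 W hr hr1 hN h2 hI hbr (X := D ^ i)
    (fun τ hτ => by rw [map_pow, hDfix τ hτ]) ?_
  refine (pow_left_inj₀ zero_le zero_le hp.ne_zero).mp ?_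
  have hBA : v (discB (W⁄L) r ^ 2 - 64 * (toOrigin (W⁄L) r).a₄) = 1 := by
    have hB : v (discB (W⁄L) r ^ 2) = 1 := by
      rw [map_pow, ← toOrigin_disc,
        show v ((toOrigin (W⁄L) r).a₁ ^ 2 + 4 * (toOrigin (W⁄L) r).a₂) = 1 from hN.hdisc, one_pow]
    refine eq_one_of_sub_lt hB ?_
    rw [sub_sub_cancel_left, v.map_neg]
    exact map_mul_lt_one (natCast_le_one 64) hN.hb
  rw [hi, map_pow, ← pow_mul, mul_comm, pow_mul, hD, toOrigin_Δ_eq h2 hr, map_mul, map_pow, hBA,
    mul_one, ← pow_mul]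

end Galois

end FA.Local
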