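import Mathlib.AlgebraicGeometry.EllipticCurve.Affine.Point
import Mathlib.RingTheory.Valuation.Basic
import Mathlib.Tactic.LinearCombination
import Mathlib.Tactic.FieldSimp

/-!
# Points of a Weierstrass curve over a valued field

For a Weierstrass equation with integral coefficients over a valued field we prove that the
points with non-integral coordinates (together with `0`) form a subgroup, and that two integral
points with congruent coordinates, reducing to a nonsingular point, differ by an element of it.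
-/

namespace FA.Local

open WeierstrassCurve

variable {L Γ : Type*} [Field L] [LinearOrderedCommGroupWithZero Γ] (v : Valuation L Γ)
  (W : Affine L)

/-- The coefficients of `W` are integral for `v`. -/
structure IntCoeff : Prop where
  h₁ : v W.a₁ ≤ 1
  h₂ : v W.a₂ ≤ 1
  h₃ : v W.a₃ ≤ 1
  h₄ : v W.a₄ ≤ 1
  h₆ : v W.a₆ ≤ 1

/-- The value of the `Y`-derivative of the Weierstrass polynomial. -/
def fy (x y : L) : L := 2 * y + W.a₁ * x + W.a₃

/-- Minus the value of the `X`-derivative of the Weierstrass polynomial. -/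
def fx (x y : L) : L := 3 * x ^ 2 + 2 * W.a₂ * x + W.a₄ - W.a₁ * y

/-- An integral point reducing to a nonsingular point. -/
def NsRed (x y : L) : Prop := v (fy W x y) = 1 ∨ v (fx W x y) = 1

/-- The kernel of reduction: zero, and the points with non-integral abscissa. -/
def E1 : W.Point → Prop
  | .zero => True
  | .some x _ _ => 1 < v x

variable {v W}

@[simp] lemma e1_zero : E1 v W 0 := trivial

@[simp] lemma e1_some {x y : L} (h : W.Nonsingular x y) : E1 v W (.some x y h) ↔ 1 < v x :=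
  Iff.rfl

lemma e1_neg {P : W.Point} : E1 v W (-P) ↔ E1 v W P := by
  rcases P with _ | ⟨x, y, h⟩ <;> rfl

lemma natCast_le_one (n : ℕ) : v (n : L) ≤ 1 := by
  induction n with
  | zero => simp
  | succ n ih => rw [Nat.cast_succ]; exact v.map_add_le ih v.map_one.le

lemma intCast_le_one (n : ℤ) : v (n : L) ≤ 1 := by
  rcases n with n | n
  · simpa using natCast_le_one (v := v) n
  · rw [Int.cast_negSucc, v.map_neg]
    exact natCast_le_one (n + 1)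

lemma le_two : v (2 : L) ≤ 1 := natCast_le_one 2

lemma le_three : v (3 : L) ≤ 1 := natCast_le_one 3

lemma map_mul_le_one {a b : L} (ha : v a ≤ 1) (hb : v b ≤ 1) : v (a * b) ≤ 1 := by
  rw [map_mul]; exact mul_le_one' ha hb

lemma map_pow_le_one {a : L} (ha : v a ≤ 1) (n : ℕ) : v (a ^ n) ≤ 1 := by
  rw [map_pow]; exact pow_le_one₀ zero_le ha

lemma map_mul_lt_one {a b : L} (ha : v a ≤ 1) (hb : v b < 1) : v (a * b) < 1 := by
  rw [map_mul]; exact lt_of_le_of_lt (mul_le_of_le_one_left' ha) hb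

lemma map_mul_lt_one' {a b : L} (ha : v a < 1) (hb : v b ≤ 1) : v (a * b) < 1 :=
  mul_comm b a ▸ map_mul_lt_one hb ha

lemma map_div_lt_one {a b : L} (ha : v a < v b) : v (a / b) < 1 := by
  have hb : 0 < v b := lt_of_le_of_lt zero_le ha
  rw [map_div₀, div_lt_one₀ hb]; exact ha

lemma eq_one_of_sub_lt {a b : L} (ha : v a = 1) (h : v (b - a) < 1) : v b = 1 := by
  rw [v.map_eq_of_sub_lt (ha.symm ▸ h), ha]

lemma lt_one_of_sub_lt {a b : L} (ha : v a < 1) (h : v (b - a) < 1) : v b < 1 := by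
  simpa using v.map_add_lt h ha

lemma eq_one_of_not_lt {a : L} (h : v a ≤ 1) (h' : ¬ v a < 1) : v a = 1 :=
  le_antisymm h (not_lt.mp h')

lemma le_y_of_le_x (hI : IntCoeff v W) {x y : L} (h : W.Equation x y) (hx : v x ≤ 1) :
    v y ≤ 1 := by
  by_contra hy
  rw [not_le] at hy
  have hsmall : v (W.a₁ * x + W.a₃) ≤ 1 := v.map_add_le (map_mul_le_one hI.h₁ hx) hI.h₃
  have h1 : v (y + (W.a₁ * x + W.a₃)) = v y :=
    v.map_add_eq_of_lt_left (hsmall.trans_lt hy)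
  have hR : v (x ^ 3 + W.a₂ * x ^ 2 + W.a₄ * x + W.a₆) ≤ 1 :=
    v.map_add_le (v.map_add_le (v.map_add_le (map_pow_le_one hx 3)
      (map_mul_le_one hI.h₂ (map_pow_le_one hx 2))) (map_mul_le_one hI.h₄ hx)) hI.h₆
  rw [Affine.equation_iff] at h
  have : v (y * (y + (W.a₁ * x + W.a₃))) ≤ 1 := by
    rw [show y * (y + (W.a₁ * x + W.a₃)) = y ^ 2 + W.a₁ * x * y + W.a₃ * y by ring, h]
    exact hR
  rw [map_mul, h1] at this
  exact absurd this (not_le.mpr (one_lt_mul'' hy hy))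

lemma large_of_one_lt (hI : IntCoeff v W) {x y : L} (h : W.Equation x y) (hx : 1 < v x) :
    v x < v y ∧ v y ^ 2 = v x ^ 3 := by
  have hx0 : 0 < v x := zero_lt_one.trans hx
  have hrest : v (W.a₂ * x ^ 2 + W.a₄ * x + W.a₆) ≤ v x ^ 2 := by
    refine v.map_add_le (v.map_add_le ?_ ?_) (hI.h₆.trans (one_le_pow_of_one_le' hx.le 2))
    · rw [map_mul, map_pow]; exact mul_le_of_le_one_left' hI.h₂
    · rw [map_mul]
      exact (mul_le_of_le_one_left' hI.h₄).trans (le_self_pow hx.le two_ne_zero)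
  have hR : v (x ^ 3 + W.a₂ * x ^ 2 + W.a₄ * x + W.a₆) = v x ^ 3 := by
    rw [add_assoc, add_assoc, ← add_assoc (W.a₂ * x ^ 2), v.map_add_eq_of_lt_left, map_pow]
    rw [map_pow]
    exact hrest.trans_lt (pow_lt_pow_right₀ hx (by norm_num))
  rw [Affine.equation_iff] at h
  rw [← h, show y ^ 2 + W.a₁ * x * y + W.a₃ * y = y * (y + (W.a₁ * x + W.a₃)) by ring,
    map_mul] at hR
  have hlin : v (W.a₁ * x + W.a₃) ≤ v x := by
    refine v.map_add_le ?_ (hI.h₃.trans hx.le)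
    rw [map_mul]; exact mul_le_of_le_one_left' hI.h₁
  have hyx : v x < v y := by
    by_contra hc
    rw [not_lt] at hc
    have : v x ^ 3 ≤ v x ^ 2 := by
      rw [← hR, sq]; exact mul_le_mul' hc (v.map_add_le hc hlin)
    exact absurd this (not_le.mpr (pow_lt_pow_right₀ hx (by norm_num)))
  refine ⟨hyx, ?_⟩
  rw [← hR, v.map_add_eq_of_lt_left (hlin.trans_lt hyx), sq]

/-- The key identity between two points of the curve. -/
lemma chord_identity {x₁ y₁ x₂ y₂ : L} (h₁ : W.Equation x₁ y₁) (h₂ : W.Equation x₂ y₂) :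
    (y₁ - y₂) * (y₁ + y₂ + W.a₁ * x₁ + W.a₃) = (x₁ - x₂) *
      (x₁ ^ 2 + x₁ * x₂ + x₂ ^ 2 + W.a₂ * (x₁ + x₂) + W.a₄ - W.a₁ * y₂) := by
  rw [Affine.equation_iff] at h₁ h₂
  linear_combination h₁ - h₂

lemma fy_le (hI : IntCoeff v W) {x y : L} (hx : v x ≤ 1) (hy : v y ≤ 1) :
    v (fy W x y) ≤ 1 :=
  v.map_add_le (v.map_add_le (map_mul_le_one le_two hy) (map_mul_le_one hI.h₁ hx)) hI.h₃

lemma fx_le (hI : IntCoeff v W) {x y : L} (hx : v x ≤ 1) (hy : v y ≤ 1) :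
    v (fx W x y) ≤ 1 :=
  v.map_sub_le (v.map_add_le (v.map_add_le (map_mul_le_one le_three (map_pow_le_one hx 2))
    (map_mul_le_one (map_mul_le_one le_two hI.h₂) hx)) hI.h₄) (map_mul_le_one hI.h₁ hy)

lemma num_sub_fx (hI : IntCoeff v W) {x₁ y₁ x₂ y₂ : L} (hx₁ : v x₁ ≤ 1) (hx₂ : v x₂ ≤ 1)
    (hx : v (x₁ - x₂) < 1) (hy : v (y₂ - y₁) < 1) :
    v (x₁ ^ 2 + x₁ * x₂ + x₂ ^ 2 + W.a₂ * (x₁ + x₂) + W.a₄ - W.a₁ * y₂ - fx W x₁ y₁) < 1 := by
  rw [show x₁ ^ 2 + x₁ * x₂ + x₂ ^ 2 + W.a₂ * (x₁ + x₂) + W.a₄ - W.a₁ * y₂ - fx W x₁ y₁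
      = (x₂ - x₁) * (2 * x₁ + x₂ + W.a₂) - W.a₁ * (y₂ - y₁) by simp only [fx]; ring]
  refine v.map_sub_lt (map_mul_lt_one' ?_ ?_) (map_mul_lt_one hI.h₁ hy)
  · rwa [v.map_sub_swap]
  · exact v.map_add_le (v.map_add_le (map_mul_le_one le_two hx₁) hx₂) hI.h₂

section Group

variable [DecidableEq L]

lemma slope_le_one (hI : IntCoeff v W) {x₁ y₁ x₂ y₂ : L} (h₁ : W.Equation x₁ y₁)
    (h₂ : W.Equation x₂ y₂) (hx₁ : v x₁ ≤ 1) (hx₂ : v x₂ ≤ 1)
    (hne : ¬ (v (x₁ - x₂) < 1 ∧ v (y₁ - W.negY x₂ y₂) < 1)) :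
    v (W.slope x₁ x₂ y₁ y₂) ≤ 1 := by
  have hy₁ := le_y_of_le_x hI h₁ hx₁
  have hy₂ := le_y_of_le_x hI h₂ hx₂
  by_cases hd : v (x₁ - x₂) < 1
  · have hn : v (y₁ - W.negY x₂ y₂) = 1 := by
      refine eq_one_of_not_lt (v.map_sub_le hy₁ ?_) (fun h => hne ⟨hd, h⟩)
      exact le_y_of_le_x hI ((Affine.equation_neg ..).mpr h₂) hx₂
    by_cases hx : x₁ = x₂
    · subst hx
      have hy' : y₁ ≠ W.negY x₁ y₂ := fun h => by rw [h] at hn; simp at hn
      have hyy := Affine.Y_eq_of_Y_ne h₁ h₂ rfl hy'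
      subst hyy
      rw [Affine.slope_of_Y_ne rfl hy', map_div₀, hn, div_one]
      exact fx_le hI hx₁ hy₁
    · have hD : v (y₁ + y₂ + W.a₁ * x₁ + W.a₃) = 1 := by
        refine eq_one_of_sub_lt hn ?_
        rw [show y₁ + y₂ + W.a₁ * x₁ + W.a₃ - (y₁ - W.negY x₂ y₂) = W.a₁ * (x₁ - x₂) by
          simp only [Affine.negY]; ring]
        exact map_mul_lt_one hI.h₁ hd
      have hD0 : y₁ + y₂ + W.a₁ * x₁ + W.a₃ ≠ 0 := fun h => by rw [h] at hD; simp at hD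
      have hl : W.slope x₁ x₂ y₁ y₂ = (x₁ ^ 2 + x₁ * x₂ + x₂ ^ 2 + W.a₂ * (x₁ + x₂) + W.a₄
          - W.a₁ * y₂) / (y₁ + y₂ + W.a₁ * x₁ + W.a₃) := by
        rw [Affine.slope_of_X_ne hx, div_eq_div_iff (sub_ne_zero.mpr hx) hD0]
        linear_combination chord_identity h₁ h₂
      rw [hl, map_div₀, hD, div_one]
      exact v.map_sub_le (v.map_add_le (v.map_add_le (v.map_add_le (v.map_add_le
        (map_pow_le_one hx₁ 2) (map_mul_le_one hx₁ hx₂)) (map_pow_le_one hx₂ 2))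
        (map_mul_le_one hI.h₂ (v.map_add_le hx₁ hx₂))) hI.h₄) (map_mul_le_one hI.h₁ hy₂)
  · have hd' : v (x₁ - x₂) = 1 := eq_one_of_not_lt (v.map_sub_le hx₁ hx₂) hd
    have hx : x₁ ≠ x₂ := fun h => by rw [h] at hd'; simp at hd'
    rw [Affine.slope_of_X_ne hx, map_div₀, hd', div_one]
    exact v.map_sub_le hy₁ hy₂

/-- Two integral points congruent modulo the maximal ideal, reducing to a nonsingular point,
differ by an element of the kernel of reduction. -/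
lemma e1_sub_of_congr (hI : IntCoeff v W) {x₁ y₁ x₂ y₂ : L} (h₁ : W.Nonsingular x₁ y₁)
    (h₂ : W.Nonsingular x₂ y₂) (hx₁ : v x₁ ≤ 1) (hns : NsRed v W x₁ y₁)
    (hx : v (x₁ - x₂) < 1) (hy : v (y₁ - y₂) < 1) :
    E1 v W (.some x₁ y₁ h₁ - .some x₂ y₂ h₂) := by
  have hx₂ : v x₂ ≤ 1 := by
    simpa using v.map_sub_le hx₁ hx.le
  have hy₁ := le_y_of_le_x hI h₁.1 hx₁
  rw [sub_eq_add_neg, Affine.Point.neg_some]
  by_cases hxy : x₁ = x₂ ∧ y₁ = W.negY x₂ (W.negY x₂ y₂)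
  · rw [Affine.Point.add_of_Y_eq hxy.1 hxy.2]; exact e1_zero
  rw [Affine.Point.add_some hxy, e1_some]
  set l := W.slope x₁ x₂ y₁ (W.negY x₂ y₂) with hl
  have hD : v (y₁ + W.negY x₂ y₂ + W.a₁ * x₁ + W.a₃) < 1 := by
    rw [show y₁ + W.negY x₂ y₂ + W.a₁ * x₁ + W.a₃ = (y₁ - y₂) + W.a₁ * (x₁ - x₂) by
      simp only [Affine.negY]; ring]
    exact v.map_add_lt hy (map_mul_lt_one hI.h₁ hx)
  -- if the vertical derivative is small, the numerator is a unit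
  have hN : v (fy W x₁ y₁) < 1 → v (x₁ ^ 2 + x₁ * x₂ + x₂ ^ 2 + W.a₂ * (x₁ + x₂) + W.a₄
      - W.a₁ * W.negY x₂ y₂) = 1 := by
    intro hfy
    refine eq_one_of_sub_lt (hns.resolve_left hfy.ne) (num_sub_fx hI hx₁ hx₂ hx ?_)
    rw [show W.negY x₂ y₂ - y₁ = (y₁ + W.negY x₂ y₂ + W.a₁ * x₁ + W.a₃) - fy W x₁ y₁ by
      simp only [fy]; ring]
    exact v.map_sub_lt hD hfy
  have hlam : 1 < v l := by
    by_cases hxx : x₁ = x₂
    · subst hxx
      have hy' : y₁ ≠ W.negY x₁ (W.negY x₁ y₂) := fun h => hxy ⟨rfl, h⟩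
      have hyy := Affine.Y_eq_of_Y_ne h₁.1 ((Affine.equation_neg ..).mpr h₂.1) rfl hy'
      have hneg : W.negY x₁ y₁ = y₂ := by rw [hyy, Affine.negY_negY]
      have hden : v (y₁ - W.negY x₁ y₁) < 1 := by rw [hneg]; exact hy
      have hden0 : y₁ - W.negY x₁ y₁ ≠ 0 := by
        rw [hneg, sub_ne_zero]; intro h; exact hy' (by rw [Affine.negY_negY]; exact h)
      have hfy : v (fy W x₁ y₁) < 1 := by
        rwa [show fy W x₁ y₁ = y₁ - W.negY x₁ y₁ by simp only [fy, Affine.negY]; ring]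
      rw [hl, Affine.slope_of_Y_ne rfl hy', map_div₀, one_lt_div₀ (v.pos_iff.mpr hden0)]
      exact (hns.resolve_left hfy.ne).symm ▸ hden
    · rw [hl, Affine.slope_of_X_ne hxx]
      rcases lt_or_eq_of_le (fy_le hI hx₁ hy₁) with hfy | hfy
      · have hD0 : y₁ + W.negY x₂ y₂ + W.a₁ * x₁ + W.a₃ ≠ 0 := by
          intro h
          have := chord_identity h₁.1 ((Affine.equation_neg (W' := W) x₂ y₂).mpr h₂.1)
          rw [h, mul_zero, eq_comm, mul_eq_zero, sub_eq_zero] at this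
          have h' := hN hfy
          rw [this.resolve_left hxx] at h'
          simp at h'
        rw [(div_eq_div_iff (sub_ne_zero.mpr hxx) hD0).mpr ((chord_identity h₁.1
            ((Affine.equation_neg (W' := W) x₂ y₂).mpr h₂.1)).trans (mul_comm _ _)),
          map_div₀, one_lt_div₀ (v.pos_iff.mpr hD0), hN hfy]
        exact hD
      · have hnum : v (y₁ - W.negY x₂ y₂) = 1 := by
          refine eq_one_of_sub_lt hfy ?_
          rw [show y₁ - W.negY x₂ y₂ - fy W x₁ y₁ = -((y₁ - y₂) + W.a₁ * (x₁ - x₂)) by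
            simp only [fy, Affine.negY]; ring, v.map_neg]
          exact v.map_add_lt hy (map_mul_lt_one hI.h₁ hx)
        rw [map_div₀, hnum, one_lt_div₀ (v.pos_iff.mpr (sub_ne_zero.mpr hxx))]
        exact hx
  have hrest : v (W.a₁ * l - W.a₂ - x₁ - x₂) < v l ^ 2 := by
    have h1 : (1 : Γ) ≤ v l := hlam.le
    have h2 : v l < v l ^ 2 := by rw [sq]; exact lt_mul_of_one_lt_left (zero_lt_one.trans hlam) hlam
    refine lt_of_le_of_lt ?_ h2
    refine v.map_sub_le (v.map_sub_le (v.map_sub_le ?_ (hI.h₂.trans h1)) (hx₁.trans h1))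
      (hx₂.trans h1)
    rw [map_mul]; exact mul_le_of_le_one_left' hI.h₁
  rw [Affine.addX, show l ^ 2 + W.a₁ * l - W.a₂ - x₁ - x₂ = l ^ 2 + (W.a₁ * l - W.a₂ - x₁ - x₂)
    by ring, v.map_add_eq_of_lt_left (by rwa [map_pow]), map_pow]
  exact one_lt_pow₀ hlam two_ne_zero

/-- Adding a point of the kernel of reduction does not change the reduction. -/
lemma add_e1 (hI : IntCoeff v W) {x₁ y₁ x₂ y₂ : L} (h₁ : W.Nonsingular x₁ y₁)
    (h₂ : W.Nonsingular x₂ y₂) (hx₁ : v x₁ ≤ 1) (hx₂ : 1 < v x₂) :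
    ∃ (x₃ y₃ : L) (h₃ : W.Nonsingular x₃ y₃),
      Affine.Point.some x₁ y₁ h₁ + Affine.Point.some x₂ y₂ h₂ = .some x₃ y₃ h₃ ∧
      v (x₃ - x₁) < 1 ∧ v (y₃ - y₁) < 1 := by
  have hy₁ := le_y_of_le_x hI h₁.1 hx₁
  obtain ⟨hyx, hsq⟩ := large_of_one_lt hI h₂.1 hx₂
  have hne : x₁ ≠ x₂ := fun h => absurd (h ▸ hx₁) (not_le.mpr hx₂)
  refine ⟨_, _, Affine.nonsingular_add h₁ h₂ fun h => hne h.1, Affine.Point.add_of_X_ne hne, ?_⟩
  have hd : v (x₁ - x₂) = v x₂ := v.map_sub_eq_of_lt_right (hx₁.trans_lt hx₂)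
  have hd0 : x₁ - x₂ ≠ 0 := sub_ne_zero.mpr hne
  have hX1 : (1 : Γ) ≤ v x₂ := hx₂.le
  have hY1 : (1 : Γ) ≤ v y₂ := hX1.trans hyx.le
  set c := fx W x₁ y₁ with hc
  set d := y₁ ^ 2 + W.a₁ * x₁ * y₁ + W.a₆ - W.a₂ * x₁ ^ 2 - 2 * x₁ ^ 3 with hdd
  set U := -(fy W x₁ y₁) * y₂ + c * x₂ + d with hU
  have key : (W.addX x₁ x₂ (W.slope x₁ x₂ y₁ y₂) - x₁) * (x₁ - x₂) ^ 2 = U := by
    have h2 := (Affine.equation_iff ..).mp h₂.1
    rw [Affine.slope_of_X_ne hne, Affine.addX]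
    field_simp
    simp only [hU, hc, hdd, fx, fy]
    linear_combination h2
  have hd1 : v d ≤ 1 :=
    v.map_sub_le (v.map_sub_le (v.map_add_le (v.map_add_le (map_pow_le_one hy₁ 2)
      (map_mul_le_one (map_mul_le_one hI.h₁ hx₁) hy₁)) hI.h₆)
      (map_mul_le_one hI.h₂ (map_pow_le_one hx₁ 2)))
      (map_mul_le_one le_two (map_pow_le_one hx₁ 3))
  have hUy : v U ≤ v y₂ := by
    refine v.map_add_le (v.map_add_le ?_ ?_) (hd1.trans hY1)
    · rw [neg_mul, v.map_neg, map_mul]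
      exact mul_le_of_le_one_left' (fy_le hI hx₁ hy₁)
    · rw [map_mul]
      exact (mul_le_of_le_one_left' (fx_le hI hx₁ hy₁)).trans hyx.le
  have hylt : v y₂ < v x₂ ^ 2 := by
    by_contra h
    rw [not_lt] at h
    have h4 : (v x₂ ^ 2) ^ 2 ≤ v y₂ ^ 2 := pow_le_pow_left' h 2
    rw [hsq, ← pow_mul] at h4
    exact absurd h4 (not_le.mpr (pow_lt_pow_right₀ hx₂ (by norm_num)))
  have hxlt : v (W.addX x₁ x₂ (W.slope x₁ x₂ y₁ y₂) - x₁) < 1 := by
    rw [eq_div_of_mul_eq (pow_ne_zero 2 hd0) key]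
    refine map_div_lt_one ?_
    rw [map_pow, hd]
    exact hUy.trans_lt hylt
  refine ⟨hxlt, ?_⟩
  have key2 : (W.addY x₁ x₂ y₁ (W.slope x₁ x₂ y₁ y₂) - y₁) * (x₁ - x₂) ^ 3 =
      -((y₁ - y₂) * U + fy W x₁ y₁ * (x₁ - x₂) ^ 3)
        - W.a₁ * (W.addX x₁ x₂ (W.slope x₁ x₂ y₁ y₂) - x₁) * (x₁ - x₂) ^ 3 := by
    rw [← key, Affine.addY, Affine.negY, Affine.negAddY]
    generalize W.addX x₁ x₂ (W.slope x₁ x₂ y₁ y₂) = X₃
    rw [Affine.slope_of_X_ne hne]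
    field_simp
    simp only [fy]
    ring
  have hmain : v ((y₁ - y₂) * U + fy W x₁ y₁ * (x₁ - x₂) ^ 3) ≤ v x₂ * v y₂ := by
    have e : (y₁ - y₂) * U + fy W x₁ y₁ * (x₁ - x₂) ^ 3 =
        fy W x₁ y₁ * (W.a₂ * x₂ ^ 2 + W.a₄ * x₂ + W.a₆ - W.a₁ * x₂ * y₂ - W.a₃ * y₂)
        + (y₁ * U - (c * x₂ + d) * y₂
        + fy W x₁ y₁ * (x₁ ^ 3 - 3 * x₁ ^ 2 * x₂ + 3 * x₁ * x₂ ^ 2)) := by
      have h2 := (Affine.equation_iff ..).mp h₂.1
      simp only [hU]
      linear_combination fy W x₁ y₁ * h2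
    have hXY : v y₂ ≤ v x₂ * v y₂ := le_mul_of_one_le_left' hX1
    have hX : v x₂ ≤ v x₂ * v y₂ := le_mul_of_one_le_right' hY1
    have hXX : v x₂ ^ 2 ≤ v x₂ * v y₂ := by rw [sq]; exact mul_le_mul' le_rfl hyx.le
    have h1' : (1 : Γ) ≤ v x₂ * v y₂ := hY1.trans hXY
    have s1 : ∀ {a b : L} {g : Γ}, v a ≤ 1 → v b ≤ g → v (a * b) ≤ g := by
      intro a b g ha hb; rw [map_mul]; exact (mul_le_of_le_one_left' ha).trans hb
    have hfy1 := fy_le hI hx₁ hy₁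
    rw [e]
    refine v.map_add_le (s1 hfy1 ?_) (v.map_add_le (v.map_sub_le (s1 hy₁ (hUy.trans hXY)) ?_)
      (s1 hfy1 ?_))
    · refine v.map_sub_le (v.map_sub_le (v.map_add_le (v.map_add_le (s1 hI.h₂ ?_)
        (s1 hI.h₄ hX)) (hI.h₆.trans h1')) ?_) (s1 hI.h₃ hXY)
      · rw [map_pow]; exact hXX
      · rw [mul_assoc]; exact s1 hI.h₁ (map_mul v x₂ y₂).le
    · rw [map_mul]
      exact mul_le_mul' (v.map_add_le (s1 (fx_le hI hx₁ hy₁) le_rfl) (hd1.trans hX1)) le_rfl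
    · refine v.map_add_le (v.map_sub_le ((map_pow_le_one hx₁ 3).trans h1')
        (s1 (map_mul_le_one le_three (map_pow_le_one hx₁ 2)) hX)) ?_
      exact s1 (map_mul_le_one le_three hx₁) (by rw [map_pow]; exact hXX)
  rw [eq_div_of_mul_eq (pow_ne_zero 3 hd0) key2, sub_div, mul_div_assoc,
    div_self (pow_ne_zero 3 hd0), mul_one]
  refine v.map_sub_lt (map_div_lt_one ?_) (map_mul_lt_one hI.h₁ hxlt)
  rw [v.map_neg, map_pow, hd, ← hsq, sq (v y₂)]
  exact hmain.trans_lt (mul_lt_mul_of_pos_right hyx (zero_lt_one.trans_le hY1))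

lemma e1_add (hI : IntCoeff v W) {P Q : W.Point} (hP : E1 v W P) (hQ : E1 v W Q) :
    E1 v W (P + Q) := by
  rcases hR : P + Q with _ | ⟨x₃, y₃, h₃⟩
  · trivial
  rcases Q with _ | ⟨x₂, y₂, h₂⟩
  · rw [← Affine.Point.zero_def, add_zero] at hR; rwa [← hR]
  rw [e1_some]
  by_contra hx₃
  rw [e1_some] at hQ
  obtain ⟨x, y, h, he, hxx, -⟩ := add_e1 hI h₃ ((Affine.nonsingular_neg ..).mpr h₂)
    (not_lt.mp hx₃) hQ
  rw [← Affine.Point.neg_some h₂, ← hR, add_neg_cancel_right] at he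
  subst he
  rw [e1_some] at hP
  exact absurd (by simpa using v.map_add_le hxx.le (not_lt.mp hx₃)) (not_le.mpr hP)

lemma e1_nsmul (hI : IntCoeff v W) {P : W.Point} (hP : E1 v W P) (n : ℕ) :
    E1 v W (n • P) := by
  induction n with
  | zero => rw [zero_nsmul]; exact e1_zero
  | succ n ih => rw [succ_nsmul]; exact e1_add hI ih hP

/-- The kernel of reduction as a subgroup. -/
def e1Subgroup (hI : IntCoeff v W) : AddSubgroup W.Point where
  carrier := {P | E1 v W P}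
  zero_mem' := (e1_zero : E1 v W 0)
  add_mem' := fun hP hQ => e1_add hI hP hQ
  neg_mem' := fun h => e1_neg.mpr h

@[simp] lemma mem_e1Subgroup (hI : IntCoeff v W) {P : W.Point} :
    P ∈ e1Subgroup hI ↔ E1 v W P := Iff.rfl

lemma e1_sub (hI : IntCoeff v W) {P Q : W.Point} (hP : E1 v W P) (hQ : E1 v W Q) :
    E1 v W (P - Q) :=
  sub_eq_add_neg P Q ▸ e1_add hI hP (e1_neg.mpr hQ)

end Group

end FA.Local
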