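import Fermat.Agent.Local.Basic
import Mathlib.Data.ZMod.Basic
import Mathlib.FieldTheory.Finite.Basic

/-!
# A Weierstrass curve with nodal reduction at the origin

We study `y² + a₁xy = x³ + a₂x² + a₄x` with `v a₄ < 1` and `a₁² + 4a₂` a unit: the component
of the identity `E0`, the rational two-torsion point `(0, 0)` and the two branches at the node.
A point outside of `E0` is described by the value of its abscissa and by the residue class of
its slope `y / x`; this gives an elementary substitute for the Tate uniformisation.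
-/

namespace FA.Local

open WeierstrassCurve

variable {L Γ : Type*} [Field L] [LinearOrderedCommGroupWithZero Γ] (v : Valuation L Γ)
  (W : Affine L)

/-- Normal form for nodal reduction at the origin. -/
structure Node : Prop where
  hI : IntCoeff v W
  h₃ : W.a₃ = 0
  h₆ : W.a₆ = 0
  hb : v W.a₄ < 1
  hb₀ : W.a₄ ≠ 0
  hdisc : v (W.a₁ ^ 2 + 4 * W.a₂) = 1

/-- The points reducing to nonsingular points (in the nodal normal form). -/
def E0 : W.Point → Prop
  | .zero => True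
  | .some x _ _ => 1 ≤ v x

/-- The branch quadratic. -/
def qb (s : L) : L := s ^ 2 + W.a₁ * s - W.a₂

/-- `Br v W P g s`: the point `P` reduces to the node, `v x = g` and `y / x` is congruent to `s`. -/
def Br : W.Point → Γ → L → Prop
  | .zero, _, _ => False
  | .some x y _, g, s => v x = g ∧ v W.a₄ < g ∧ g < 1 ∧ v (y / x - s) < 1 ∧ v (qb W s) < 1

variable {v W}

@[simp] lemma e0_zero : E0 v W 0 := trivial

@[simp] lemma e0_some {x y : L} (h : W.Nonsingular x y) : E0 v W (.some x y h) ↔ 1 ≤ v x :=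
  Iff.rfl

@[simp] lemma br_some {x y : L} (h : W.Nonsingular x y) {g : Γ} {s : L} :
    Br v W (.some x y h) g s ↔
      v x = g ∧ v W.a₄ < g ∧ g < 1 ∧ v (y / x - s) < 1 ∧ v (qb W s) < 1 :=
  Iff.rfl

lemma Br.exists_eq {P : W.Point} {g : Γ} {s : L} (hP : Br v W P g s) :
    ∃ (x y : L) (h : W.Nonsingular x y), P = .some x y h := by
  rcases P with _ | ⟨x, y, h⟩
  · exact hP.elim
  · exact ⟨x, y, h, rfl⟩

lemma Br.not_e0 {P : W.Point} {g : Γ} {s : L} (hP : Br v W P g s) : ¬ E0 v W P := by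
  obtain ⟨x, y, h, rfl⟩ := hP.exists_eq
  rw [br_some] at hP
  rw [e0_some, hP.1]
  exact not_le.mpr hP.2.2.1

lemma e1_e0 {P : W.Point} (h : E1 v W P) : E0 v W P := by
  rcases P with _ | ⟨x, y, hP⟩
  · trivial
  · exact le_of_lt (show 1 < v x from h)

lemma e0_neg {P : W.Point} : E0 v W (-P) ↔ E0 v W P := by
  rcases P with _ | ⟨x, y, h⟩ <;> rfl

lemma le_four : v (4 : L) ≤ 1 := natCast_le_one 4

set_option linter.unusedSectionVars false

namespace Node

lemma nsRed (hN : Node v W) {x y : L} (h : W.Equation x y) (hx : v x = 1) :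
    NsRed v W x y := by
  have hy := le_y_of_le_x hN.hI h hx.le
  by_contra hc
  obtain ⟨h1, h2⟩ := not_or.mp hc
  have key : x ^ 3 = x * fx W x y - y * fy W x y + W.a₄ * x := by
    rw [Affine.equation_iff, hN.h₃, hN.h₆] at h
    simp only [fx, fy, hN.h₃]
    linear_combination (2 : L) * h
  have : v (x ^ 3) < 1 := by
    rw [key]
    exact v.map_add_lt (v.map_sub_lt
      (map_mul_lt_one hx.le (lt_of_le_of_ne (fx_le hN.hI hx.le hy) h2))
      (map_mul_lt_one hy (lt_of_le_of_ne (fy_le hN.hI hx.le hy) h1)))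
      (map_mul_lt_one' hN.hb hx.le)
  rw [map_pow, hx, one_pow] at this
  exact lt_irrefl _ this

lemma nonsingular_zero (hN : Node v W) : W.Nonsingular 0 0 := by
  rw [Affine.nonsingular_zero]
  exact ⟨hN.h₆, Or.inr hN.hb₀⟩

/-- The two-torsion point `(0, 0)`. -/
def T (hN : Node v W) : W.Point := .some 0 0 hN.nonsingular_zero

lemma T_not_e0 (hN : Node v W) : ¬ E0 v W hN.T := by
  rw [T, e0_some, map_zero]
  exact not_le.mpr zero_lt_one

lemma T_not_br (hN : Node v W) {g : Γ} {s : L} : ¬ Br v W hN.T g s := by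
  rw [T, br_some, map_zero]
  exact fun h => absurd (h.1.symm ▸ h.2.1 : v W.a₄ < 0) (not_lt.mpr zero_le)

lemma qb_div (hN : Node v W) {x y : L} (h : W.Equation x y) (hx : x ≠ 0) :
    qb W (y / x) = x + W.a₄ / x := by
  rw [Affine.equation_iff, hN.h₃, hN.h₆] at h
  simp only [qb]
  field_simp
  linear_combination h

lemma root_le_one (hN : Node v W) {s : L} (hs : v (qb W s) < 1) : v s ≤ 1 := by
  by_contra hc
  rw [not_le] at hc
  have h1 : v (W.a₁ * s - W.a₂) < v (s ^ 2) := by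
    have h2 : v s < v (s ^ 2) := by
      rw [map_pow, sq]; exact lt_mul_of_one_lt_left (zero_lt_one.trans hc) hc
    refine lt_of_le_of_lt (v.map_sub_le ?_ (hN.hI.h₂.trans hc.le)) h2
    rw [map_mul]; exact mul_le_of_le_one_left' hN.hI.h₁
  rw [qb, show s ^ 2 + W.a₁ * s - W.a₂ = s ^ 2 + (W.a₁ * s - W.a₂) by ring,
    v.map_add_eq_of_lt_left h1, map_pow] at hs
  exact absurd hs (not_lt.mpr (one_le_pow_of_one_le' hc.le 2))

lemma unit_root (hN : Node v W) {s : L} (hs : v (qb W s) < 1) :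
    v (2 * s + W.a₁) = 1 := by
  have h : v ((2 * s + W.a₁) ^ 2) = 1 := by
    refine eq_one_of_sub_lt hN.hdisc ?_
    rw [show (2 * s + W.a₁) ^ 2 - (W.a₁ ^ 2 + 4 * W.a₂) = 4 * qb W s by simp only [qb]; ring]
    exact map_mul_lt_one le_four hs
  rw [map_pow] at h
  exact (pow_eq_one_iff_of_nonneg zero_le two_ne_zero).mp h

lemma qb_other {s : L} : qb W (-W.a₁ - s) = qb W s := by
  simp only [qb]; ring

/-- A root of the branch quadratic is congruent to one of the two roots. -/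
lemma root_cases {s t : L} (hs : v (qb W s) < 1) (ht : v (qb W t) < 1) :
    v (t - s) < 1 ∨ v (t - (-W.a₁ - s)) < 1 := by
  by_contra hc
  rw [not_or, not_lt, not_lt] at hc
  have h : v ((t - s) * (t - (-W.a₁ - s))) < 1 := by
    rw [show (t - s) * (t - (-W.a₁ - s)) = qb W t - qb W s by simp only [qb]; ring]
    exact v.map_sub_lt ht hs
  rw [map_mul] at h
  exact absurd h (not_lt.mpr (one_le_mul hc.1 hc.2))

/-- A point of the branch region has a slope which is a root of the branch quadratic. -/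
lemma br_self (hN : Node v W) {x y : L} (h : W.Nonsingular x y) (h1 : v W.a₄ < v x)
    (h2 : v x < 1) : Br v W (.some x y h) (v x) (y / x) := by
  rw [br_some]
  refine ⟨rfl, h1, h2, by simp, ?_⟩
  have hx : x ≠ 0 := v.pos_iff.mp (lt_of_le_of_lt zero_le h1)
  rw [hN.qb_div h.1 hx]
  exact v.map_add_lt h2 (map_div_lt_one h1)

lemma br_congr {P : W.Point} {g : Γ} {s t : L} (hP : Br v W P g s) (ht : v (qb W t) < 1)
    (hst : v (s - t) < 1) : Br v W P g t := by
  obtain ⟨x, y, h, rfl⟩ := hP.exists_eq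
  rw [br_some] at hP ⊢
  exact ⟨hP.1, hP.2.1, hP.2.2.1, by simpa using v.map_add_lt hP.2.2.2.1 hst, ht⟩

variable [DecidableEq L]

lemma T_add_T (hN : Node v W) : hN.T + hN.T = 0 :=
  Affine.Point.add_of_Y_eq rfl (by simp [hN.h₃])

lemma two_nsmul_T (hN : Node v W) : 2 • hN.T = 0 := by
  rw [two_nsmul, hN.T_add_T]

lemma nsmul_T (hN : Node v W) (n : ℕ) : n • hN.T = 0 ∨ n • hN.T = hN.T := by
  rcases Nat.even_or_odd' n with ⟨k, rfl | rfl⟩
  · left; rw [mul_comm, mul_nsmul', hN.two_nsmul_T, nsmul_zero]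
  · right; rw [add_nsmul, mul_comm, mul_nsmul', hN.two_nsmul_T, nsmul_zero, zero_add, one_nsmul]

lemma br_neg {P : W.Point} {g : Γ} {s : L} (hN : Node v W) (hP : Br v W P g s) :
    Br v W (-P) g (-W.a₁ - s) := by
  obtain ⟨x, y, h, rfl⟩ := hP.exists_eq
  rw [br_some] at hP
  rw [Affine.Point.neg_some, br_some, qb_other]
  refine ⟨hP.1, hP.2.1, hP.2.2.1, ?_, hP.2.2.2.2⟩
  have hx : x ≠ 0 := v.pos_iff.mp (hP.1 ▸ lt_of_le_of_lt zero_le hP.2.1)
  rw [show W.negY x y / x - (-W.a₁ - s) = -(y / x - s) by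
    simp only [Affine.negY, hN.h₃]; field_simp; ring, v.map_neg]
  exact hP.2.2.2.1

/-- Points of the middle component are moved into `E0` by `(0, 0)`. -/
lemma e0_add_T_of_le (hN : Node v W) {x y : L} (h : W.Nonsingular x y)
    (hx : v x ≤ v W.a₄) : E0 v W (.some x y h + hN.T) := by
  by_cases hx0 : x = 0
  · subst hx0
    have hy : y = 0 := by
      have h' := (Affine.equation_iff ..).mp h.1
      rw [hN.h₃, hN.h₆] at h'
      simpa using h'
    subst hy
    exact (hN.T_add_T).symm ▸ e0_zero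
  · rw [T, Affine.Point.add_of_X_ne hx0, e0_some, Affine.slope_of_X_ne hx0, sub_zero, sub_zero,
      Affine.addX, sub_zero]
    have := hN.qb_div h.1 hx0
    rw [qb] at this
    rw [this, add_sub_cancel_left, map_div₀, one_le_div₀ (v.pos_iff.mpr hx0)]
    exact hx

/-- Translation by `(0, 0)` exchanges the branches. -/
lemma br_add_T (hN : Node v W) {P : W.Point} {g : Γ} {s : L} (hP : Br v W P g s) :
    Br v W (P + hN.T) (v W.a₄ / g) (-W.a₁ - s) := by
  obtain ⟨x, y, h, rfl⟩ := hP.exists_eq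
  rw [br_some] at hP
  obtain ⟨rfl, h1, h2, h3, h4⟩ := hP
  have hx0 : x ≠ 0 := v.pos_iff.mp (lt_of_le_of_lt zero_le h1)
  have hg : 0 < v x := v.pos_iff.mpr hx0
  rw [T, Affine.Point.add_of_X_ne hx0, br_some, qb_other]
  set l := W.slope x 0 y 0 with hl
  have hl' : l = y / x := by rw [hl, Affine.slope_of_X_ne hx0, sub_zero, sub_zero]
  have hX : W.addX x 0 l = W.a₄ / x := by
    have := hN.qb_div h.1 hx0
    rw [qb] at this
    rw [Affine.addX, hl', sub_zero, this, add_sub_cancel_left]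
  have hy : W.addY x 0 y l = (-l - W.a₁) * (W.a₄ / x) := by
    rw [Affine.addY, Affine.negAddY, Affine.negY, hX, hN.h₃, hl']
    field_simp
    ring
  rw [hX, map_div₀, hy, mul_div_cancel_right₀ _ (div_ne_zero hN.hb₀ hx0)]
  refine ⟨rfl, ?_, (div_lt_one₀ hg).mpr h1, ?_, h4⟩
  · rw [lt_div_iff₀ hg]
    exact mul_lt_of_lt_one_right (v.pos_iff.mpr hN.hb₀) h2
  · rw [show -l - W.a₁ - (-W.a₁ - s) = -(l - s) by ring, v.map_neg, hl']
    exact h3

/-- Addition of two points on the same branch. -/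
lemma br_add_same (hN : Node v W) {P Q : W.Point} {g₁ g₂ : Γ} {s : L}
    (hP : Br v W P g₁ s) (hQ : Br v W Q g₂ s) (hg : v W.a₄ < g₁ * g₂) :
    Br v W (P + Q) (g₁ * g₂) s := by
  obtain ⟨x₁, y₁, h₁, rfl⟩ := hP.exists_eq
  obtain ⟨x₂, y₂, h₂, rfl⟩ := hQ.exists_eq
  rw [br_some] at hP hQ
  obtain ⟨rfl, a1, a2, a3, hs⟩ := hP
  obtain ⟨rfl, b1, b2, b3, -⟩ := hQ
  have hx₁ : x₁ ≠ 0 := v.pos_iff.mp (lt_of_le_of_lt zero_le a1)
  have hx₂ : x₂ ≠ 0 := v.pos_iff.mp (lt_of_le_of_lt zero_le b1)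
  obtain ⟨t₁, rfl⟩ : ∃ t, y₁ = t * x₁ := ⟨y₁ / x₁, (div_mul_cancel₀ _ hx₁).symm⟩
  obtain ⟨t₂, rfl⟩ : ∃ t, y₂ = t * x₂ := ⟨y₂ / x₂, (div_mul_cancel₀ _ hx₂).symm⟩
  rw [mul_div_cancel_right₀ _ hx₁] at a3
  rw [mul_div_cancel_right₀ _ hx₂] at b3
  set b := W.a₄ with hbdef
  have q₁ := hN.qb_div h₁.1 hx₁
  have q₂ := hN.qb_div h₂.1 hx₂
  rw [mul_div_cancel_right₀ _ hx₁, qb] at q₁
  rw [mul_div_cancel_right₀ _ hx₂, qb] at q₂
  set D := t₁ + t₂ + W.a₁ with hDdef
  have hD : v D = 1 := by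
    refine eq_one_of_sub_lt (hN.unit_root hs) ?_
    rw [show D - (2 * s + W.a₁) = (t₁ - s) + (t₂ - s) by simp only [hDdef]; ring]
    exact v.map_add_lt a3 b3
  have hD0 : D ≠ 0 := fun h => by rw [h] at hD; simp at hD
  have hne : ¬ (x₁ = x₂ ∧ t₁ * x₁ = W.negY x₂ (t₂ * x₂)) := by
    rintro ⟨rfl, h⟩
    apply hD0
    simp only [Affine.negY, hN.h₃, sub_zero] at h
    have : D * x₁ = 0 := by simp only [hDdef]; linear_combination h
    exact (mul_eq_zero.mp this).resolve_right hx₁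
  rw [Affine.Point.add_some hne, br_some]
  set K := (x₂ - b / x₁) / D with hKdef
  have hdiff : (t₁ - t₂) * D = (x₁ - x₂) + b / x₁ - b / x₂ := by
    simp only [hDdef]; linear_combination q₁ - q₂
  have hl : W.slope x₁ x₂ (t₁ * x₁) (t₂ * x₂) = t₁ + K := by
    by_cases hx : x₁ = x₂
    · subst hx
      have hy := Affine.Y_eq_of_Y_ne h₁.1 h₂.1 rfl (fun h => hne ⟨rfl, h⟩)
      obtain rfl : t₁ = t₂ := mul_right_cancel₀ hx₁ hy
      have hden : t₁ * x₁ - W.negY x₁ (t₁ * x₁) = x₁ * D := by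
        simp only [Affine.negY, hN.h₃, hDdef]; ring
      rw [Affine.slope_of_Y_ne rfl (fun h => hne ⟨rfl, h⟩), hden, hKdef]
      have hq := q₁
      field_simp at hq ⊢
      simp only [hDdef, ← hbdef]
      linear_combination (-2 : L) * hq
    · rw [Affine.slope_of_X_ne hx, hKdef]
      have hd := hdiff
      have hxx : x₁ - x₂ ≠ 0 := sub_ne_zero.mpr hx
      field_simp at hd ⊢
      refine mul_left_cancel₀ hx₂ ?_
      linear_combination x₂ * hd
  have hK2 : t₁ - t₂ + K = (x₁ - b / x₂) / D := by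
    rw [eq_div_iff hD0, add_mul, hdiff, hKdef, div_mul_cancel₀ _ hD0]; ring
  have hX : W.addX x₁ x₂ (t₁ + K) = K * ((x₁ - b / x₂) / D) := by
    have hKD : K * D = x₂ - b / x₁ := div_mul_cancel₀ _ hD0
    rw [← hK2, Affine.addX]
    simp only [hDdef] at hKD
    linear_combination q₁ + hKD
  have s1 : v (b / x₁) < v x₂ := by
    rw [map_div₀, div_lt_iff₀ (v.pos_iff.mpr hx₁), mul_comm]; exact hg
  have s2 : v (b / x₂) < v x₁ := by
    rw [map_div₀, div_lt_iff₀ (v.pos_iff.mpr hx₂)]; exact hg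
  have hK : v K = v x₂ := by
    rw [hKdef, map_div₀, hD, div_one, v.map_sub_eq_of_lt_left s1]
  have hK' : v ((x₁ - b / x₂) / D) = v x₁ := by
    rw [map_div₀, hD, div_one, v.map_sub_eq_of_lt_left s2]
  have hv : v (K * ((x₁ - b / x₂) / D)) = v x₁ * v x₂ := by
    rw [map_mul, hK, hK', mul_comm]
  rw [hl, hX]
  refine ⟨hv, hg, ?_, ?_, hs⟩
  · calc v x₁ * v x₂ ≤ v x₁ * 1 := mul_le_mul' le_rfl b2.le
      _ < 1 := by rw [mul_one]; exact a2
  · have hK0 : K ≠ 0 := v.pos_iff.mp (hK ▸ v.pos_iff.mpr hx₂)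
    have hK0' : x₁ - b / x₂ ≠ 0 := fun h => by
      rw [h, zero_div, map_zero] at hK'
      exact (v.ne_zero_iff.mpr hx₁) hK'.symm
    have hY : W.addY x₁ x₂ (t₁ * x₁) (t₁ + K) / (K * ((x₁ - b / x₂) / D))
        = -(t₁ + K) - W.a₁ + x₁ * D / (x₁ - b / x₂) := by
      rw [Affine.addY, Affine.negAddY, Affine.negY, hX, hN.h₃, sub_zero]
      have e : x₁ * D / (x₁ - b / x₂) = x₁ * K / (K * ((x₁ - b / x₂) / D)) := by
        field_simp
      rw [e]
      have hne' : K * ((x₁ - b / x₂) / D) ≠ 0 := mul_ne_zero hK0 (div_ne_zero hK0' hD0)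
      generalize K * ((x₁ - b / x₂) / D) = X₃ at hne' ⊢
      field_simp
      ring
    have e : x₁ * D / (x₁ - b / x₂) = D + D * (b / x₂) / (x₁ - b / x₂) := by
      rw [eq_comm, add_div' _ _ _ hK0']
      congr 1
      ring
    rw [hY, e, show -(t₁ + K) - W.a₁ + (D + D * (b / x₂) / (x₁ - b / x₂)) - s
        = (t₂ - s) - K + D * (b / x₂) / (x₁ - b / x₂) by simp only [hDdef]; ring]
    refine v.map_add_lt (v.map_sub_lt b3 (hK ▸ b2)) (map_div_lt_one ?_)
    rwa [map_mul, hD, one_mul, v.map_sub_eq_of_lt_left s2]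

/-- Addition of two points on opposite branches. -/
lemma add_opp (hN : Node v W) {P Q : W.Point} {g₁ g₂ : Γ} {s : L}
    (hP : Br v W P g₁ s) (hQ : Br v W Q g₂ (-W.a₁ - s)) :
    (g₁ = g₂ → E0 v W (P + Q)) ∧ (g₁ < g₂ → Br v W (P + Q) (g₁ / g₂) s) := by
  obtain ⟨x₁, y₁, h₁, rfl⟩ := hP.exists_eq
  obtain ⟨x₂, y₂, h₂, rfl⟩ := hQ.exists_eq
  rw [br_some] at hP hQ
  obtain ⟨rfl, a1, a2, a3, hs⟩ := hP
  obtain ⟨rfl, b1, b2, b3, -⟩ := hQ
  have hx₁ : x₁ ≠ 0 := v.pos_iff.mp (lt_of_le_of_lt zero_le a1)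
  have hx₂ : x₂ ≠ 0 := v.pos_iff.mp (lt_of_le_of_lt zero_le b1)
  obtain ⟨t₁, rfl⟩ : ∃ t, y₁ = t * x₁ := ⟨y₁ / x₁, (div_mul_cancel₀ _ hx₁).symm⟩
  obtain ⟨t₂, rfl⟩ : ∃ t, y₂ = t * x₂ := ⟨y₂ / x₂, (div_mul_cancel₀ _ hx₂).symm⟩
  rw [mul_div_cancel_right₀ _ hx₁] at a3
  rw [mul_div_cancel_right₀ _ hx₂] at b3
  have hs1 := hN.root_le_one hs
  have ht : v (t₁ - t₂) = 1 := by
    refine eq_one_of_sub_lt (hN.unit_root hs) ?_
    rw [show t₁ - t₂ - (2 * s + W.a₁) = (t₁ - s) - (t₂ - (-W.a₁ - s)) by ring]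
    exact v.map_sub_lt a3 b3
  have ht0 : t₁ - t₂ ≠ 0 := fun h => by rw [h] at ht; simp at ht
  by_cases hx : x₁ = x₂
  · subst hx
    refine ⟨fun _ => ?_, fun h => absurd h (lt_irrefl _)⟩
    rcases Affine.Y_eq_of_X_eq h₁.1 h₂.1 rfl with h | h
    · exact absurd (sub_eq_zero.mpr (mul_right_cancel₀ hx₁ h)) ht0
    · rw [Affine.Point.add_of_Y_eq rfl h]; exact e0_zero
  rw [Affine.Point.add_of_X_ne hx]
  have hxx : x₁ - x₂ ≠ 0 := sub_ne_zero.mpr hx
  have q₁ := hN.qb_div h₁.1 hx₁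
  have q₂ := hN.qb_div h₂.1 hx₂
  rw [mul_div_cancel_right₀ _ hx₁, qb] at q₁
  rw [mul_div_cancel_right₀ _ hx₂, qb] at q₂
  set M := x₂ * (t₁ - t₂) / (x₁ - x₂) with hMdef
  have hl : W.slope x₁ x₂ (t₁ * x₁) (t₂ * x₂) = t₁ + M := by
    rw [Affine.slope_of_X_ne hx, hMdef]; field_simp; ring
  have hM : W.a₄ / x₁ - x₂ = -M * (t₁ + t₂ + W.a₁) := by
    have hd : (t₁ - t₂) * (t₁ + t₂ + W.a₁) = (x₁ - x₂) + W.a₄ / x₁ - W.a₄ / x₂ := by
      linear_combination q₁ - q₂
    rw [show -M * (t₁ + t₂ + W.a₁) = -(x₂ / (x₁ - x₂)) * ((t₁ - t₂) * (t₁ + t₂ + W.a₁)) by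
      simp only [hMdef]; field_simp, hd]
    field_simp
    ring
  have hX : W.addX x₁ x₂ (t₁ + M) = x₁ * x₂ * (t₁ - t₂) ^ 2 / (x₁ - x₂) ^ 2 := by
    rw [show W.addX x₁ x₂ (t₁ + M) = M * (t₁ - t₂ + M) by
      simp only [Affine.addX]; linear_combination q₁ + hM, hMdef]
    field_simp
    ring
  have hvX : v (x₁ * x₂ * (t₁ - t₂) ^ 2 / (x₁ - x₂) ^ 2) =
      v x₁ * v x₂ / v (x₁ - x₂) ^ 2 := by
    simp only [map_div₀, map_mul, map_pow, ht, one_pow, mul_one]
  rw [e0_some, br_some, hl, hX, hvX]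
  refine ⟨fun he => ?_, fun hlt => ?_⟩
  · rw [← he, ← sq, ← div_pow]
    exact one_le_pow_of_one_le' ((one_le_div₀ (v.pos_iff.mpr hxx)).mpr
      (v.map_sub_le le_rfl he.ge)) 2
  · have hd : v (x₁ - x₂) = v x₂ := v.map_sub_eq_of_lt_right hlt
    have hp := v.pos_iff.mpr hx₂
    have hr : v x₁ * v x₂ / v (x₁ - x₂) ^ 2 = v x₁ / v x₂ := by
      rw [hd, sq, mul_div_mul_right _ _ hp.ne']
    refine ⟨hr, ?_, (div_lt_one₀ hp).mpr hlt, ?_, hs⟩
    · rw [lt_div_iff₀ hp]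
      exact lt_of_le_of_lt (mul_le_of_le_one_right' b2.le) a1
    · have hY : W.addY x₁ x₂ (t₁ * x₁) (t₁ + M) / (x₁ * x₂ * (t₁ - t₂) ^ 2 / (x₁ - x₂) ^ 2)
          = -(t₁ + M) - W.a₁ + (x₁ - x₂) / (t₁ - t₂) := by
        rw [Affine.addY, Affine.negAddY, Affine.negY, hX, hN.h₃, hMdef]
        field_simp
        ring
      rw [hY, show -(t₁ + M) - W.a₁ + (x₁ - x₂) / (t₁ - t₂) - s
          = -(x₁ * (t₁ - t₂) / (x₁ - x₂)) - (t₂ - (-W.a₁ - s)) + (x₁ - x₂) / (t₁ - t₂)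
            - 2 * 0 by simp only [hMdef]; field_simp; ring, mul_zero, sub_zero]
      refine v.map_add_lt (v.map_sub_lt ?_ b3) (map_div_lt_one ?_)
      · rw [v.map_neg]
        refine map_div_lt_one ?_
        rw [map_mul, ht, mul_one, hd]
        exact hlt
      · rw [hd, ht]; exact b2

lemma sub_e0_of_br (hN : Node v W) {P Q : W.Point} {g : Γ} {s : L}
    (hP : Br v W P g s) (hQ : Br v W Q g s) : E0 v W (P - Q) := by
  rw [sub_eq_add_neg]
  exact (hN.add_opp hP (hN.br_neg hQ)).1 rfl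

lemma e0_add (hN : Node v W) {P Q : W.Point} (hP : E0 v W P) (hQ : E0 v W Q) :
    E0 v W (P + Q) := by
  rcases P with _ | ⟨x₁, y₁, h₁⟩
  · rwa [← Affine.Point.zero_def, zero_add]
  rcases Q with _ | ⟨x₂, y₂, h₂⟩
  · rwa [← Affine.Point.zero_def, add_zero]
  rw [e0_some] at hP hQ
  rcases lt_or_eq_of_le hP with hx₁ | hx₁ <;> rcases lt_or_eq_of_le hQ with hx₂ | hx₂
  · exact e1_e0 (e1_add hN.hI hx₁ hx₂)
  · obtain ⟨x, y, h, he, hxx, -⟩ := add_e1 hN.hI h₂ h₁ hx₂.ge hx₁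
    rw [add_comm, he, e0_some, eq_one_of_sub_lt hx₂.symm hxx]
  · obtain ⟨x, y, h, he, hxx, -⟩ := add_e1 hN.hI h₁ h₂ hx₁.ge hx₂
    rw [he, e0_some, eq_one_of_sub_lt hx₁.symm hxx]
  by_cases hne : v (x₁ - x₂) < 1 ∧ v (y₁ - W.negY x₂ y₂) < 1
  · have := e1_sub_of_congr hN.hI h₁ ((Affine.nonsingular_neg ..).mpr h₂) hx₁.ge
      (hN.nsRed h₁.1 hx₁.symm) hne.1 hne.2
    rw [← Affine.Point.neg_some h₂, sub_neg_eq_add] at this
    exact e1_e0 this
  have hl := slope_le_one hN.hI h₁.1 h₂.1 hx₁.ge hx₂.ge hne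
  have hxy : ¬ (x₁ = x₂ ∧ y₁ = W.negY x₂ y₂) := fun h => hne ⟨by simp [h.1], by simp [h.2]⟩
  rw [Affine.Point.add_some hxy, e0_some]
  set l := W.slope x₁ x₂ y₁ y₂ with hldef
  by_contra hc
  rw [not_le] at hc
  have hpoly := Affine.addPolynomial_slope h₁.1 h₂.1 hxy
  rw [Affine.addPolynomial_eq, neg_inj, Cubic.prod_X_sub_C_eq, Cubic.toPoly_injective] at hpoly
  simp only [Cubic.mk.injEq, ← hldef, hN.h₃, hN.h₆, true_and] at hpoly
  obtain ⟨-, e2, e3⟩ := hpoly
  generalize W.addX x₁ x₂ l = x₃ at hc e2 e3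
  set n := y₁ - l * x₁ with hndef
  have hn : v n ≤ 1 := v.map_sub_le (le_y_of_le_x hN.hI h₁.1 hx₁.ge) (map_mul_le_one hl hx₁.ge)
  have hn2 : v (n ^ 2) < 1 := by
    rw [show n ^ 2 = x₁ * x₂ * x₃ by simp only [hndef]; linear_combination -e3]
    exact map_mul_lt_one (map_mul_le_one hx₁.ge hx₂.ge) hc
  have hn' : v n < 1 := by
    refine lt_of_le_of_ne hn fun h => ?_
    rw [map_pow, h, one_pow] at hn2
    exact lt_irrefl _ hn2
  have : v (x₁ * x₂) < 1 := by
    rw [show x₁ * x₂ = W.a₄ - W.a₁ * n - 2 * l * n - (x₁ + x₂) * x₃ by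
      simp only [hndef]; linear_combination -e2]
    exact v.map_sub_lt (v.map_sub_lt (v.map_sub_lt hN.hb (map_mul_lt_one hN.hI.h₁ hn'))
      (map_mul_lt_one (map_mul_le_one le_two hl) hn'))
      (map_mul_lt_one (v.map_add_le hx₁.ge hx₂.ge) hc)
  rw [map_mul, ← hx₁, ← hx₂, one_mul] at this
  exact lt_irrefl _ this

lemma e0_sub (hN : Node v W) {P Q : W.Point} (hP : E0 v W P) (hQ : E0 v W Q) :
    E0 v W (P - Q) := by
  rw [sub_eq_add_neg]; exact hN.e0_add hP (e0_neg.mpr hQ)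

lemma e0_nsmul (hN : Node v W) {P : W.Point} (hP : E0 v W P) (n : ℕ) : E0 v W (n • P) := by
  induction n with
  | zero => rw [zero_nsmul]; exact e0_zero
  | succ n ih => rw [succ_nsmul]; exact hN.e0_add ih hP

/-- An odd-torsion point lies in `E0` or on one of the two branches. -/
lemma e0_or_br (hN : Node v W) {p : ℕ} (hp : Odd p) {P : W.Point} (hpP : p • P = 0) :
    E0 v W P ∨ ∃ g s, Br v W P g s := by
  rcases P with _ | ⟨x, y, h⟩
  · left; trivial
  by_cases h1 : 1 ≤ v x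
  · left; exact h1
  by_cases h2 : v x ≤ v W.a₄
  · exfalso
    have := hN.e0_nsmul (hN.e0_add_T_of_le h h2) p
    rw [nsmul_add, hpP, zero_add] at this
    obtain ⟨k, rfl⟩ := hp
    rw [add_nsmul, mul_comm, mul_nsmul', hN.two_nsmul_T, nsmul_zero, zero_add, one_nsmul] at this
    exact hN.T_not_e0 this
  · exact Or.inr ⟨_, _, hN.br_self h (not_le.mp h2) (not_le.mp h1)⟩

/-- The value of the abscissa of a `p`-torsion point outside `E0` is, up to a `p`-th root of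
unity, an even power of the value of `a₄`. -/
lemma pow_eq_of_torsion_even (hN : Node v W) {p : ℕ} (hp : p.Prime) {P : W.Point} {g : Γ} {s : L}
    (hP : Br v W P g s) (hpP : p • P = 0) : ∃ i : ℕ, g ^ p = v W.a₄ ^ (2 * i) := by
  have hg : 0 < g := lt_of_le_of_lt zero_le (by
    obtain ⟨x, y, h, rfl⟩ := hP.exists_eq; exact hP.2.1)
  have hPT := hN.br_add_T hP
  have main : ∀ k : ℕ, 1 ≤ k → k ≤ p → ∃ j : ℕ,
      (∃ h, Br v W (k • P + j • hN.T) h s ∧ h * v W.a₄ ^ j = g ^ k) ∨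
      (E0 v W (k • P + j • hN.T) ∧ g ^ k = v W.a₄ ^ j) := by
    intro k hk
    induction k, hk using Nat.le_induction with
    | base =>
      exact fun _ => ⟨0, Or.inl ⟨g, by rwa [one_nsmul, zero_nsmul, add_zero], by simp⟩⟩
    | succ k hk ih =>
      intro hkp
      obtain ⟨j, ⟨h, hbr, hpow⟩ | ⟨hE, -⟩⟩ := ih (by omega)
      · rcases lt_trichotomy (v W.a₄) (h * g) with hlt | heq | hgt
        · refine ⟨j, Or.inl ⟨h * g, ?_, by rw [pow_succ, ← hpow, mul_right_comm]⟩⟩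
          rw [succ_nsmul, show k • P + P + j • hN.T = (k • P + j • hN.T) + P by abel]
          exact hN.br_add_same hbr hP hlt
        · refine ⟨j + 1, Or.inr ⟨?_, ?_⟩⟩
          swap
          · rw [pow_succ, ← hpow, pow_succ, mul_right_comm, ← heq, mul_comm]
          rw [succ_nsmul, succ_nsmul,
            show k • P + P + (j • hN.T + hN.T) = (k • P + j • hN.T) + (P + hN.T) by abel]
          exact (hN.add_opp hbr hPT).1 (by rw [eq_div_iff hg.ne', ← heq])
        · have hlt : h < v W.a₄ / g := by rwa [lt_div_iff₀ hg]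
          refine ⟨j + 1, Or.inl ⟨h / (v W.a₄ / g), ?_, ?_⟩⟩
          · rw [succ_nsmul, succ_nsmul,
              show k • P + P + (j • hN.T + hN.T) = (k • P + j • hN.T) + (P + hN.T) by abel]
            exact (hN.add_opp hbr hPT).2 hlt
          · rw [pow_succ, pow_succ, ← hpow]
            have hb : v W.a₄ ≠ 0 := v.ne_zero_iff.mpr hN.hb₀
            field_simp
      · exfalso
        have := Fact.mk hp
        have hk0 : (k : ZMod p) ≠ 0 := by
          rw [Ne, ZMod.natCast_eq_zero_iff]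
          exact Nat.not_dvd_of_pos_of_lt (by omega) (by omega)
        set m := (k : ZMod p)⁻¹.val with hm
        have hmk : ((k * m : ℕ) : ZMod p) = (1 : ℕ) := by
          rw [Nat.cast_mul, hm, ZMod.natCast_zmod_val, mul_inv_cancel₀ hk0, Nat.cast_one]
        have hmP : (k * m) • P = P := by
          have hmod : (k * m) % p = 1 := by
            rw [(ZMod.natCast_eq_natCast_iff' _ _ _).mp hmk, Nat.mod_eq_of_lt hp.one_lt]
          conv_lhs => rw [← Nat.mod_add_div (k * m) p, hmod, add_nsmul, one_nsmul, mul_nsmul,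
            hpP, nsmul_zero, add_zero]
        have := hN.e0_nsmul hE m
        rw [nsmul_add, ← mul_nsmul, hmP, ← mul_nsmul] at this
        rcases hN.nsmul_T (j * m) with hT | hT <;> rw [hT] at this
        · exact hP.not_e0 (by simpa using this)
        · exact hPT.not_e0 this
  obtain ⟨j, ⟨h, hbr, -⟩ | ⟨hE, hpow⟩⟩ := main p hp.one_lt.le le_rfl
  · rw [hpP, zero_add] at hbr
    rcases hN.nsmul_T j with hT | hT <;> rw [hT] at hbr
    · exact hbr.elim
    · exact absurd hbr hN.T_not_br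
  · rw [hpP, zero_add] at hE
    obtain ⟨i, rfl | rfl⟩ := j.even_or_odd'
    · exact ⟨i, hpow⟩
    · rw [add_nsmul, mul_comm, mul_nsmul', hN.two_nsmul_T, nsmul_zero, zero_add, one_nsmul] at hE
      exact absurd hE hN.T_not_e0

/-- The value of the abscissa of a `p`-torsion point outside `E0` is, up to a `p`-th root of
unity, a power of the value of `a₄`. -/
lemma pow_eq_of_torsion (hN : Node v W) {p : ℕ} (hp : p.Prime) {P : W.Point} {g : Γ} {s : L}
    (hP : Br v W P g s) (hpP : p • P = 0) : ∃ j : ℕ, g ^ p = v W.a₄ ^ j :=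
  (hN.pow_eq_of_torsion_even hp hP hpP).elim fun i h => ⟨2 * i, h⟩

end Node

end FA.Local
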