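import Fermat.Agent.Local.Node
import Mathlib.AlgebraicGeometry.EllipticCurve.VariableChange
import Mathlib.FieldTheory.IsAlgClosed.Basic

/-!
# A nodal normal form for multiplicative reduction

An integral Weierstrass equation over an algebraically closed valued field with discriminant of
value `< 1` and unit `c₄` becomes a `Node` after moving a two-torsion point which reduces to the
node to the origin. Any residue characteristic is allowed.
-/

namespace FA.Local

open WeierstrassCurve Polynomial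

variable {L Γ : Type*} [Field L] [LinearOrderedCommGroupWithZero Γ] {v : Valuation L Γ}

/-- The value at `r` of the two-division polynomial. -/
def psi2 (V : WeierstrassCurve L) (r : L) : L :=
  4 * r ^ 3 + V.b₂ * r ^ 2 + 2 * V.b₄ * r + V.b₆

/-- The ordinate making `(r, t)` invariant under negation. -/
def halfY (V : WeierstrassCurve L) (r : L) : L := -(V.a₁ * r + V.a₃) / 2

/-- The equation with the two-torsion point of abscissa `r` at the origin. -/
noncomputable def toOrigin (V : WeierstrassCurve L) (r : L) : WeierstrassCurve L :=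
  (⟨1, r, 0, halfY V r⟩ : VariableChange L) • V

variable {V : WeierstrassCurve L} {r : L}

lemma toOrigin_a₁ : (toOrigin V r).a₁ = V.a₁ := by
  simp [toOrigin, variableChange_a₁]

lemma toOrigin_a₂ : (toOrigin V r).a₂ = V.a₂ + 3 * r := by
  simp [toOrigin, variableChange_a₂]

lemma toOrigin_a₃ (h2 : (2 : L) ≠ 0) : (toOrigin V r).a₃ = 0 := by
  simp [toOrigin, variableChange_a₃, halfY]
  field_simp
  ring

lemma toOrigin_a₄ : (toOrigin V r).a₄ =
    V.a₄ + 2 * r * V.a₂ - halfY V r * V.a₁ + 3 * r ^ 2 := by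
  simp [toOrigin, variableChange_a₄]

lemma toOrigin_a₆ (h2 : (2 : L) ≠ 0) (hr : psi2 V r = 0) : (toOrigin V r).a₆ = 0 := by
  have : 4 * (toOrigin V r).a₆ = psi2 V r := by
    simp only [toOrigin, variableChange_a₆, halfY, psi2, WeierstrassCurve.b₂, WeierstrassCurve.b₄,
      WeierstrassCurve.b₆, inv_one, Units.val_one]
    field_simp
    ring
  rw [hr] at this
  refine (mul_eq_zero.mp this).resolve_left ?_
  rw [show (4 : L) = 2 * 2 by norm_num]
  exact mul_ne_zero h2 h2

/-- `a₁² + 4a₂` of the equation at the origin. -/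
def discB (V : WeierstrassCurve L) (r : L) : L := V.b₂ + 12 * r

lemma toOrigin_disc : (toOrigin V r).a₁ ^ 2 + 4 * (toOrigin V r).a₂ = discB V r := by
  rw [toOrigin_a₁, toOrigin_a₂, discB, WeierstrassCurve.b₂]; ring

lemma halfY_equation (h2 : (2 : L) ≠ 0) (hr : psi2 V r = 0) :
    V.toAffine.Equation r (halfY V r) := by
  rw [Affine.equation_iff]
  have := toOrigin_a₆ h2 hr
  simp only [toOrigin, variableChange_a₆, inv_one, Units.val_one] at this
  linear_combination -this

lemma toOrigin_Δ : (toOrigin V r).Δ = V.Δ := by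
  simp [toOrigin, variableChange_Δ]

lemma toOrigin_c₄ : (toOrigin V r).c₄ = V.c₄ := by
  simp [toOrigin, variableChange_c₄]

lemma toOrigin_Δ_eq (h2 : (2 : L) ≠ 0) (hr : psi2 V r = 0) :
    V.Δ = (toOrigin V r).a₄ ^ 2 * (discB V r ^ 2 - 64 * (toOrigin V r).a₄) := by
  rw [← toOrigin_Δ (r := r), ← toOrigin_disc]
  simp only [WeierstrassCurve.Δ, WeierstrassCurve.b₂, WeierstrassCurve.b₄, WeierstrassCurve.b₆,
    WeierstrassCurve.b₈, toOrigin_a₃ h2, toOrigin_a₆ h2 hr]
  ring

lemma toOrigin_c₄_eq (h2 : (2 : L) ≠ 0) :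
    V.c₄ = discB V r ^ 2 - 48 * (toOrigin V r).a₄ := by
  rw [← toOrigin_c₄ (r := r), ← toOrigin_disc]
  simp only [WeierstrassCurve.c₄, WeierstrassCurve.b₂, WeierstrassCurve.b₄, toOrigin_a₃ h2]
  ring

variable (hI : IntCoeff v V.toAffine)

include hI in
lemma toOrigin_intCoeff (h2 : (2 : L) ≠ 0) (hr : psi2 V r = 0) (hr1 : v r ≤ 1) :
    IntCoeff v (toOrigin V r).toAffine := by
  have ht : v (halfY V r) ≤ 1 := le_y_of_le_x hI (halfY_equation h2 hr) hr1
  refine ⟨?_, ?_, ?_, ?_, ?_⟩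
  · show v (toOrigin V r).a₁ ≤ 1
    rw [toOrigin_a₁]; exact hI.h₁
  · show v (toOrigin V r).a₂ ≤ 1
    rw [toOrigin_a₂]; exact v.map_add_le hI.h₂ (map_mul_le_one le_three hr1)
  · show v (toOrigin V r).a₃ ≤ 1
    rw [toOrigin_a₃ h2, map_zero]; exact zero_le
  · show v (toOrigin V r).a₄ ≤ 1
    rw [toOrigin_a₄]
    exact v.map_add_le (v.map_sub_le (v.map_add_le hI.h₄
      (map_mul_le_one (map_mul_le_one le_two hr1) hI.h₂)) (map_mul_le_one ht hI.h₁))
      (map_mul_le_one le_three (map_pow_le_one hr1 2))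
  · show v (toOrigin V r).a₆ ≤ 1
    rw [toOrigin_a₆ h2 hr, map_zero]; exact zero_le

include hI in
/-- The two-division polynomial has an integral root. -/
lemma exists_integral_root [IsAlgClosed L] (h2 : (2 : L) ≠ 0) (hc : v V.c₄ = 1) :
    ∃ r, psi2 V r = 0 ∧ v r ≤ 1 := by
  have h4 : (4 : L) ≠ 0 := by
    rw [show (4 : L) = 2 * 2 by norm_num]; exact mul_ne_zero h2 h2
  obtain ⟨R₁, hR₁⟩ := IsAlgClosed.exists_root (C (4 : L) * X ^ 3 + C V.b₂ * X ^ 2
    + C (2 * V.b₄) * X + C V.b₆) (by rw [degree_cubic h4]; exact three_ne_zero)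
  simp only [IsRoot.def, eval_add, eval_mul, eval_C, eval_pow, eval_X] at hR₁
  obtain ⟨R₂, hR₂⟩ := IsAlgClosed.exists_root (C (4 : L) * X ^ 2 + C (V.b₂ + 4 * R₁) * X
    + C (4 * R₁ ^ 2 + V.b₂ * R₁ + 2 * V.b₄)) (by rw [degree_quadratic h4]; exact two_ne_zero)
  simp only [IsRoot.def, eval_add, eval_mul, eval_C, eval_pow, eval_X] at hR₂
  set R₃ := -(V.b₂ + 4 * R₁) / 4 - R₂ with hR₃
  have hsum : 4 * R₁ + 4 * R₂ + 4 * R₃ = -V.b₂ := by rw [hR₃]; field_simp; ring
  have hprod : 4 * (R₁ * R₂ * R₃) = -V.b₆ := by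
    have e : 4 * R₃ = -(V.b₂ + 4 * R₁) - 4 * R₂ := by linear_combination hsum
    calc 4 * (R₁ * R₂ * R₃) = R₁ * R₂ * (4 * R₃) := by ring
      _ = -V.b₆ := by rw [e]; linear_combination hR₁ - R₁ * hR₂
  have hroot₂ : psi2 V R₂ = 0 := by
    rw [psi2]; linear_combination (R₂ - R₁) * hR₂ + hR₁
  have hroot₃ : psi2 V R₃ = 0 := by
    have hq₃ : 4 * R₃ * R₃ + (V.b₂ + 4 * R₁) * R₃ + (4 * R₁ ^ 2 + V.b₂ * R₁ + 2 * V.b₄) = 0 := by
      rw [show 4 * R₃ * R₃ + (V.b₂ + 4 * R₁) * R₃ = R₃ * (4 * R₃ + V.b₂ + 4 * R₁) by ring,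
        show 4 * R₃ + V.b₂ + 4 * R₁ = -(4 * R₂) by linear_combination hsum]
      have e : 4 * R₃ = -(V.b₂ + 4 * R₁) - 4 * R₂ := by linear_combination hsum
      linear_combination hR₂ - R₂ * e
    rw [psi2]; linear_combination (R₃ - R₁) * hq₃ + hR₁
  by_contra hcon
  push Not at hcon
  have g₁ : 1 < v R₁ := hcon R₁ (by rw [psi2]; linear_combination hR₁)
  have g₂ := hcon R₂ hroot₂
  have g₃ := hcon R₃ hroot₃
  have hb6 : v (4 : L) * (v R₁ * v R₂ * v R₃) ≤ 1 := by
    rw [← map_mul, ← map_mul, ← map_mul, hprod, v.map_neg]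
    exact v.map_add_le (map_pow_le_one hI.h₃ 2) (map_mul_le_one le_four hI.h₆)
  have h4le : v (4 : L) ≤ 1 := le_four
  rcases lt_or_eq_of_le h4le with h4v | h4v
  · -- residue characteristic two: the sum of the roots is large
    have hb2 : v V.b₂ = 1 := by
      have h24 : v (24 * V.b₄) < 1 := by
        rw [show (24 : L) * V.b₄ = 4 * (6 * V.b₄) by ring]
        exact map_mul_lt_one' h4v (map_mul_le_one (natCast_le_one 6)
          (v.map_add_le (map_mul_le_one le_two hI.h₄) (map_mul_le_one hI.h₁ hI.h₃)))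
      have := eq_one_of_sub_lt hc (b := V.b₂ ^ 2) (by
        rw [WeierstrassCurve.c₄, sub_sub_cancel]; exact h24)
      rw [map_pow] at this
      exact (pow_eq_one_iff.mp this).resolve_right two_ne_zero
    have hbig : 1 ≤ v (4 * R₁) ∨ 1 ≤ v (4 * R₂) ∨ 1 ≤ v (4 * R₃) := by
      by_contra hsm
      rw [not_or, not_or, not_le, not_le, not_le] at hsm
      have := v.map_add_lt (v.map_add_lt hsm.1 hsm.2.1) hsm.2.2
      rw [hsum, v.map_neg, hb2] at this
      exact lt_irrefl _ this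
    simp only [map_mul] at hbig
    have key : ∀ a b c : Γ, 1 ≤ v (4 : L) * a → 1 < b → 1 < c → ¬ v (4 : L) * (a * b * c) ≤ 1 :=
      fun a b c ha hb hc' hle => absurd hle (not_le.mpr (by
        rw [mul_assoc a, ← mul_assoc]
        exact lt_of_lt_of_le (one_lt_mul'' hb hc') (le_mul_of_one_le_left' ha)))
    rcases hbig with h | h | h
    · exact key _ _ _ h g₂ g₃ hb6
    · exact key _ _ _ h g₁ g₃ (by rwa [show v R₂ * v R₁ * v R₃ = v R₁ * v R₂ * v R₃ by
        rw [mul_comm (v R₂)]])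
    · exact key _ _ _ h g₁ g₂ (by rwa [show v R₃ * v R₁ * v R₂ = v R₁ * v R₂ * v R₃ by
        rw [mul_assoc, mul_comm]])
  · rw [h4v, one_mul] at hb6
    exact absurd hb6 (not_le.mpr (one_lt_mul'' (one_lt_mul'' g₁ g₂) g₃))

include hI in
/-- Multiplicative reduction has a nodal normal form. -/
theorem exists_node [IsAlgClosed L] (h2 : (2 : L) ≠ 0) (hΔ : v V.Δ < 1) (hΔ0 : V.Δ ≠ 0)
    (hc : v V.c₄ = 1) :
    ∃ r, psi2 V r = 0 ∧ v r ≤ 1 ∧ Node v (toOrigin V r).toAffine := by
  suffices h : ∃ r, psi2 V r = 0 ∧ v r ≤ 1 ∧ v (toOrigin V r).a₄ < 1 by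
    obtain ⟨r, hr, hr1, ha⟩ := h
    refine ⟨r, hr, hr1, toOrigin_intCoeff hI h2 hr hr1, toOrigin_a₃ h2, toOrigin_a₆ h2 hr, ha,
      fun h0 => hΔ0 ?_, ?_⟩
    · rw [toOrigin_Δ_eq h2 hr, show (toOrigin V r).a₄ = 0 from h0]; ring
    show v ((toOrigin V r).a₁ ^ 2 + 4 * (toOrigin V r).a₂) = 1
    rw [toOrigin_disc]
    have := eq_one_of_sub_lt hc (b := discB V r ^ 2) (by
      rw [toOrigin_c₄_eq h2 (r := r), sub_sub_cancel]
      exact map_mul_lt_one (natCast_le_one 48) ha)
    rw [map_pow] at this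
    exact (pow_eq_one_iff.mp this).resolve_right two_ne_zero
  obtain ⟨r, hr, hr1⟩ := exists_integral_root hI h2 hc
  set A := (toOrigin V r).a₄ with hA
  set B := discB V r with hB
  have hA1 : v A ≤ 1 := (toOrigin_intCoeff hI h2 hr hr1).h₄
  rcases lt_or_eq_of_le hA1 with hlt | hA1'
  · exact ⟨r, hr, hr1, hlt⟩
  have hsmall : v (B ^ 2 - 64 * A) < 1 := by
    rw [toOrigin_Δ_eq h2 hr, map_mul, map_pow, hA1', one_pow, one_mul] at hΔ
    exact hΔ
  have h4v : v (4 : L) = 1 := by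
    refine eq_one_of_not_lt le_four fun h4 => ?_
    have h48 : v (48 * A) < 1 := by
      rw [show (48 : L) * A = 4 * (12 * A) by ring]
      exact map_mul_lt_one' h4 (map_mul_le_one (natCast_le_one 12) hA1)
    have h64 : v (64 * A) < 1 := by
      rw [show (64 : L) * A = 4 * (16 * A) by ring]
      exact map_mul_lt_one' h4 (map_mul_le_one (natCast_le_one 16) hA1)
    have e : V.c₄ = (B ^ 2 - 64 * A) + (64 * A - 48 * A) := by
      rw [toOrigin_c₄_eq h2 (r := r)]; ring
    have := v.map_add_lt hsmall (v.map_sub_lt h64 h48)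
    rw [← e, hc] at this
    exact lt_irrefl _ this
  have h4 : (4 : L) ≠ 0 := fun h => by rw [h, map_zero] at h4v; exact zero_ne_one h4v
  obtain ⟨x, hx⟩ := IsAlgClosed.exists_root (C (4 : L) * X ^ 2 + C B * X + C (4 * A))
    (by rw [degree_quadratic h4]; exact two_ne_zero)
  simp only [IsRoot.def, eval_add, eval_mul, eval_C, eval_pow, eval_X] at hx
  have hB1 : v B ≤ 1 := by
    rw [hB, discB]
    exact v.map_add_le (v.map_add_le (map_pow_le_one hI.h₁ 2) (map_mul_le_one le_four hI.h₂))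
      (map_mul_le_one (natCast_le_one 12) hr1)
  have hx1 : v x ≤ 1 := by
    by_contra hx1
    rw [not_le] at hx1
    have hrest : v (B * x + 4 * A) ≤ v x := v.map_add_le
      (by rw [map_mul]; exact mul_le_of_le_one_left' hB1)
      ((map_mul_le_one le_four hA1).trans hx1.le)
    rw [show B * x + 4 * A = -(4 * x ^ 2) by linear_combination hx, v.map_neg, map_mul, h4v,
      one_mul, map_pow] at hrest
    refine absurd hrest (not_le.mpr ?_)
    rw [sq]
    exact lt_mul_of_one_lt_left (zero_lt_one.trans hx1) hx1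
  refine ⟨r + x, ?_, v.map_add_le hr1 hx1, ?_⟩
  · have e : psi2 V (r + x) = psi2 V r + x * (4 * x ^ 2 + B * x + 4 * A) := by
      simp only [psi2, hB, hA, discB, toOrigin_a₄, halfY, WeierstrassCurve.b₂, WeierstrassCurve.b₄,
        WeierstrassCurve.b₆]
      field_simp
      ring
    rw [e, hr, hx, mul_zero, add_zero]
  · have e : 4 * (toOrigin V (r + x)).a₄ = x * (8 * x + B) + (4 * x ^ 2 + B * x + 4 * A) := by
      simp only [hA, hB, toOrigin_a₄, discB, halfY, WeierstrassCurve.b₂]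
      field_simp
      ring
    have h8 : v (8 * x + B) < 1 := by
      have : v ((8 * x + B) ^ 2) < 1 := by
        rw [show (8 * x + B) ^ 2 = B ^ 2 - 64 * A + 16 * (4 * x ^ 2 + B * x + 4 * A) by ring, hx,
          mul_zero, add_zero]
        exact hsmall
      rw [map_pow] at this
      by_contra hge
      exact absurd this (not_lt.mpr (one_le_pow_of_one_le' (not_lt.mp hge) 2))
    have := map_mul_lt_one hx1 h8
    rw [show x * (8 * x + B) = 4 * (toOrigin V (r + x)).a₄ by rw [e, hx, add_zero],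
      map_mul, h4v, one_mul] at this
    exact this

end FA.Local
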